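import Mathlib
import Fermat.Agent.Red.Setup
import Fermat.Agent.Red.Values

/-!
# Program B (BADRED), block B3: the semistable setup (interface shared by B3 and B4)

Multi-component analogue of `Red.RedSetup`: a function field `F/K` over a valued field `(K, A)`
with a finite family of valuation rings `O v` (`v : ι`, the components of the special fibre of a
semistable model), residue function fields `Ft v / k`, finitely many nodes `e : ν`, each given by
a branch place `s₁ e` on the component `src e` and a branch place `s₂ e` on the component `tgt e`,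
and a reduction map of places `r`.

Conventions.
* `r P = ⟨v, Q⟩` with `⟨v, Q⟩` not a branch point: `P` lies in the residue disc of the smooth
  point `Q` of the component `v`.
* `r P = ⟨src e, s₁ e⟩`: `P` lies in the open annulus of the node `e` (annular points are attached
  to the source branch; nothing is sent to the target branch `⟨tgt e, s₂ e⟩`).

Axioms: the per-component axioms of `Red.RedSetup` (`res`, constants, `approx`), distinctness of
the `O v`, connectedness of the dual graph, conservation of principal divisors at smooth points (for
units of ONE component, no condition at the other components), matching of the values of the two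
reductions at a node for functions without poles in the annulus (`node_match`, maximum principle on
the annulus) and `node_unit` (a nonzero value at the node excludes zeros in the annulus).
No thickness, no annulus coordinate, no zero count at the nodes is used.

Targets: `NoTorsionInKernel S` (principal-reduction form, with matching at the nodes) and
`MainStatement S`.
-/

set_option autoImplicit false

namespace Fermat.Agent.BR.SS

open AlgebraicCurve Fermat.Agent.Red

/-- A semistable valued function field. -/
structure SemistableSetup {K F k : Type*} [Field K] [Field F] [Algebra K F] [Field k]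
    (A : ValuationSubring K) (π : A →+* k) (ι : Type*) (Ft : ι → Type*)
    [∀ v, Field (Ft v)] [∀ v, Algebra k (Ft v)] (ν : Type*) where
  /-- the valuation rings of the components of the special fibre -/
  O : ι → ValuationSubring F
  /-- the residue maps -/
  res : ∀ v, O v →+* Ft v
  res_surjective : ∀ v, Function.Surjective (res v)
  res_eq_zero_iff : ∀ v (x : O v), res v x = 0 ↔ ¬ IsUnit x
  algebraMap_mem_iff : ∀ v (a : K), algebraMap K F a ∈ O v ↔ a ∈ A
  res_algebraMap : ∀ v (a : K) (ha : a ∈ A) (ha' : algebraMap K F a ∈ O v),
    res v ⟨algebraMap K F a, ha'⟩ = algebraMap k (Ft v) (π ⟨a, ha⟩)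
  /-- best approximation, component by component -/
  approx : ∀ v (V : Submodule K F), Module.Finite K V → ∀ y : F, y ∉ V →
    ∃ w ∈ V, ∃ c : K, c ≠ 0 ∧ ∃ h : c • (y - w) ∈ O v,
      ∀ z : O v, (z : F) ∈ V → res v z ≠ res v ⟨c • (y - w), h⟩
  /-- distinct components have distinct valuation rings -/
  O_injective : Function.Injective O
  /-- the two components through a node -/
  src : ν → ι
  tgt : ν → ι
  /-- the branch of the node on the component `src e` -/
  s₁ : ∀ e, Place k (Ft (src e))
  /-- the branch of the node on the component `tgt e` -/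
  s₂ : ∀ e, Place k (Ft (tgt e))
  /-- the `2 |ν|` branch points are pairwise distinct -/
  branch_injective : Function.Injective
    (Sum.elim (fun e => (⟨src e, s₁ e⟩ : Σ v, Place k (Ft v))) (fun e => ⟨tgt e, s₂ e⟩))
  /-- the dual graph is connected -/
  connected : ∀ T : Set ι, T.Nonempty → (∀ e, src e ∈ T ↔ tgt e ∈ T) → T = Set.univ
  /-- the reduction of places -/
  r : Place K F → Σ v, Place k (Ft v)
  r_ne_tgt : ∀ P e, r P ≠ ⟨tgt e, s₂ e⟩
  /-- conservation of principal divisors at the smooth points of a component -/
  conservation : ∀ v (y : O v), res v y ≠ 0 → ∀ D : Divisor K F, (∀ P, D P = P.ord (y : F)) →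
    ∀ Q : Place k (Ft v),
      (∀ e, (⟨v, Q⟩ : Σ v, Place k (Ft v)) ≠ ⟨src e, s₁ e⟩) →
      (∀ e, (⟨v, Q⟩ : Σ v, Place k (Ft v)) ≠ ⟨tgt e, s₂ e⟩) →
      Finsupp.mapDomain r D ⟨v, Q⟩ = Q.ord (res v y)
  /-- matching at a node: a function integral on both components through the node and without
  poles in the annulus has reductions regular at the two branches, with the same value
  (maximum principle / Laurent expansion on the annulus) -/
  node_match : ∀ (e : ν) (y : F) (h₁ : y ∈ O (src e)) (h₂ : y ∈ O (tgt e)),
    (∀ P, r P = ⟨src e, s₁ e⟩ → 0 ≤ P.ord y) →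
    ∃ c : k, IsValueAt (s₁ e) (res (src e) ⟨y, h₁⟩) c ∧ IsValueAt (s₂ e) (res (tgt e) ⟨y, h₂⟩) c
  /-- a function as in `node_match` with a nonzero value at the node has no zero in the annulus
  (Newton polygon on the annulus) -/
  node_unit : ∀ (e : ν) (y : F) (h₁ : y ∈ O (src e)) (_h₂ : y ∈ O (tgt e)),
    (∀ P, r P = ⟨src e, s₁ e⟩ → 0 ≤ P.ord y) →
    (∃ c : k, c ≠ 0 ∧ IsValueAt (s₁ e) (res (src e) ⟨y, h₁⟩) c) →
    ∀ P, r P = ⟨src e, s₁ e⟩ → P.ord y = 0

section Targets

variable {K F k : Type*} [Field K] [Field F] [Algebra K F] [Field k]
  {A : ValuationSubring K} {π : A →+* k} {ι : Type*} {Ft : ι → Type*}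
  [∀ v, Field (Ft v)] [∀ v, Algebra k (Ft v)] {ν : Type*}

namespace SemistableSetup

variable (S : SemistableSetup (F := F) A π ι Ft ν)

/-- The branch points of the nodes. -/
def IsBranch (x : Σ v, Place k (Ft v)) : Prop :=
  ∃ e, x = ⟨S.src e, S.s₁ e⟩ ∨ x = ⟨S.tgt e, S.s₂ e⟩

/-- A place with smooth reduction (in the residue disc of a smooth point of a component). -/
def IsSmoothPlace (P : Place K F) : Prop := ¬ S.IsBranch (S.r P)

/-- A divisor on the normalisation of the special fibre, supported at smooth points, is
principal on the nodal curve: it is the divisor of a family of nonzero functions on the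
components whose values at the two branches of every node agree. -/
def PrincipalRed (Dbar : (Σ v, Place k (Ft v)) →₀ ℤ) : Prop :=
  ∃ t : ∀ v, Ft v, (∀ v, t v ≠ 0) ∧ (∀ v (Q : Place k (Ft v)), Q.ord (t v) = Dbar ⟨v, Q⟩) ∧
    ∀ e, ∃ c : k, IsValueAt (S.s₁ e) (t (S.src e)) c ∧ IsValueAt (S.s₂ e) (t (S.tgt e)) c

end SemistableSetup

/-- Target of B3 (principal-reduction form, with matching at the nodes): a divisor `D` with
smooth reduction such that `m D` is principal (`m` prime to the residue characteristic) and whose
reduction is principal on the nodal curve is principal. -/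
def NoTorsionInKernel (S : SemistableSetup (F := F) A π ι Ft ν) : Prop :=
  ∀ m : ℕ, (m : k) ≠ 0 → ∀ D : Divisor K F, (∀ P ∈ D.support, S.IsSmoothPlace P) →
    m • D ∈ Divisor.principal (K := K) (F := F) →
    S.PrincipalRed (Finsupp.mapDomain S.r D) →
    D ∈ Divisor.principal (K := K) (F := F)

/-- Exact shape of the main theorem of B3. -/
def MainStatement [Fintype ι] [Fintype ν] (S : SemistableSetup (F := F) A π ι Ft ν) : Prop :=
  IsAlgClosed K → IsAlgClosed k → IsRankOne A → RiemannPkg K F → (∀ v, RiemannPkg k (Ft v)) →
    (genusFF K F : ℤ) = ∑ v, (genusFF k (Ft v) : ℤ) + Fintype.card ν - Fintype.card ι + 1 →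
    NoTorsionInKernel S

end Targets

end Fermat.Agent.BR.SS
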