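import Mathlib
import Fermat.Agent.BR.SS.Setup
import Fermat.Agent.BR.NodalRed

/-!
# Program B (BADRED), node B3.BR: the bridge `SemistableSetup → Nodal.NodalRed`

`S.toNodalRed` is the `Nodal.NodalRed` core of a semistable setup `S` (block B3): same components,
residue function fields and nodes; the partial reduction `r v P` is `some Q` iff `S.r P = ⟨v, Q⟩`
and `⟨v, Q⟩` is not a branch point of a node; `nodePts v` are the branch points lying on `v`.

Main result: `ntk_of_noTorsionInKernel : SS.NoTorsionInKernel S → S.toNodalRed.NTK`, so that the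
target of block B3 is exactly the hypothesis consumed by block B4
(`Nodal.HasNodalReductions`, `Nodal.sq_smul_mem_principal_of_secondDiffOK`).
-/

set_option autoImplicit false

namespace Fermat.Agent.BR.SS

open AlgebraicCurve Fermat.Agent.Red Fermat.Agent.BR.Nodal

section SigmaProj

variable {ι : Type*} {β : ι → Type*}

open Classical in
/-- The component of a point of a sigma type lying over `v`, if any. -/
noncomputable def sigmaProj (v : ι) (x : Σ v, β v) : Option (β v) :=
  if h : x.1 = v then some (h ▸ x.2) else none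

theorem sigmaProj_mk (v : ι) (Q : β v) : sigmaProj v (⟨v, Q⟩ : Σ v, β v) = some Q := by
  unfold sigmaProj
  simp

theorem sigmaProj_eq_some_iff {v : ι} {x : Σ v, β v} {Q : β v} :
    sigmaProj v x = some Q ↔ x = ⟨v, Q⟩ := by
  constructor
  · intro h
    obtain ⟨w, Q'⟩ := x
    unfold sigmaProj at h
    split_ifs at h with hw
    · dsimp only at hw
      subst hw
      cases h
      rfl
  · rintro rfl
    exact sigmaProj_mk v Q

theorem sigmaProj_eq_none_of_ne {v : ι} {x : Σ v, β v} (h : x.1 ≠ v) : sigmaProj v x = none := by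
  unfold sigmaProj
  rw [dif_neg h]

end SigmaProj

variable {K F k : Type*} [Field K] [Field F] [Algebra K F] [Field k]
  {A : ValuationSubring K} {π : A →+* k} {ι : Type} {Ft : ι → Type}
  [∀ v, Field (Ft v)] [∀ v, Algebra k (Ft v)] {ν : Type}

namespace SemistableSetup

variable (S : SemistableSetup (F := F) A π ι Ft ν)

open Classical in
/-- The partial reduction of places onto the smooth points of the component `v`. -/
noncomputable def smoothRed (v : ι) (P : Place K F) : Option (Place k (Ft v)) :=
  if S.IsBranch (S.r P) then none else sigmaProj v (S.r P)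

theorem smoothRed_eq_some_iff {v : ι} {P : Place K F} {Q : Place k (Ft v)} :
    S.smoothRed v P = some Q ↔ S.r P = ⟨v, Q⟩ ∧ S.IsSmoothPlace P := by
  unfold smoothRed IsSmoothPlace
  split_ifs with hb
  · simp [hb]
  · rw [sigmaProj_eq_some_iff]
    simp [hb]

theorem smoothRed_isSome_iff {v : ι} {P : Place K F} :
    (S.smoothRed v P).isSome ↔ (S.r P).1 = v ∧ S.IsSmoothPlace P := by
  rw [Option.isSome_iff_exists]
  constructor
  · rintro ⟨Q, hQ⟩
    rw [smoothRed_eq_some_iff] at hQ
    exact ⟨by rw [hQ.1], hQ.2⟩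
  · rintro ⟨h1, h2⟩
    subst h1
    exact ⟨(S.r P).2, (S.smoothRed_eq_some_iff).2 ⟨rfl, h2⟩⟩

/-- The `Nodal.NodalRed` core of a semistable setup. -/
@[reducible] noncomputable def toNodalRed : NodalRed K F k where
  V := ι
  Ft := Ft
  r := S.smoothRed
  r_unique := by
    intro P v w hv hw
    rw [smoothRed_isSome_iff] at hv hw
    rw [← hv.1, ← hw.1]
  nodePts := fun v => {Q | S.IsBranch ⟨v, Q⟩}
  r_not_node := by
    intro v P Q h
    rw [smoothRed_eq_some_iff] at h
    intro hQ
    apply h.2
    rw [h.1]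
    exact hQ
  E := ν
  src := S.src
  tgt := S.tgt
  Qs := S.s₁
  Qt := S.s₂
  Qs_mem := fun e => ⟨e, Or.inl rfl⟩
  Qt_mem := fun e => ⟨e, Or.inr rfl⟩

theorem toNodalRed_isSmooth_iff (P : Place K F) :
    S.toNodalRed.IsSmooth P ↔ S.IsSmoothPlace P := by
  constructor
  · rintro ⟨v, hv⟩
    exact ((S.smoothRed_isSome_iff).1 hv).2
  · intro h
    exact ⟨(S.r P).1, (S.smoothRed_isSome_iff).2 ⟨rfl, h⟩⟩

theorem mem_toNodalRed_nodePts_iff (v : ι) (Q : Place k (Ft v)) :
    Q ∈ S.toNodalRed.nodePts v ↔ S.IsBranch ⟨v, Q⟩ := Iff.rfl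

/-- On divisors with smooth reduction, the component-wise reduction `redDiv` of `S.toNodalRed`
is the push-forward `Finsupp.mapDomain S.r`. -/
theorem toNodalRed_redDiv_single_apply (P : Place K F) (hPs : S.IsSmoothPlace P) (n : ℤ)
    (v : ι) (Q : Place k (Ft v)) :
    S.toNodalRed.redDiv v (Finsupp.single P n) Q =
      (Finsupp.single (S.r P) n : (Σ v, Place k (Ft v)) →₀ ℤ) ⟨v, Q⟩ := by
  classical
  rw [NodalRed.redDiv_single]
  by_cases hQ : S.r P = ⟨v, Q⟩
  · have : S.toNodalRed.r v P = some Q := (S.smoothRed_eq_some_iff).2 ⟨hQ, hPs⟩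
    rw [this, hQ]
    simp
  · rw [Finsupp.single_apply, if_neg hQ]
    cases h : S.toNodalRed.r v P with
    | none => rfl
    | some Q' =>
      have h' := (S.smoothRed_eq_some_iff).1 h
      have hne : Q' ≠ Q := by
        rintro rfl
        exact hQ h'.1
      simp [hne]

theorem toNodalRed_redDiv_apply (D : Divisor K F) (hsm : ∀ P ∈ D.support, S.IsSmoothPlace P)
    (v : ι) (Q : Place k (Ft v)) :
    S.toNodalRed.redDiv v D Q = Finsupp.mapDomain S.r D ⟨v, Q⟩ := by
  classical
  have h1 : S.toNodalRed.redDiv v D =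
      D.sum fun P n => S.toNodalRed.redDiv v (Finsupp.single P n) := by
    conv_lhs => rw [← Finsupp.sum_single D]
    rw [map_finsuppSum]
  rw [h1, Finsupp.mapDomain, Finsupp.sum_apply, Finsupp.sum_apply]
  refine Finset.sum_congr rfl fun P hP => ?_
  exact S.toNodalRed_redDiv_single_apply P (hsm P hP) (D P) v Q

/-- Compatibility of `S.toNodalRed` with an automorphism `g` of `F/K` acting on the components
through `α` (step (R2) of block B4), from its description on `S.r`: smooth places go to smooth
places, with `r (g • P) = ⟨v, α v • Q⟩` when `r P = ⟨v, Q⟩`; non-smooth places stay non-smooth. -/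
theorem toNodalRed_compat (g : SemilinearAut K F) (α : ∀ v, SemilinearAut k (Ft v))
    (hr : ∀ P, S.IsSmoothPlace P → S.r (g • P) = ⟨(S.r P).1, α (S.r P).1 • (S.r P).2⟩)
    (hsm : ∀ P, S.IsSmoothPlace P → S.IsSmoothPlace (g • P))
    (hns : ∀ P, ¬ S.IsSmoothPlace P → ¬ S.IsSmoothPlace (g • P)) :
    S.toNodalRed.Compat g α := by
  intro v P
  by_cases hP : S.IsSmoothPlace P
  · by_cases hv : (S.r P).1 = v
    · subst hv
      have h1 : S.toNodalRed.r (S.r P).1 P = some (S.r P).2 :=
        (S.smoothRed_eq_some_iff).2 ⟨rfl, hP⟩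
      have h2 : S.toNodalRed.r (S.r P).1 (g • P) = some (α (S.r P).1 • (S.r P).2) :=
        (S.smoothRed_eq_some_iff).2 ⟨hr P hP, hsm P hP⟩
      rw [h1, h2]
      rfl
    · have h1 : S.toNodalRed.r v P = none := by
        rw [← Option.not_isSome_iff_eq_none]
        intro h
        exact hv ((S.smoothRed_isSome_iff).1 h).1
      have h2 : S.toNodalRed.r v (g • P) = none := by
        rw [← Option.not_isSome_iff_eq_none]
        intro h
        have h3 := ((S.smoothRed_isSome_iff).1 h).1
        rw [hr P hP] at h3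
        exact hv h3
      rw [h1, h2]
      rfl
  · have h1 : S.toNodalRed.r v P = none := by
      rw [← Option.not_isSome_iff_eq_none]
      intro h
      exact hP ((S.smoothRed_isSome_iff).1 h).2
    have h2 : S.toNodalRed.r v (g • P) = none := by
      rw [← Option.not_isSome_iff_eq_none]
      intro h
      exact hns P hP ((S.smoothRed_isSome_iff).1 h).2
    rw [h1, h2]
    rfl

end SemistableSetup

/-- **The target of block B3 is the hypothesis of block B4.** -/
theorem ntk_of_noTorsionInKernel (S : SemistableSetup (F := F) A π ι Ft ν)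
    (h : NoTorsionInKernel S) : S.toNodalRed.NTK := by
  intro m hm D _ hsm hmD hρ
  have hsm' : ∀ P ∈ D.support, S.IsSmoothPlace P := fun P hP =>
    (S.toNodalRed_isSmooth_iff P).1 (hsm P hP)
  refine h m hm D hsm' hmD ?_
  obtain ⟨ρ, hρ0, hρdiv, hρnode⟩ := hρ
  refine ⟨ρ, hρ0, fun v Q => ?_, fun e => ?_⟩
  · rw [← S.toNodalRed_redDiv_apply D hsm' v Q]
    exact (hρdiv v Q).symm
  · obtain ⟨c, _, h1, h2⟩ := hρnode e
    exact ⟨c, h1, h2⟩

/-- `Nodal.HasNodalReductions` from a family of semistable setups: for every finite set `T` of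
places there is a semistable setup `S` (the model refined at the annular positions of `T`) with
`NoTorsionInKernel S` (block B3), all places of `T` smooth, `g` acting compatibly through `α`
(step (R2)), and the second differences on the components under control (step (R3)). -/
theorem hasNodalReductions_of_semistable (g : SemilinearAut K F)
    (h : ∀ T : Finset (Place K F), ∃ (A : ValuationSubring K) (π : A →+* k) (ι : Type)
      (Ft : ι → Type) (_ : ∀ v, Field (Ft v)) (_ : ∀ v, Algebra k (Ft v)) (ν : Type)
      (S : SemistableSetup (F := F) A π ι Ft ν), NoTorsionInKernel S ∧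
        (∀ P ∈ T, S.IsSmoothPlace P) ∧ ∃ α : ∀ v, SemilinearAut k (Ft v),
          S.toNodalRed.Compat g α ∧ ∀ v, S.toNodalRed.SecondDiffOK v (α v)) :
    HasNodalReductions k g := by
  intro T
  obtain ⟨A, π, ι, Ft, _, _, ν, S, hS, hT, α, hα, hα2⟩ := h T
  exact ⟨S.toNodalRed, ntk_of_noTorsionInKernel S hS,
    fun P hP => (S.toNodalRed_isSmooth_iff P).2 (hT P hP), α, hα, hα2⟩

end Fermat.Agent.BR.SS
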