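import Fermat.Agent.BR.SS.ChartGen
import Fermat.Agent.Red.Ending

/-!
# Program B (BADRED), block B3, node B3.7 (part 2): the ending, setup-free

Setup-free form of `Red/Ending.lean` (lift lemma and conclusion), for a "unit ball" `O ≤ F`
containing the constants from the valuation ring `A ≤ K`.  Residues are replaced by congruences
modulo `𝔪_A • O` (`IsSmall A O x`): in a `RedSetup`, and in a semistable setup with
`O = ⨅ v, O v`, one has `res x = res y ↔ IsSmall A O (x - y)` for `x, y ∈ O` (saturation).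

Hypothesis-form inputs (Prop-valued definitions, supplied by the upstream nodes):
* `ApproxProp A O` : best approximation for the unit ball `O` (B3.2);
* `TwoLatticeProp A O` : the two-lattice lemma (B3.2);
* `LiftProp A O Z₁ Z₂ D E` : two functions of `O`, regular outside `Z₁` resp. `Z₂` up to `E`, which
  are congruent modulo `𝔪_A • O`, are congruent to an element of `L(D + E) ∩ O` (B3.4: reduction
  into the glued space + lifting in large degree).

Results:
* `exists_lift_mod_gen` : the lift lemma;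
* `mem_principal_of_forall_approx_gen` : the conclusion `D ∈ principal`.
-/

set_option autoImplicit false

namespace Fermat.Agent.BR.SS

open AlgebraicCurve Fermat.Agent.Red Module

variable {K F : Type*} [Field K] [Field F] [Algebra K F] {A : ValuationSubring K}

/-! ### Congruences modulo `𝔪_A • O` -/

/-- `x ∈ 𝔪_A • O`: `x = t • z` with `t` a non-unit of `A` and `z ∈ O`. -/
def IsSmall (A : ValuationSubring K) (O : Subring F) (x : F) : Prop :=
  ∃ t ∈ A.nonunits, ∃ z ∈ O, x = t • z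

namespace IsSmall

variable {O : Subring F}

theorem zero : IsSmall A O (0 : F) := ⟨0, A.nonunits.zero_mem, 0, O.zero_mem, by simp⟩

theorem smul_mem {t : K} (ht : t ∈ A.nonunits) {z : F} (hz : z ∈ O) : IsSmall A O (t • z) :=
  ⟨t, ht, z, hz, rfl⟩

theorem of_isModulus {t : K} (ht : IsModulus A t) {z : F} (hz : z ∈ O) : IsSmall A O (t • z) :=
  smul_mem ((ValuationSubring.mem_nonunits_iff_or A).mpr (Or.inr ht.inv_not_mem)) hz

theorem neg {x : F} (h : IsSmall A O x) : IsSmall A O (-x) := by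
  obtain ⟨t, ht, z, hz, rfl⟩ := h
  exact ⟨t, ht, -z, O.neg_mem hz, by rw [smul_neg]⟩

theorem mul_mem {x y : F} (h : IsSmall A O x) (hy : y ∈ O) : IsSmall A O (x * y) := by
  obtain ⟨t, ht, z, hz, rfl⟩ := h
  exact ⟨t, ht, z * y, O.mul_mem hz hy, by rw [smul_mul_assoc]⟩

theorem mem_mul {x y : F} (hx : x ∈ O) (h : IsSmall A O y) : IsSmall A O (x * y) := by
  rw [mul_comm]
  exact h.mul_mem hx

theorem smul {a : K} (ha : a ∈ A) {x : F} (h : IsSmall A O x) : IsSmall A O (a • x) := by
  obtain ⟨t, ht, z, hz, rfl⟩ := h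
  refine ⟨a * t, ?_, z, hz, by rw [smul_smul]⟩
  rw [ValuationSubring.mem_nonunits_iff, map_mul]
  have h1 : A.valuation a ≤ 1 := (A.valuation_le_one_iff a).mpr ha
  have h2 : A.valuation t < 1 := ht
  calc A.valuation a * A.valuation t ≤ 1 * A.valuation t := mul_le_mul_left h1 _
    _ = A.valuation t := one_mul _
    _ < 1 := h2

variable (hconst : ∀ a ∈ A, algebraMap K F a ∈ O)

include hconst in
theorem mem {x : F} (h : IsSmall A O x) : x ∈ O := by
  obtain ⟨t, ht, z, hz, rfl⟩ := h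
  rw [Algebra.smul_def]
  exact O.mul_mem (hconst t (ValuationSubring.nonunits_subset ht)) hz

include hconst in
theorem add {x y : F} (hx : IsSmall A O x) (hy : IsSmall A O y) : IsSmall A O (x + y) := by
  -- it suffices to treat the case where the modulus of `x` dominates
  have key : ∀ {x y : F} {t t' : K}, t ∈ A.nonunits → t' ∈ A.nonunits →
      A.valuation t' ≤ A.valuation t → ∀ z ∈ O, ∀ z' ∈ O, x = t • z → y = t' • z' →
      IsSmall A O (x + y) := by
    intro x y t t' ht ht' hle z hz z' hz' hx hy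
    by_cases ht0 : t = 0
    · have ht'0 : t' = 0 := by
        rw [ht0, map_zero] at hle
        exact (map_eq_zero _).mp (le_antisymm hle zero_le)
      rw [hx, hy, ht0, ht'0, zero_smul, zero_smul, add_zero]
      exact zero
    · have hdiv : t' / t ∈ A := by
        rw [← A.valuation_le_one_iff, map_div₀]
        have hpos : 0 < A.valuation t :=
          lt_of_le_of_ne zero_le (Ne.symm ((map_ne_zero _).mpr ht0))
        exact (div_le_one₀ hpos).mpr hle
      have hz'' : (t' / t) • z' ∈ O := by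
        rw [Algebra.smul_def]
        exact O.mul_mem (hconst _ hdiv) hz'
      refine ⟨t, ht, z + (t' / t) • z', O.add_mem hz hz'', ?_⟩
      rw [hx, hy, smul_add, smul_smul, mul_div_cancel₀ _ ht0]
  obtain ⟨t, ht, z, hz, hxe⟩ := hx
  obtain ⟨t', ht', z', hz', hye⟩ := hy
  rcases le_total (A.valuation t') (A.valuation t) with hle | hle
  · exact key ht ht' hle z hz z' hz' hxe hye
  · rw [add_comm]
    exact key ht' ht hle z' hz' z hz hye hxe

include hconst in
theorem sub {x y : F} (hx : IsSmall A O x) (hy : IsSmall A O y) : IsSmall A O (x - y) := by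
  rw [sub_eq_add_neg]
  exact add hconst hx hy.neg

end IsSmall

/-! ### Hypothesis-form inputs -/

/-- Best approximation for the unit ball `O` (norm with unit ball `O`): every finite-dimensional
subspace `V` of `F` has "orthogonal projections". -/
def ApproxProp (A : ValuationSubring K) (O : Subring F) : Prop :=
  ∀ V : Submodule K F, Module.Finite K V → ∀ y : F, y ∉ V →
    ∃ w ∈ V, ∃ c : K, c ≠ 0 ∧ c • (y - w) ∈ O ∧
      ∀ z ∈ O, z ∈ V → ¬ IsSmall A O (z - c • (y - w))

/-- The two-lattice lemma for the unit ball `O`. -/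
def TwoLatticeProp (A : ValuationSubring K) (O : Subring F) : Prop :=
  ∀ W₀ W₁ : Submodule K F, Module.Finite K W₀ → Module.Finite K W₁ →
    (∀ a : K, IsModulus A a → ∃ h₀ ∈ W₀, ∃ h₁ ∈ W₁, ∃ μ ∈ O,
      h₁ ∈ O ∧ ¬ IsSmall A O h₁ ∧ h₀ - h₁ = a • μ) →
    W₀ ⊓ W₁ ≠ ⊥

/-- The lifting property for the pair of charts `Z₁`, `Z₂` and the divisor `D + E`: two functions
of `O`, regular outside `Z₁` resp. `Z₂` up to `E`, which are congruent modulo `𝔪_A • O`, are
congruent modulo `𝔪_A • O` to an element of `L(D + E) ∩ O`. -/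
def LiftProp (A : ValuationSubring K) (O : Subring F) (Z₁ Z₂ : Set (Place K F))
    (D E : Divisor K F) : Prop :=
  ∀ x ∈ O, x ∈ regularOutside Z₁ E → ∀ x' ∈ O, x' ∈ regularOutside Z₂ E →
    IsSmall A O (x - x') → ∃ z ∈ riemannRochSpace (D + E), z ∈ O ∧ IsSmall A O (z - x)

/-! ### The lift lemma -/

/-- **Lift lemma, setup-free.** If `g₂ β₂ - β₁ ∈ a O` with `βᵢ` in the chart rings, then `β₁` is
congruent modulo `a O` to an element of `L(D + E)`. -/
theorem exists_lift_mod_gen (hF : RiemannPkg K F) (O : Subring F)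
    (hconst : ∀ a ∈ A, algebraMap K F a ∈ O) (happrox : ApproxProp A O)
    (Z1 Z2 : Set (Place K F)) (D E : Divisor K F) (hE : 0 ≤ E)
    (hD0 : ∀ P : Place K F, P ∉ Z1 → D P = 0)
    (g2 : F) (hg2i : g2⁻¹ ∈ O) (hg2r : IsSmall A O (g2 - 1))
    (hord : ∀ P : Place K F, P ∉ Z2 → P.ord g2 = - D P)
    (hlift : LiftProp A O Z1 Z2 D E)
    (β1 β2 : F) (hβ1 : β1 ∈ chartOf O Z1) (hβ2 : β2 ∈ chartOf O Z2)
    (a : K) (ha0 : a ≠ 0) (w' : F) (hw' : w' ∈ O)
    (hrel : g2 * β2 - β1 = a • w') :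
    ∃ h ∈ riemannRochSpace (D + E), ∃ μ ∈ O, β1 - h = a • μ := by
  classical
  have hsmulO : ∀ {b : K}, b ∈ A → ∀ {x : F}, x ∈ O → b • x ∈ O := by
    intro b hb x hx
    rw [Algebra.smul_def]
    exact O.mul_mem (hconst b hb) hx
  have hfin : Module.Finite K (riemannRochSpace (D + E)) := hF.finite_L _
  by_cases hβ : β1 ∈ riemannRochSpace (D + E)
  · exact ⟨β1, hβ, 0, O.zero_mem, by simp⟩
  obtain ⟨w, hw, c, hc, hζ, hne⟩ := happrox (riemannRochSpace (D + E)) hfin β1 hβ
  by_cases hac : (a * c)⁻¹ ∈ A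
  · refine ⟨w, hw, (a * c)⁻¹ • (c • (β1 - w)), hsmulO hac hζ, ?_⟩
    rw [smul_smul, smul_smul]
    have : a * (a * c)⁻¹ * c = 1 := by field_simp
    rw [this, one_smul]
  exfalso
  have hacA : a * c ∈ A := (A.mem_or_inv_mem (a * c)).resolve_right hac
  have hacnu : a * c ∈ A.nonunits := (ValuationSubring.mem_nonunits_iff_or A).mpr (Or.inr hac)
  have hg20 : g2 ≠ 0 := by
    intro h
    rw [h, zero_sub] at hg2r
    have h1 : (-1 : F) ∈ O := hg2r.mem hconst
    -- `1 ∈ 𝔪_A O` contradicts the best approximation of ... ; use `hne` directly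
    have hone : IsSmall A O (1 : F) := by simpa using hg2r.neg
    exact hne 0 O.zero_mem (Submodule.zero_mem _) (by
      have := (hone.mul_mem (O.neg_mem hζ))
      simpa using this)
  -- the second representative
  set ζ : F := c • (β1 - w) with hζdef
  set ζ' : F := c • (β2 - w / g2) with hζ'def
  have hζ'eq : ζ' = g2⁻¹ * (ζ + (a * c) • w') := by
    have h1 : g2 * β2 = β1 + a • w' := by rw [← hrel]; ring
    have h2 : g2 * ζ' = ζ + (a * c) • w' := by
      rw [hζ'def, hζdef, mul_smul_comm, mul_sub, h1, mul_div_cancel₀ _ hg20, mul_smul, smul_sub,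
        smul_sub, smul_add, smul_comm c a w']
      ring
    rw [← h2, ← mul_assoc, inv_mul_cancel₀ hg20, one_mul]
  have hsumO : ζ + (a * c) • w' ∈ O := O.add_mem hζ (hsmulO hacA hw')
  have hζ'O : ζ' ∈ O := by rw [hζ'eq]; exact O.mul_mem hg2i hsumO
  -- `ζ' ≡ ζ` modulo `𝔪_A O`
  have hcong : IsSmall A O (ζ - ζ') := by
    have h1 : IsSmall A O (g2⁻¹ - 1) := by
      have : g2⁻¹ - 1 = -(g2⁻¹ * (g2 - 1)) := by
        rw [mul_sub, inv_mul_cancel₀ hg20]
        ring
      rw [this]
      exact (IsSmall.mem_mul hg2i hg2r).neg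
    have h2 : ζ - ζ' = -((g2⁻¹ - 1) * ζ + g2⁻¹ * ((a * c) • w')) := by
      rw [hζ'eq]
      ring
    rw [h2]
    exact (IsSmall.add hconst (h1.mul_mem hζ)
      (IsSmall.mem_mul hg2i (IsSmall.smul_mem hacnu hw'))).neg
  -- pole bounds outside `Z1` resp. `Z2`
  have hζreg : ζ ∈ regularOutside Z1 E := by
    refine Submodule.smul_mem _ _ (Submodule.sub_mem _ ?_ ?_)
    · exact regularOutside_mono (le_refl Z1) hE (mem_regularRing_iff_mem_regularOutside.mp hβ1.2)
    · intro P hP
      have := hw P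
      rwa [Finsupp.add_apply, hD0 P hP, zero_add] at this
  have hζ'reg : ζ' ∈ regularOutside Z2 E := by
    refine Submodule.smul_mem _ _ (Submodule.sub_mem _ ?_ ?_)
    · exact regularOutside_mono (le_refl Z2) hE (mem_regularRing_iff_mem_regularOutside.mp hβ2.2)
    · rw [mem_regularOutside_iff]
      intro P hP
      rcases eq_or_ne w 0 with rfl | hw0
      · left; simp
      right
      have h1 := (mem_riemannRochSpace_iff.mp hw P).resolve_left hw0
      rw [Finsupp.add_apply] at h1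
      rw [div_eq_mul_inv, P.ord_mul hw0 (inv_ne_zero hg20), P.ord_inv, hord P hP]
      omega
  obtain ⟨z, hzW, hzO, hz⟩ := hlift ζ hζ hζreg ζ' hζ'O hζ'reg hcong
  exact hne z hzO hzW hz

/-! ### The conclusion -/

/-- **The ending, setup-free.** For `D` of degree zero and chart data `Z1 ⊇ supp D`, `Z2`, `g₂`
(a unit of `O` congruent to `1`, `div g₂ = -D` outside `Z2`), and two effective divisors `E₀`, `E₁`
with disjoint supports for which the lifting property holds: if the transition function `g₂` admits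
approximate sections modulo every modulus `a ∈ A` (output of (R3)), then `D` is principal. -/
theorem mem_principal_of_forall_approx_gen (hF : RiemannPkg K F) (O : Subring F)
    (hconst : ∀ a ∈ A, algebraMap K F a ∈ O) (happrox : ApproxProp A O)
    (htwo : TwoLatticeProp A O)
    (D : Divisor K F) (hdeg : Divisor.degree D = 0)
    (Z1 Z2 : Set (Place K F)) (hD0 : ∀ P : Place K F, P ∉ Z1 → D P = 0)
    (g2 : F) (hg2i : g2⁻¹ ∈ O) (hg2r : IsSmall A O (g2 - 1))
    (hord : ∀ P : Place K F, P ∉ Z2 → P.ord g2 = - D P)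
    (E₀ E₁ : Divisor K F) (hE₀ : 0 ≤ E₀) (hE₁ : 0 ≤ E₁) (hE : ∀ P, E₀ P = 0 ∨ E₁ P = 0)
    (hlift₀ : LiftProp A O Z1 Z2 D E₀) (hlift₁ : LiftProp A O Z1 Z2 D E₁)
    (hR3 : ∀ a : K, IsModulus A a → ∃ β1 ∈ chartOf O Z1, ∃ β2 ∈ chartOf O Z2, ∃ w ∈ O,
      ¬ IsSmall A O β1 ∧ g2 * β2 - β1 = a • w) :
    D ∈ Divisor.principal (K := K) (F := F) := by
  classical
  have hsmulO : ∀ {b : K}, b ∈ A → ∀ {x : F}, x ∈ O → b • x ∈ O := by
    intro b hb x hx
    rw [Algebra.smul_def]
    exact O.mul_mem (hconst b hb) hx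
  have hne := htwo (riemannRochSpace (D + E₀)) (riemannRochSpace (D + E₁)) (hF.finite_L _)
    (hF.finite_L _) (by
      intro a ha
      obtain ⟨β1, hβ1, β2, hβ2, w, hw, hβres, hrel⟩ := hR3 a ha
      obtain ⟨h₀, hh₀, μ₀, hμ₀, e₀⟩ := exists_lift_mod_gen hF O hconst happrox Z1 Z2 D E₀ hE₀
        hD0 g2 hg2i hg2r hord hlift₀ β1 β2 hβ1 hβ2 a ha.ne_zero w hw hrel
      obtain ⟨h₁, hh₁, μ₁, hμ₁, e₁⟩ := exists_lift_mod_gen hF O hconst happrox Z1 Z2 D E₁ hE₁
        hD0 g2 hg2i hg2r hord hlift₁ β1 β2 hβ1 hβ2 a ha.ne_zero w hw hrel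
      have h1eq : h₁ = β1 - a • μ₁ := by rw [← e₁]; ring
      have h1O : h₁ ∈ O := by
        rw [h1eq]
        exact O.sub_mem hβ1.1 (hsmulO ha.mem hμ₁)
      refine ⟨h₀, hh₀, h₁, hh₁, μ₁ - μ₀, O.sub_mem hμ₁ hμ₀, h1O, ?_, ?_⟩
      · intro hsmall
        apply hβres
        have : β1 = h₁ + a • μ₁ := by rw [h1eq]; ring
        rw [this]
        exact IsSmall.add hconst hsmall (IsSmall.of_isModulus ha hμ₁)
      · rw [smul_sub, ← e₁, ← e₀]
        ring)
  -- a nonzero element of the intersection lies in `L(D)`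
  obtain ⟨s, hs, hs0⟩ := (Submodule.ne_bot_iff _).mp hne
  apply mem_principal_of_degree_eq_zero_of_ne_bot hF hdeg
  rw [Submodule.ne_bot_iff]
  refine ⟨s, ?_, hs0⟩
  rw [mem_riemannRochSpace_iff]
  intro P
  right
  have h0 := (mem_riemannRochSpace_iff.mp hs.1 P).resolve_left hs0
  have h1 := (mem_riemannRochSpace_iff.mp hs.2 P).resolve_left hs0
  rw [Finsupp.add_apply] at h0 h1
  rcases hE P with h | h
  · rw [h, add_zero] at h0
    exact h0
  · rw [h, add_zero] at h1
    exact h1

end Fermat.Agent.BR.SS
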