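import Fermat.Agent.BR.SS.Basic
import Fermat.Agent.BR.SS.EndingGen

/-!
# Program B (BADRED), block B3, node B3.7 (part 3): the two-chart approximation theorem in a
`SemistableSetup`

Instantiation of the setup-free layer (`SS/ChartGen.lean`, `SS/EndingGen.lean`) at the unit ball
`S.Oall = ⨅ v, O v` of a semistable setup.

* `S.isSmall_iff`, `S.isSmall_sub_iff` : for elements of `S.Oall`, congruence modulo `𝔪_A • Oall`
  is equality of the residue tuples (`resAll`) — the bridge between the residue-free layer and the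
  residue language (uses saturation, `SS/Basic.lean`);
* `S.hloc_Oall` : `1 ∉ 𝔪_A • Oall` in the form used by `exists_approx_chartOf`;
* `S.natCast_unit_of_ne_zero` : a natural number which is nonzero in `k` is a unit of `A`;
* `S.exists_approx_chart`, `S.r3_output` : ports of `Red.RedSetup.exists_approx_chart`,
  `Red.RedSetup.r3_output` (the constants lemma modulo the modulus `a₀` is the hypothesis `h0`,
  supplied by `SS/Const`).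
-/

set_option autoImplicit false

namespace Fermat.Agent.BR.SS

open AlgebraicCurve Fermat.Agent.Red

variable {K F k : Type*} [Field K] [Field F] [Algebra K F] [Field k]
  {A : ValuationSubring K} {π : A →+* k} {ι : Type*} {Ft : ι → Type*}
  [∀ v, Field (Ft v)] [∀ v, Algebra k (Ft v)] {ν : Type*}

namespace SemistableSetup

variable (S : SemistableSetup (F := F) A π ι Ft ν)

/-! ### Congruences modulo `𝔪_A • Oall` versus residues -/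

include S in
/-- A non-unit of `A` has zero residue. -/
theorem pi_eq_zero_of_mem_nonunits [Nonempty ι] {t : K} (ht : t ∈ A.nonunits) :
    π ⟨t, ValuationSubring.nonunits_subset ht⟩ = 0 := by
  obtain ⟨v⟩ := ‹Nonempty ι›
  exact (S.pi_eq_zero_iff v ⟨t, ValuationSubring.nonunits_subset ht⟩).mpr ht

include S in
/-- A non-unit of `A` (in the form used by `Red/ChartInst.lean`) has zero residue. -/
theorem pi_eq_zero_of_not_unit [Nonempty ι] {a : K} (ha : a ∈ A) (hau : ¬ (a ≠ 0 ∧ a⁻¹ ∈ A)) :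
    π ⟨a, ha⟩ = 0 := by
  obtain ⟨v⟩ := ‹Nonempty ι›
  rw [S.pi_eq_zero_iff v, ValuationSubring.mem_nonunits_iff_or]
  by_cases h0 : a = 0
  · exact Or.inl h0
  · exact Or.inr fun h => hau ⟨h0, h⟩

theorem resAll_eq_zero_of_isSmall [Nonempty ι] {x : F} (h : IsSmall A S.Oall x) :
    S.resAll x = 0 := by
  obtain ⟨t, ht, z, hz, rfl⟩ := h
  rw [S.resAll_smul (ValuationSubring.nonunits_subset ht) hz, S.pi_eq_zero_of_mem_nonunits ht,
    zero_smul]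

theorem isSmall_of_resAll_eq_zero [Finite ι] [Nonempty ι] {x : F} (hx : x ∈ S.Oall)
    (h : S.resAll x = 0) : IsSmall A S.Oall x := by
  rcases eq_or_ne x 0 with rfl | hx0
  · exact IsSmall.zero
  · obtain ⟨a, -, -, hau, w, hw, -, rfl⟩ := S.exists_smul_of_resAll_eq_zero hx hx0 h
    exact IsSmall.smul_mem ((ValuationSubring.mem_nonunits_iff_or A).mpr (Or.inr hau)) hw

/-- For elements of `Oall`: `x ∈ 𝔪_A • Oall` iff all residues of `x` vanish. -/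
theorem isSmall_iff [Finite ι] [Nonempty ι] {x : F} (hx : x ∈ S.Oall) :
    IsSmall A S.Oall x ↔ S.resAll x = 0 :=
  ⟨S.resAll_eq_zero_of_isSmall, S.isSmall_of_resAll_eq_zero hx⟩

/-- For elements of `Oall`: congruence modulo `𝔪_A • Oall` is equality of the residue tuples. -/
theorem isSmall_sub_iff [Finite ι] [Nonempty ι] {x y : F} (hx : x ∈ S.Oall) (hy : y ∈ S.Oall) :
    IsSmall A S.Oall (x - y) ↔ S.resAll x = S.resAll y := by
  rw [S.isSmall_iff (S.Oall.sub_mem hx hy), S.resAll_sub hx hy, sub_eq_zero]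

/-- `1 ∉ 𝔪_A • Oall`. -/
theorem not_isSmall_one [Nonempty ι] : ¬ IsSmall A S.Oall (1 : F) := by
  intro h
  have h1 := S.resAll_eq_zero_of_isSmall h
  rw [S.resAll_one] at h1
  obtain ⟨v⟩ := ‹Nonempty ι›
  exact one_ne_zero (congrFun h1 v)

/-- An element of `Oall` with a nonzero residue is not in `𝔪_A • Oall`. -/
theorem not_isSmall_of_resF_ne_zero [Nonempty ι] {x : F} {v : ι} (h : S.resF v x ≠ 0) :
    ¬ IsSmall A S.Oall x := fun hs => h (congrFun (S.resAll_eq_zero_of_isSmall hs) v)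

/-- The locality hypothesis of `exists_approx_chartOf` for `Oall`. -/
theorem hloc_Oall [Nonempty ι] :
    ∀ l ∈ A, ¬ (l ≠ 0 ∧ l⁻¹ ∈ A) → ∀ a' ∈ A, ¬ (a' ≠ 0 ∧ a'⁻¹ ∈ A) →
      ∀ y₁ ∈ S.Oall, ∀ y₂ ∈ S.Oall, algebraMap K F l * y₁ + algebraMap K F a' * y₂ ≠ 1 := by
  intro l hl hlu a' ha' hau y₁ hy₁ y₂ hy₂ e
  have h1 := S.pi_eq_zero_of_not_unit hl hlu
  have h2 := S.pi_eq_zero_of_not_unit ha' hau
  have e1 : S.resAll (algebraMap K F l * y₁ + algebraMap K F a' * y₂) = 0 := by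
    rw [← Algebra.smul_def, ← Algebra.smul_def,
      S.resAll_add (S.smul_mem hl hy₁) (S.smul_mem ha' hy₂), S.resAll_smul hl hy₁,
      S.resAll_smul ha' hy₂, h1, h2, zero_smul, zero_smul, add_zero]
  rw [e, S.resAll_one] at e1
  obtain ⟨v⟩ := ‹Nonempty ι›
  exact one_ne_zero (congrFun e1 v)

include S in
/-- A natural number which is nonzero in the residue field is a unit of `A`. -/
theorem natCast_unit_of_ne_zero [Nonempty ι] (m : ℕ) (hm : (m : k) ≠ 0) :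
    (m : K) ≠ 0 ∧ (m : K)⁻¹ ∈ A := by
  obtain ⟨v⟩ := ‹Nonempty ι›
  have hmA : (m : K) ∈ A := natCast_mem A m
  have h1 : π ⟨(m : K), hmA⟩ ≠ 0 := by
    have : (⟨(m : K), hmA⟩ : A) = ((m : ℕ) : A) := by
      ext
      simp
    rw [this, map_natCast]
    exact hm
  rw [Ne, S.pi_eq_zero_iff v, ValuationSubring.mem_nonunits_iff_or] at h1
  push Not at h1
  exact h1

/-! ### The two-chart approximation theorem -/

/-- **Node [I]** for a semistable setup: port of `Red.RedSetup.exists_approx_chart`. -/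
theorem exists_approx_chart [Nonempty ι] (hrank : IsRankOne A) (Z₁ Z₂ : Set (Place K F))
    {a₀ : K} (ha₀ : a₀ ∈ A) (ha₀0 : a₀ ≠ 0) (ha₀u : a₀⁻¹ ∉ A)
    (h0 : ∀ x₁ ∈ chartOf S.Oall Z₁, ∀ x₂ ∈ chartOf S.Oall Z₂, ∀ w ∈ chartOf S.Oall (Z₁ ∪ Z₂),
      x₁ - x₂ = a₀ • w → ∃ l ∈ A, ∃ y ∈ chartOf S.Oall Z₁, x₁ = algebraMap K F l + a₀ • y)
    (m : ℕ) (hm0 : (m : K) ≠ 0) (hm : (m : K)⁻¹ ∈ A)
    (u a₁ a₂ : F) (hu : u ∈ chartOf S.Oall (Z₁ ∪ Z₂)) (ha₁ : a₁ ∈ chartOf S.Oall Z₁)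
    (ha₂ : a₂ ∈ chartOf S.Oall Z₂)
    (hua₁ : ∃ a₁' ∈ chartOf S.Oall Z₁, ∃ w ∈ chartOf S.Oall Z₁, a₁ * a₁' = 1 + a₀ • w)
    (hma : u ^ m * a₂ = a₁)
    (b₁ b₂ : F) (hb₁ : b₁ ∈ chartOf S.Oall Z₁) (hb₂ : b₂ ∈ chartOf S.Oall Z₂)
    (hub₁ : ∃ b₁' ∈ chartOf S.Oall Z₁, ∃ w ∈ chartOf S.Oall Z₁, b₁ * b₁' = 1 + a₀ • w)
    (hub₂ : ∃ b₂' ∈ chartOf S.Oall Z₂, ∃ w ∈ chartOf S.Oall Z₂, b₂ * b₂' = 1 + a₀ • w)
    (hb : ∃ w₀ ∈ chartOf S.Oall (Z₁ ∪ Z₂), u * b₂ - b₁ = a₀ • w₀)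
    (a : K) (ha : a ∈ A) (ha0 : a ≠ 0) :
    ∃ y₁ ∈ chartOf S.Oall Z₁, ∃ y₂ ∈ chartOf S.Oall Z₂, ∃ w ∈ chartOf S.Oall (Z₁ ∪ Z₂),
      u * (b₂ + a₀ • y₂) - (b₁ + a₀ • y₁) = a • w :=
  exists_approx_chartOf hrank S.Oall (fun _ ha => S.algebraMap_mem ha) S.hloc_Oall Z₁ Z₂ ha₀ ha₀0
    ha₀u h0 m hm0 hm u a₁ a₂ hu ha₁ ha₂ hua₁ hma b₁ b₂ hb₁ hb₂ hub₁ hub₂ hb a ha ha0

/-- **(R3) for the normal-form data** in a semistable setup: port of `Red.RedSetup.r3_output`.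
`g₂` is the transition function, `f` a unit of the chart `Z₁` with `f⁻¹ g₂⁻ᵐ` in the chart `Z₂`,
`g₂ - 1 = a₀ • w₀` for a modulus `a₀`, and `h0` is the constants lemma modulo `a₀`.  Then for
every nonzero `a ∈ A` there are `β₁, β₂` in the two charts with all residues of `β₁` equal to `1`
and `g₂ β₂ - β₁ ∈ a Oall`. -/
theorem r3_output [Nonempty ι] (hA : IsRankOne A) (m : ℕ) (hm : (m : k) ≠ 0)
    (Z₁ Z₂ : Set (Place K F)) (g₂ f : F) (hg₂0 : g₂ ≠ 0) (hf0 : f ≠ 0)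
    (hf : f ∈ chartOf S.Oall Z₁) (hfi : f⁻¹ ∈ chartOf S.Oall Z₁)
    (ha₂ : f⁻¹ * (g₂ ^ m)⁻¹ ∈ chartOf S.Oall Z₂) (hg₂ : g₂ ∈ chartOf S.Oall (Z₁ ∪ Z₂))
    {a₀ : K} (ha₀ : IsModulus A a₀)
    (h0 : ∀ x₁ ∈ chartOf S.Oall Z₁, ∀ x₂ ∈ chartOf S.Oall Z₂, ∀ w ∈ chartOf S.Oall (Z₁ ∪ Z₂),
      x₁ - x₂ = a₀ • w → ∃ l ∈ A, ∃ y ∈ chartOf S.Oall Z₁, x₁ = algebraMap K F l + a₀ • y)
    {w₀ : F} (hw₀ : w₀ ∈ chartOf S.Oall (Z₁ ∪ Z₂)) (hgw : g₂ - 1 = a₀ • w₀) :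
    ∀ a : K, a ∈ A → a ≠ 0 → ∃ β₁ ∈ chartOf S.Oall Z₁, ∃ β₂ ∈ chartOf S.Oall Z₂, ∃ w ∈ S.Oall,
      S.resAll β₁ = 1 ∧ g₂ * β₂ - β₁ = a • w := by
  intro a ha ha0
  obtain ⟨hm0, hmi⟩ := S.natCast_unit_of_ne_zero m hm
  obtain ⟨y₁, hy₁, y₂, -, w, hw, hβ₁, hβ₂, e⟩ := r3_output_chartOf hA S.Oall
    (fun _ ha => S.algebraMap_mem ha) S.hloc_Oall m hm0 hmi Z₁ Z₂ g₂ f hg₂0 hf0 hf hfi ha₂ hg₂
    ha₀ h0 hw₀ hgw a ha ha0
  refine ⟨1 + a₀ • y₁, hβ₁, 1 + a₀ • y₂, hβ₂, w, hw, ?_, e⟩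
  have hπ : π ⟨a₀, ha₀.mem⟩ = 0 :=
    S.pi_eq_zero_of_not_unit ha₀.mem fun h => ha₀.inv_not_mem h.2
  rw [S.resAll_add S.Oall.one_mem (S.smul_mem ha₀.mem hy₁.1), S.resAll_one,
    S.resAll_smul ha₀.mem hy₁.1, hπ, zero_smul, add_zero]

end SemistableSetup

end Fermat.Agent.BR.SS
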