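/-
Program B (bad reduction), block B3, node B3.3 bridge (helper19): the glued special fibre
(`BR/GluedGraph`, `BR/GluedRR`) of a semistable setup (`BR/SS/Setup`).

* `SemistableSetup.graphNodes S hdeg : GlueG.GraphNodes k Ft ν` : the nodes of `S`
  (`b e = ⟨src e, s₁ e⟩`, `b' e = ⟨tgt e, s₂ e⟩`), connected on `Set.univ`.
* `match_iff_forall_isValueAt` : for families regular at the branches, the matching condition
  `GlueG.Match` (equality of `evalAt`) is the condition `∃ c, IsValueAt … c ∧ IsValueAt … c` of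
  `S.node_match` / `S.PrincipalRed`.
* `isBranch_iff_mem_branchesOn`, `principalRed_iff`.
* `exists_const_of_regular_two_charts`, `finrank_gluedRR_of_genus` : (G1), (G2) for `S`.
-/
import Mathlib
import Fermat.Agent.BR.SS.Setup
import Fermat.Agent.BR.GluedRR

set_option autoImplicit false

namespace Fermat.Agent.BR.SS

open AlgebraicCurve Fermat.Agent.Red Fermat.Agent.BR.GlueG

variable {K F k : Type*} [Field K] [Field F] [Algebra K F] [Field k]
  {A : ValuationSubring K} {π : A →+* k} {ι : Type*} {Ft : ι → Type*}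
  [∀ v, Field (Ft v)] [∀ v, Algebra k (Ft v)] {ν : Type*}

namespace SemistableSetup

variable (S : SemistableSetup (F := F) A π ι Ft ν)

/-- The nodes of a semistable setup, in the language of `BR/GluedGraph`. -/
def graphNodes (hdeg : ∀ v (Q : Place k (Ft v)), Q.deg = 1) : GraphNodes k Ft ν where
  b e := ⟨S.src e, S.s₁ e⟩
  b' e := ⟨S.tgt e, S.s₂ e⟩
  deg_b _ := hdeg _ _
  deg_b' _ := hdeg _ _
  branch_inj := S.branch_injective

variable (hdeg : ∀ v (Q : Place k (Ft v)), Q.deg = 1)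

@[simp] theorem graphNodes_b (e : ν) : (S.graphNodes hdeg).b e = ⟨S.src e, S.s₁ e⟩ := rfl

@[simp] theorem graphNodes_b' (e : ν) : (S.graphNodes hdeg).b' e = ⟨S.tgt e, S.s₂ e⟩ := rfl

@[simp] theorem graphNodes_src (e : ν) : (S.graphNodes hdeg).src e = S.src e := rfl

@[simp] theorem graphNodes_tgt (e : ν) : (S.graphNodes hdeg).tgt e = S.tgt e := rfl

/-- The dual graph of a semistable setup is connected. -/
theorem isConnectedOn_univ : (S.graphNodes hdeg).IsConnectedOn Set.univ :=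
  (S.graphNodes hdeg).isConnectedOn_univ_of_forall S.connected

/-- The condition of `node_match` / `PrincipalRed` implies the matching condition. -/
theorem match_of_forall_isValueAt {φ : ∀ v, Ft v}
    (h : ∀ e, ∃ c : k, IsValueAt (S.s₁ e) (φ (S.src e)) c ∧ IsValueAt (S.s₂ e) (φ (S.tgt e)) c) :
    Match (S.graphNodes hdeg) φ := by
  intro e
  obtain ⟨c, h1, h2⟩ := h e
  show evalAt (S.s₁ e) (φ (S.src e)) = evalAt (S.s₂ e) (φ (S.tgt e))
  rw [evalAt_eq_of_isValueAt h1, evalAt_eq_of_isValueAt h2]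

/-- For a family regular at the branches the matching condition is the condition of
`node_match` / `PrincipalRed`. -/
theorem forall_isValueAt_of_match {φ : ∀ v, Ft v}
    (hreg : ∀ e, φ (S.src e) ∈ (S.s₁ e).toValuationSubring ∧
      φ (S.tgt e) ∈ (S.s₂ e).toValuationSubring)
    (h : Match (S.graphNodes hdeg) φ) (e : ν) :
    ∃ c : k, IsValueAt (S.s₁ e) (φ (S.src e)) c ∧ IsValueAt (S.s₂ e) (φ (S.tgt e)) c := by
  refine ⟨evalAt (S.s₁ e) (φ (S.src e)), isValueAt_evalAt _ (hdeg _ _) (hreg e).1, ?_⟩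
  have he : evalAt (S.s₁ e) (φ (S.src e)) = evalAt (S.s₂ e) (φ (S.tgt e)) := h e
  rw [he]
  exact isValueAt_evalAt _ (hdeg _ _) (hreg e).2

theorem match_iff_forall_isValueAt {φ : ∀ v, Ft v}
    (hreg : ∀ e, φ (S.src e) ∈ (S.s₁ e).toValuationSubring ∧
      φ (S.tgt e) ∈ (S.s₂ e).toValuationSubring) :
    Match (S.graphNodes hdeg) φ ↔
      ∀ e, ∃ c : k, IsValueAt (S.s₁ e) (φ (S.src e)) c ∧ IsValueAt (S.s₂ e) (φ (S.tgt e)) c :=
  ⟨S.forall_isValueAt_of_match hdeg hreg, S.match_of_forall_isValueAt hdeg⟩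

/-- The value condition contains the regularity at the branches. -/
theorem regular_of_forall_isValueAt {φ : ∀ v, Ft v}
    (h : ∀ e, ∃ c : k, IsValueAt (S.s₁ e) (φ (S.src e)) c ∧ IsValueAt (S.s₂ e) (φ (S.tgt e)) c)
    (e : ν) : φ (S.src e) ∈ (S.s₁ e).toValuationSubring ∧
      φ (S.tgt e) ∈ (S.s₂ e).toValuationSubring := by
  obtain ⟨c, h1, h2⟩ := h e
  exact ⟨h1.mem, h2.mem⟩

/-- Branch points are the points of `branchesOn`. -/
theorem isBranch_iff_mem_branchesOn [Finite ν] (v : ι) (Q : Place k (Ft v)) :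
    S.IsBranch ⟨v, Q⟩ ↔ Q ∈ branchesOn (S.graphNodes hdeg) v := by
  rw [mem_branchesOn]
  constructor
  · rintro ⟨e, he | he⟩
    · exact Or.inl ⟨e, he.symm⟩
    · exact Or.inr ⟨e, he.symm⟩
  · rintro (⟨e, he⟩ | ⟨e, he⟩)
    · exact ⟨e, Or.inl he.symm⟩
    · exact ⟨e, Or.inr he.symm⟩

/-- `PrincipalRed` in the language of the glued fibre. -/
theorem principalRed_iff (Dbar : (Σ v, Place k (Ft v)) →₀ ℤ) :
    S.PrincipalRed Dbar ↔ ∃ t : ∀ v, Ft v, (∀ v, t v ≠ 0) ∧
      (∀ v (Q : Place k (Ft v)), Q.ord (t v) = Dbar ⟨v, Q⟩) ∧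
      (∀ e, t (S.src e) ∈ (S.s₁ e).toValuationSubring ∧
        t (S.tgt e) ∈ (S.s₂ e).toValuationSubring) ∧ Match (S.graphNodes hdeg) t := by
  constructor
  · rintro ⟨t, h0, hord, hval⟩
    exact ⟨t, h0, hord, S.regular_of_forall_isValueAt hval, S.match_of_forall_isValueAt hdeg hval⟩
  · rintro ⟨t, h0, hord, hreg, hm⟩
    exact ⟨t, h0, hord, S.forall_isValueAt_of_match hdeg hreg hm⟩

/-- A member of the glued Riemann–Roch space satisfies the value condition at every node. -/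
theorem forall_isValueAt_of_mem_gluedRR {D : ∀ v, Divisor k (Ft v)} {φ : ∀ v, Ft v}
    (h : φ ∈ gluedRR (S.graphNodes hdeg) D) (e : ν) :
    ∃ c : k, IsValueAt (S.s₁ e) (φ (S.src e)) c ∧ IsValueAt (S.s₂ e) (φ (S.tgt e)) c :=
  S.forall_isValueAt_of_match hdeg h.2.2 h.2.1 e

/-- Membership in the glued Riemann–Roch space from the value condition. -/
theorem mem_gluedRR_of_forall_isValueAt {D : ∀ v, Divisor k (Ft v)} {φ : ∀ v, Ft v}
    (hL : ∀ v, φ v ∈ riemannRochSpace (D v))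
    (h : ∀ e, ∃ c : k, IsValueAt (S.s₁ e) (φ (S.src e)) c ∧ IsValueAt (S.s₂ e) (φ (S.tgt e)) c) :
    φ ∈ gluedRR (S.graphNodes hdeg) D :=
  ⟨hL, S.match_of_forall_isValueAt hdeg h, S.regular_of_forall_isValueAt h⟩

/-- **(G1) for a semistable setup**: a family of functions regular on two opens covering the
special fibre, satisfying the value condition at the nodes which survive in each of the two
opens, every node surviving in one of them, is a constant. -/
theorem exists_const_of_regular_two_charts (hFt : ∀ v, RiemannPkg k (Ft v))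
    {Y Y' : ∀ v, Set (Place k (Ft v))} (hd : ∀ v, Disjoint (Y v) (Y' v))
    (hsurv : ∀ e, (S.s₁ e ∉ Y (S.src e) ∧ S.s₂ e ∉ Y (S.tgt e)) ∨
      (S.s₁ e ∉ Y' (S.src e) ∧ S.s₂ e ∉ Y' (S.tgt e)))
    {φ : ∀ v, Ft v} (hφ : ∀ v, φ v ∈ regularRing (Y v)) (hφ' : ∀ v, φ v ∈ regularRing (Y' v))
    (hm : ∀ e, S.s₁ e ∉ Y (S.src e) → S.s₂ e ∉ Y (S.tgt e) →
      ∃ c : k, IsValueAt (S.s₁ e) (φ (S.src e)) c ∧ IsValueAt (S.s₂ e) (φ (S.tgt e)) c)
    (hm' : ∀ e, S.s₁ e ∉ Y' (S.src e) → S.s₂ e ∉ Y' (S.tgt e) →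
      ∃ c : k, IsValueAt (S.s₁ e) (φ (S.src e)) c ∧ IsValueAt (S.s₂ e) (φ (S.tgt e)) c) :
    ∃ c : k, φ = algebraMap k (∀ v, Ft v) c := by
  have hdeg : ∀ v (Q : Place k (Ft v)), Q.deg = 1 := fun v Q => (hFt v).deg_one Q
  refine exists_const_of_gluedRegularG_disjoint hFt (S.graphNodes hdeg) hd ?_ ⟨hφ, ?_⟩ ⟨hφ', ?_⟩
  · refine (S.isConnectedOn_univ hdeg).mono fun e _ => ?_
    rcases hsurv e with h | h
    · exact Or.inl h
    · exact Or.inr h
  · intro e he
    obtain ⟨c, h1, h2⟩ := hm e he.1 he.2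
    show evalAt (S.s₁ e) (φ (S.src e)) = evalAt (S.s₂ e) (φ (S.tgt e))
    rw [evalAt_eq_of_isValueAt h1, evalAt_eq_of_isValueAt h2]
  · intro e he
    obtain ⟨c, h1, h2⟩ := hm' e he.1 he.2
    show evalAt (S.s₁ e) (φ (S.src e)) = evalAt (S.s₂ e) (φ (S.tgt e))
    rw [evalAt_eq_of_isValueAt h1, evalAt_eq_of_isValueAt h2]

/-- **(G2) for a semistable setup, under the genus hypothesis of `MainStatement`**: in large
multidegree, for divisors avoiding the branches, the glued Riemann–Roch space has the dimension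
`deg + 1 - g(F)` of the Riemann–Roch space of the generic fibre. -/
theorem finrank_gluedRR_of_genus [Fintype ι] [Fintype ν] (hFt : ∀ v, RiemannPkg k (Ft v))
    (hg : (genusFF K F : ℤ) =
      ∑ v, (genusFF k (Ft v) : ℤ) + Fintype.card ν - Fintype.card ι + 1) :
    ∃ c : ι → ℤ, ∀ D : ∀ v, Divisor k (Ft v),
      (∀ e, D (S.src e) (S.s₁ e) = 0 ∧ D (S.tgt e) (S.s₂ e) = 0) →
      (∀ v, c v ≤ Divisor.degree (D v)) →
      (Module.finrank k (gluedRR (S.graphNodes fun v Q => (hFt v).deg_one Q) D) : ℤ) =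
        (∑ v, Divisor.degree (D v)) + 1 - (genusFF K F : ℤ) := by
  obtain ⟨c, hc⟩ := finrank_gluedRR hFt (S.graphNodes fun v Q => (hFt v).deg_one Q)
  refine ⟨c, fun D hD hdeg => ?_⟩
  rw [hc D hD hdeg, hg]
  ring

end SemistableSetup

end Fermat.Agent.BR.SS
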