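import Mathlib
import Fermat.Agent.BR.SS.ChartInst
import Fermat.Agent.BR.SS.GlueOfSetup
import Fermat.Agent.Red.UnitRed

/-!
# Program B (BADRED), block B3, node B3.5: the constants lemma and unit reductions in a
semistable setup

Port of `Red/ConstLemma.lean` and `Red/UnitRed.lean` to `S : SemistableSetup A π ι Ft ν`, for the
chart rings `chartOf S.Oall Z = Oall ∩ regularRing Z` of `SS/ChartGen.lean`.

* `S.red Z v` : the trace on the component `v` of the reduction of a set `Z` of places; both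
  branches of a node whose annulus meets `Z` are removed (`s₂_mem_red_iff`).
* `S.exists_isValueAt_node`, `S.resF_mem_regularRing_red` : the residue tuple of an element of
  `chartOf S.Oall Z` is a function on the complement of `red Z` in the glued special fibre: regular
  on every component (conservation at smooth points, `node_match` at the surviving nodes) with
  equal values at the two branches of every surviving node.
* `S.exists_const_of_resAll_eq` : **`H⁰` of the special fibre is `k`** (from (G1),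
  `SS/GlueOfSetup.lean`).
* `S.exists_approx_resAll` : `ApproxProp A S.Oall` in `resAll` form.
* `S.const_lemma`, `S.const_lemma_chartOf` : **(R1') the constants lemma**, in the form of the
  hypothesis `h0` of `S.exists_approx_chart` / `S.r3_output` (`SS/ChartInst.lean`).
* (U1) `S.exists_smul_of_resAll_eq_zero_chart`, (U2)
  `S.eq_one_or_exists_smul_of_resAll_mul_eq_one`, `S.ured_of_eq_one_add_smul`,
  `S.ured_of_mul_eq_one`, `S.ured_of_ured_mul`, `S.exists_common_modulus_ured`, (U4)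
  `S.exists_mul_eq_one_add_pow_smul` : port of `Red/UnitRed.lean`.
-/

set_option autoImplicit false

namespace Fermat.Agent.BR.SS

open AlgebraicCurve Fermat.Agent.Red

variable {K F k : Type*} [Field K] [Field F] [Algebra K F] [Field k]
  {A : ValuationSubring K} {π : A →+* k} {ι : Type*} {Ft : ι → Type*}
  [∀ v, Field (Ft v)] [∀ v, Algebra k (Ft v)] {ν : Type*}

namespace SemistableSetup

variable (S : SemistableSetup (F := F) A π ι Ft ν)

/-! ### Reduction of a set of places on the components -/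

/-- The points of the component `v` in the reduction of `Z`, together with the target branch
`s₂ e` of every node `e` whose annulus meets `Z` (if `tgt e = v`). -/
def red (Z : Set (Place K F)) (v : ι) : Set (Place k (Ft v)) :=
  {Q | (⟨v, Q⟩ : Σ v, Place k (Ft v)) ∈ S.r '' Z ∨
    ∃ e, (⟨v, Q⟩ : Σ v, Place k (Ft v)) = ⟨S.tgt e, S.s₂ e⟩ ∧
      (⟨S.src e, S.s₁ e⟩ : Σ v, Place k (Ft v)) ∈ S.r '' Z}

theorem mem_red {Z : Set (Place K F)} {v : ι} {Q : Place k (Ft v)} :
    Q ∈ S.red Z v ↔ (∃ P ∈ Z, S.r P = ⟨v, Q⟩) ∨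
      ∃ e, (⟨v, Q⟩ : Σ v, Place k (Ft v)) = ⟨S.tgt e, S.s₂ e⟩ ∧
        ∃ P ∈ Z, S.r P = ⟨S.src e, S.s₁ e⟩ := Iff.rfl

theorem not_mem_of_not_mem_red {Z : Set (Place K F)} {v : ι} {Q : Place k (Ft v)}
    (hQ : Q ∉ S.red Z v) {P : Place K F} (hP : S.r P = ⟨v, Q⟩) : P ∉ Z :=
  fun hPZ => hQ (Or.inl ⟨P, hPZ, hP⟩)

/-- The source branch of `e` is removed iff the annulus of `e` meets `Z`. -/
theorem s₁_mem_red_iff {Z : Set (Place K F)} (e : ν) :
    S.s₁ e ∈ S.red Z (S.src e) ↔ ∃ P ∈ Z, S.r P = ⟨S.src e, S.s₁ e⟩ := by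
  constructor
  · rintro (h | ⟨e', he', -⟩)
    · exact h
    · exact absurd (S.branch_injective (a₁ := Sum.inl e) (a₂ := Sum.inr e') he') (by simp)
  · exact fun h => Or.inl h

/-- Both branches of a node are removed simultaneously. -/
theorem s₂_mem_red_iff {Z : Set (Place K F)} (e : ν) :
    S.s₂ e ∈ S.red Z (S.tgt e) ↔ S.s₁ e ∈ S.red Z (S.src e) := by
  rw [S.s₁_mem_red_iff]
  constructor
  · rintro (⟨P, -, hP⟩ | ⟨e', he', h⟩)
    · exact absurd hP (S.r_ne_tgt P e)
    · have : e = e' := by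
        have := S.branch_injective (a₁ := Sum.inr e) (a₂ := Sum.inr e') he'
        exact Sum.inr_injective this
      rw [this]
      exact h
  · exact fun h => Or.inr ⟨e, rfl, h⟩

theorem red_mono {Z Z' : Set (Place K F)} (h : Z ⊆ Z') (v : ι) : S.red Z v ⊆ S.red Z' v := by
  rintro Q (⟨P, hP, hPQ⟩ | ⟨e, he, P, hP, hPQ⟩)
  · exact Or.inl ⟨P, h hP, hPQ⟩
  · exact Or.inr ⟨e, he, P, h hP, hPQ⟩

theorem disjoint_red {Z Z' : Set (Place K F)} (h : Disjoint (S.r '' Z) (S.r '' Z')) (v : ι) :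
    Disjoint (S.red Z v) (S.red Z' v) := by
  refine Set.disjoint_left.mpr fun Q hQ hQ' => ?_
  rcases hQ with hQ | ⟨e, he, hs⟩
  · rcases hQ' with hQ' | ⟨e', he', -⟩
    · exact Set.disjoint_left.mp h hQ hQ'
    · obtain ⟨P, -, hP⟩ := hQ
      exact S.r_ne_tgt P e' (hP.trans he')
  · rcases hQ' with hQ' | ⟨e', he', hs'⟩
    · obtain ⟨P, -, hP⟩ := hQ'
      exact S.r_ne_tgt P e (hP.trans he)
    · have : e = e' := by
        have := S.branch_injective (a₁ := Sum.inr e) (a₂ := Sum.inr e') (he.symm.trans he')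
        exact Sum.inr_injective this
      rw [← this] at hs'
      exact Set.disjoint_left.mp h hs hs'

/-- If the reductions of `Z` and `Z'` are disjoint, every node survives (with both branches) in one
of the two complementary opens. -/
theorem node_survives {Z Z' : Set (Place K F)} (h : Disjoint (S.r '' Z) (S.r '' Z')) (e : ν) :
    (S.s₁ e ∉ S.red Z (S.src e) ∧ S.s₂ e ∉ S.red Z (S.tgt e)) ∨
      (S.s₁ e ∉ S.red Z' (S.src e) ∧ S.s₂ e ∉ S.red Z' (S.tgt e)) := by
  by_cases hs : S.s₁ e ∈ S.red Z (S.src e)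
  · right
    have hs' : S.s₁ e ∉ S.red Z' (S.src e) := fun h' =>
      Set.disjoint_left.mp (S.disjoint_red h (S.src e)) hs h'
    exact ⟨hs', fun h' => hs' ((S.s₂_mem_red_iff e).mp h')⟩
  · left
    exact ⟨hs, fun h' => hs ((S.s₂_mem_red_iff e).mp h')⟩

/-! ### Residues of elements of the chart rings -/

/-- **`node_match` in `resF` form**: the values at the two branches of a surviving node. -/
theorem exists_isValueAt_node {Z : Set (Place K F)} {h : F} (hx : h ∈ S.Oall)
    (hh : h ∈ regularRing Z) {e : ν} (he : S.s₁ e ∉ S.red Z (S.src e)) :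
    ∃ c : k, IsValueAt (S.s₁ e) (S.resF (S.src e) h) c ∧
      IsValueAt (S.s₂ e) (S.resF (S.tgt e) h) c := by
  rcases eq_or_ne h 0 with rfl | h0
  · refine ⟨0, ?_, ?_⟩
    · rw [S.resF_zero]
      exact isValueAt_zero _
    · rw [S.resF_zero]
      exact isValueAt_zero _
  have h₁ := S.mem_O_of_mem_Oall hx (S.src e)
  have h₂ := S.mem_O_of_mem_Oall hx (S.tgt e)
  obtain ⟨c, hc₁, hc₂⟩ := S.node_match e h h₁ h₂ fun P hP =>
    ((mem_regularRing_iff_ord.mp hh) P (S.not_mem_of_not_mem_red he hP)).resolve_left h0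
  exact ⟨c, by rwa [S.resF_of_mem h₁], by rwa [S.resF_of_mem h₂]⟩

/-- The residue on the component `v` of an element of `B_Z` is regular outside `red Z v`. -/
theorem resF_mem_regularRing_red (hF : RiemannPkg K F) {Z : Set (Place K F)} {h : F}
    (hx : h ∈ S.Oall) (hh : h ∈ regularRing Z) (v : ι) :
    S.resF v h ∈ regularRing (S.red Z v) := by
  classical
  rw [mem_regularRing_iff_ord]
  intro Q hQ
  by_cases h0 : S.resF v h = 0
  · exact Or.inl h0
  by_cases hbr : S.IsBranch ⟨v, Q⟩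
  · obtain ⟨e, he | he⟩ := hbr
    · obtain ⟨rfl, hQe⟩ := Sigma.mk.inj_iff.mp he
      obtain rfl := eq_of_heq hQe
      obtain ⟨c, hc, -⟩ := S.exists_isValueAt_node hx hh hQ
      exact (Place.adicValuation_le_one_iff _).mp hc.adicValuation_le_one
    · obtain ⟨rfl, hQe⟩ := Sigma.mk.inj_iff.mp he
      obtain rfl := eq_of_heq hQe
      have hs : S.s₁ e ∉ S.red Z (S.src e) := fun h' => hQ ((S.s₂_mem_red_iff e).mpr h')
      obtain ⟨c, -, hc⟩ := S.exists_isValueAt_node hx hh hs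
      exact (Place.adicValuation_le_one_iff _).mp hc.adicValuation_le_one
  right
  have hh0 : h ≠ 0 := S.ne_zero_of_resF_ne_zero h0
  have hv := S.mem_O_of_mem_Oall hx v
  obtain ⟨D, hD, -⟩ := hF.principal.exists_divisor h hh0
  have h0' : S.res v ⟨h, hv⟩ ≠ 0 := by rwa [← S.resF_of_mem hv]
  have hcons := S.conservation v ⟨h, hv⟩ h0' D hD Q (fun e he => hbr ⟨e, Or.inl he⟩)
    (fun e he => hbr ⟨e, Or.inr he⟩)
  rw [← S.resF_of_mem hv] at hcons
  rw [← hcons]
  apply mapDomain_apply_nonneg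
  intro P hPQ
  rw [hD P]
  exact ((mem_regularRing_iff_ord.mp hh) P (S.not_mem_of_not_mem_red hQ hPQ)).resolve_left hh0

/-- **`H⁰` of the special fibre is `k`.** Two elements of chart rings `B_{Z₁}`, `B_{Z₂}` with
`r(Z₁) ∩ r(Z₂) = ∅` and the same residue tuple reduce to a constant tuple. -/
theorem exists_const_of_resAll_eq (hF : RiemannPkg K F) (hFt : ∀ v, RiemannPkg k (Ft v))
    {Z₁ Z₂ : Set (Place K F)} (hdisj : Disjoint (S.r '' Z₁) (S.r '' Z₂)) {z z₂ : F}
    (hz : z ∈ chartOf S.Oall Z₁) (hz₂ : z₂ ∈ chartOf S.Oall Z₂)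
    (hres : S.resAll z₂ = S.resAll z) :
    ∃ c : k, S.resAll z = algebraMap k (∀ v, Ft v) c := by
  refine S.exists_const_of_regular_two_charts hFt (Y := S.red Z₁) (Y' := S.red Z₂)
    (fun v => S.disjoint_red hdisj v) (fun e => S.node_survives hdisj e)
    (fun v => S.resF_mem_regularRing_red hF hz.1 hz.2 v) (fun v => ?_)
    (fun e he _ => S.exists_isValueAt_node hz.1 hz.2 he) (fun e he _ => ?_)
  · rw [← hres]
    exact S.resF_mem_regularRing_red hF hz₂.1 hz₂.2 v
  · rw [← hres]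
    exact S.exists_isValueAt_node hz₂.1 hz₂.2 he

/-! ### Best approximation, `resAll` form -/

/-- `ApproxProp A S.Oall` (supplied by `SS/Lattice`) in terms of the residue tuples. -/
theorem exists_approx_resAll [Finite ι] [Nonempty ι] (happrox : ApproxProp A S.Oall)
    (V : Submodule K F) (hV : Module.Finite K V) {y : F} (hy : y ∉ V) :
    ∃ w ∈ V, ∃ c : K, c ≠ 0 ∧ c • (y - w) ∈ S.Oall ∧
      ∀ z ∈ S.Oall, z ∈ V → S.resAll z ≠ S.resAll (c • (y - w)) := by
  obtain ⟨w, hw, c, hc, hmem, hne⟩ := happrox V hV y hy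
  exact ⟨w, hw, c, hc, hmem, fun z hz hzV heq =>
    hne z hz hzV ((S.isSmall_sub_iff hz hmem).mpr heq)⟩

/-- The residue tuple of a constant of `A`, as a constant of the product algebra. -/
theorem resAll_algebraMap_eq_algebraMap {a : K} (ha : a ∈ A) :
    S.resAll (algebraMap K F a) = algebraMap k (∀ v, Ft v) (π ⟨a, ha⟩) := by
  rw [S.resAll_algebraMap ha, Algebra.algebraMap_eq_smul_one]

/-! ### The constants lemma -/

/-- **(R1') The constants lemma.** -/
theorem const_lemma [Finite ι] [Nonempty ι] (happrox : ApproxProp A S.Oall)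
    (hπ : Function.Surjective π) (hF : RiemannPkg K F) (hFt : ∀ v, RiemannPkg k (Ft v))
    (Z₁ Z₂ : Set (Place K F)) (hdisj : Disjoint (S.r '' Z₁) (S.r '' Z₂))
    {a : K} (_ha : a ∈ A) (ha0 : a ≠ 0) {x₁ x₂ w : F} (hx₁ : x₁ ∈ chartOf S.Oall Z₁)
    (hx₂ : x₂ ∈ chartOf S.Oall Z₂) (hw : w ∈ S.Oall) (h : x₁ - x₂ = a • w) :
    ∃ l : K, l ∈ A ∧ ∃ y ∈ chartOf S.Oall Z₁, x₁ = algebraMap K F l + a • y := by
  obtain ⟨v₀⟩ := ‹Nonempty ι›
  set V : Submodule K F := Submodule.span K {(1 : F)} with hV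
  have hVfin : Module.Finite K V := Module.Finite.span_singleton K (1 : F)
  have hconstV : ∀ b : K, algebraMap K F b ∈ V := fun b => by
    rw [hV, Submodule.mem_span_singleton]
    exact ⟨b, by rw [Algebra.smul_def, mul_one]⟩
  by_cases hx : x₁ ∈ V
  · obtain ⟨l, hl⟩ := Submodule.mem_span_singleton.mp hx
    have hl' : algebraMap K F l = x₁ := by rw [← hl, Algebra.smul_def, mul_one]
    refine ⟨l, (S.algebraMap_mem_iff v₀ l).mp (hl' ▸ S.mem_O_of_mem_Oall hx₁.1 v₀), 0,
      Subring.zero_mem _, ?_⟩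
    rw [smul_zero, add_zero, hl']
  obtain ⟨w₀, hw₀, c, hc, hz, hne⟩ := S.exists_approx_resAll happrox V hVfin hx
  obtain ⟨l₀, hl₀⟩ := Submodule.mem_span_singleton.mp hw₀
  have hw₀' : w₀ = algebraMap K F l₀ := by rw [← hl₀, Algebra.smul_def, mul_one]
  set z : F := c • (x₁ - w₀) with hzdef
  -- the residue of `z` is not the residue of a constant
  have hnc : ∀ b : K, b ∈ A → S.resAll (algebraMap K F b) ≠ S.resAll z := fun b hb =>
    hne _ (S.algebraMap_mem hb) (hconstV b)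
  have hx₁O : x₁ ∈ S.Oall := hx₁.1
  -- Step 1: `l₀ ∈ A`
  have hl₀A : l₀ ∈ A := by
    by_contra hl₀A
    have hl₀0 : l₀ ≠ 0 := fun h => hl₀A (h ▸ A.zero_mem)
    have hl₀i : l₀⁻¹ ∈ A := (A.mem_or_inv_mem l₀).resolve_left hl₀A
    obtain ⟨hmem1, hres1⟩ := S.resAll_smul_eq_zero_of_not_mem hl₀A hx₁O
    have hzexp : z = c • x₁ - algebraMap K F (c * l₀) := by
      rw [hzdef, hw₀', smul_sub, Algebra.smul_def c (algebraMap K F l₀), ← map_mul]
    by_cases hμ : c * l₀ ∈ A
    · -- `c = (c l₀) l₀⁻¹` is a non-unit of `A`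
      have hcx : c • x₁ = (c * l₀) • (l₀⁻¹ • x₁) := by
        rw [smul_smul, mul_assoc, mul_inv_cancel₀ hl₀0, mul_one]
      have hcxO : c • x₁ ∈ S.Oall := by rw [hcx]; exact S.smul_mem hμ hmem1
      have hcxres : S.resAll (c • x₁) = 0 := by
        rw [hcx, S.resAll_smul hμ hmem1, hres1, smul_zero]
      have hneg : -(c * l₀) ∈ A := A.neg_mem _ hμ
      apply hnc (-(c * l₀)) hneg
      rw [hzexp, S.resAll_sub hcxO (S.algebraMap_mem hμ), hcxres, zero_sub, map_neg,
        S.resAll_neg (S.algebraMap_mem hμ)]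
    · -- `(c l₀)⁻¹ • z = l₀⁻¹ • x₁ - 1` has residue `-1`, but also residue `0`
      have hμ0 : c * l₀ ≠ 0 := mul_ne_zero hc hl₀0
      obtain ⟨-, hres2⟩ := S.resAll_smul_eq_zero_of_not_mem hμ hz
      have hexp : (c * l₀)⁻¹ • z = l₀⁻¹ • x₁ - 1 := by
        rw [hzexp, smul_sub, smul_smul, Algebra.smul_def ((c * l₀)⁻¹) (algebraMap K F (c * l₀)),
          ← map_mul, inv_mul_cancel₀ hμ0, map_one]
        congr 2
        rw [mul_inv, mul_comm c⁻¹, mul_assoc, inv_mul_cancel₀ hc, mul_one]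
      rw [hexp, S.resAll_sub hmem1 S.Oall.one_mem, hres1, S.resAll_one, zero_sub] at hres2
      have hres3 := congrFun hres2 v₀
      rw [Pi.neg_apply, Pi.one_apply, Pi.zero_apply] at hres3
      exact one_ne_zero (neg_eq_zero.mp hres3)
  -- Step 2: `z` is regular outside `Z₁`
  have hzreg : z ∈ regularRing Z₁ := by
    rw [hzdef, hw₀']
    exact Subalgebra.smul_mem _
      (Subalgebra.sub_mem _ hx₁.2 (Subalgebra.algebraMap_mem _ l₀)) c
  -- Step 3: `(a c)⁻¹ ∈ A`
  have hacA : (a * c)⁻¹ ∈ A := by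
    by_contra hacA
    have hac0 : a * c ≠ 0 := mul_ne_zero ha0 hc
    have hw' : (a * c) • w ∈ S.Oall ∧ S.resAll ((a * c) • w) = 0 := by
      have := S.resAll_smul_eq_zero_of_not_mem hacA hw
      rwa [inv_inv] at this
    set z₂ : F := c • (x₂ - w₀) with hz₂def
    have hz₂ : z₂ = z - (a * c) • w := by
      have hx₂e : x₂ = x₁ - a • w := by rw [← h]; ring
      rw [hz₂def, hzdef, hx₂e, smul_sub, smul_sub, smul_sub, smul_smul, mul_comm c a]
      abel
    have hz₂O : z₂ ∈ S.Oall := by rw [hz₂]; exact sub_mem hz hw'.1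
    have hz₂res : S.resAll z₂ = S.resAll z := by
      rw [hz₂, S.resAll_sub hz hw'.1, hw'.2, sub_zero]
    have hz₂reg : z₂ ∈ regularRing Z₂ := by
      rw [hz₂def, hw₀']
      exact Subalgebra.smul_mem _
        (Subalgebra.sub_mem _ hx₂.2 (Subalgebra.algebraMap_mem _ l₀)) c
    obtain ⟨cbar, hcbar⟩ := S.exists_const_of_resAll_eq hF hFt hdisj
      (mem_chartOf.mpr ⟨hz, hzreg⟩) (mem_chartOf.mpr ⟨hz₂O, hz₂reg⟩) hz₂res
    obtain ⟨b, rfl⟩ := hπ cbar
    apply hnc (b : K) b.2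
    rw [S.resAll_algebraMap_eq_algebraMap b.2, hcbar]
  -- Step 4
  refine ⟨l₀, hl₀A, (a * c)⁻¹ • z, ⟨S.smul_mem hacA hz, Subalgebra.smul_mem _ hzreg _⟩, ?_⟩
  rw [smul_smul, mul_inv, ← mul_assoc, mul_inv_cancel₀ ha0, one_mul, hzdef, smul_smul,
    inv_mul_cancel₀ hc, one_smul, hw₀']
  ring

/-- The constants lemma in the form of the hypothesis `h0` of `S.exists_approx_chart` and
`S.r3_output`. -/
theorem const_lemma_chartOf [Finite ι] [Nonempty ι] (happrox : ApproxProp A S.Oall)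
    (hπ : Function.Surjective π) (hF : RiemannPkg K F) (hFt : ∀ v, RiemannPkg k (Ft v))
    (Z₁ Z₂ : Set (Place K F)) (hdisj : Disjoint (S.r '' Z₁) (S.r '' Z₂))
    {a₀ : K} (ha₀ : IsModulus A a₀) :
    ∀ x₁ ∈ chartOf S.Oall Z₁, ∀ x₂ ∈ chartOf S.Oall Z₂, ∀ w ∈ chartOf S.Oall (Z₁ ∪ Z₂),
      x₁ - x₂ = a₀ • w → ∃ l ∈ A, ∃ y ∈ chartOf S.Oall Z₁, x₁ = algebraMap K F l + a₀ • y :=
  fun _ hx₁ _ hx₂ _ hw h =>
    S.const_lemma happrox hπ hF hFt Z₁ Z₂ hdisj ha₀.mem ha₀.ne_zero hx₁ hx₂ hw.1 h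

/-! ### Unit reductions in the chart rings -/

theorem smul_mem_chart {Z : Set (Place K F)} {a : K} (ha : a ∈ A) {w : F}
    (hw : w ∈ chartOf S.Oall Z) : a • w ∈ chartOf S.Oall Z :=
  smul_mem_chartOf (fun _ ha => S.algebraMap_mem ha) ha hw

theorem algebraMap_mem_chart (Z : Set (Place K F)) {a : K} (ha : a ∈ A) :
    algebraMap K F a ∈ chartOf S.Oall Z :=
  algebraMap_mem_chartOf (fun _ ha => S.algebraMap_mem ha) Z ha

/-- **(U1)** A non-zero element of a chart ring with zero residue tuple is a non-zero non-unit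
constant times an element of the chart ring with non-zero residue tuple. -/
theorem exists_smul_of_resAll_eq_zero_chart [Finite ι] [Nonempty ι] {Z : Set (Place K F)}
    {x : F} (hx : x ∈ chartOf S.Oall Z) (hx0 : x ≠ 0) (hres : S.resAll x = 0) :
    ∃ a' : K, IsModulus A a' ∧ ∃ w ∈ chartOf S.Oall Z, x = a' • w ∧ S.resAll w ≠ 0 := by
  obtain ⟨a', ha', ha'0, ha'i, w, hw, ⟨v, hv⟩, hxw⟩ :=
    S.exists_smul_of_resAll_eq_zero hx.1 hx0 hres
  refine ⟨a', ⟨ha', ha'0, ha'i⟩, w, mem_chartOf_of_smul_mem ha'0 hw ?_, hxw,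
    fun h0 => hv (congrFun h0 v)⟩
  rw [← hxw]
  exact hx

/-- **(U2)** If the product of two elements of a chart ring has residue tuple `1`, it is `1` or
`1 + a' • w` with `a'` a non-zero non-unit of `A` and `w` in the chart ring. -/
theorem eq_one_or_exists_smul_of_resAll_mul_eq_one [Finite ι] [Nonempty ι]
    {Z : Set (Place K F)} {b b' : F} (hb : b ∈ chartOf S.Oall Z) (hb' : b' ∈ chartOf S.Oall Z)
    (hres : S.resAll (b * b') = 1) :
    b * b' = 1 ∨ ∃ a' : K, IsModulus A a' ∧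
      ∃ w ∈ chartOf S.Oall Z, b * b' = 1 + a' • w ∧ S.resAll w ≠ 0 := by
  by_cases h1 : b * b' = 1
  · exact Or.inl h1
  right
  have hx : b * b' - 1 ∈ chartOf S.Oall Z :=
    (chartOf S.Oall Z).sub_mem ((chartOf S.Oall Z).mul_mem hb hb') (chartOf S.Oall Z).one_mem
  have hx0 : b * b' - 1 ≠ 0 := sub_ne_zero.2 h1
  have hr : S.resAll (b * b' - 1) = 0 := by
    rw [S.resAll_sub (S.Oall.mul_mem hb.1 hb'.1) S.Oall.one_mem, hres, S.resAll_one, sub_self]
  obtain ⟨a', ha', w, hw, hxw, hwres⟩ := S.exists_smul_of_resAll_eq_zero_chart hx hx0 hr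
  exact ⟨a', ha', w, hw, by rw [← hxw]; ring, hwres⟩

/-- From `b b' = 1 + a' • w` and `a' = a c`, `c ∈ A`, to the `URed` hypothesis of the two-chart
theorem with modulus `a`. -/
theorem ured_of_eq_one_add_smul {Z : Set (Place K F)} {b b' w : F} {a a' c : K}
    (hb' : b' ∈ chartOf S.Oall Z) (hw : w ∈ chartOf S.Oall Z) (hc : c ∈ A) (hac : a' = a * c)
    (h : b * b' = 1 + a' • w) : URed (chartOf S.Oall Z) (algebraMap K F a) b := by
  refine ⟨b', hb', c • w, S.smul_mem_chart hc hw, ?_⟩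
  rw [h, hac, mul_smul, Algebra.smul_def a]

/-- If `b b' = 1` then `b` has unit reduction for every modulus. -/
theorem ured_of_mul_eq_one {Z : Set (Place K F)} {b b' : F} (a : K)
    (hb' : b' ∈ chartOf S.Oall Z) (h : b * b' = 1) :
    URed (chartOf S.Oall Z) (algebraMap K F a) b :=
  ⟨b', hb', 0, (chartOf S.Oall Z).zero_mem, by rw [h, mul_zero, add_zero]⟩

/-- Unit reduction passes to a modulus dividing the given one. -/
theorem ured_of_ured_mul {Z : Set (Place K F)} {b : F} {a c : K} (hc : c ∈ A)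
    (h : URed (chartOf S.Oall Z) (algebraMap K F (a * c)) b) :
    URed (chartOf S.Oall Z) (algebraMap K F a) b := by
  obtain ⟨b', hb', w, hw, hbw⟩ := h
  refine ⟨b', hb', c • w, S.smul_mem_chart hc hw, ?_⟩
  rw [hbw, map_mul, Algebra.smul_def]
  ring

/-- **(U2) + (U3), `URed` form.** Finitely many elements `b j` of chart rings whose residue tuples
are units (`resAll (b j * b' j) = 1`) have unit reduction modulo one common non-zero non-unit `a`
of `A`; moreover `a` divides (in `A`) any prescribed non-zero non-unit `a₀`. -/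
theorem exists_common_modulus_ured [Finite ι] [Nonempty ι] {σ : Type*} (s : Finset σ)
    (Z : σ → Set (Place K F)) (b b' : σ → F) {a₀ : K} (ha₀ : IsModulus A a₀)
    (hb : ∀ j ∈ s, b j ∈ chartOf S.Oall (Z j)) (hb' : ∀ j ∈ s, b' j ∈ chartOf S.Oall (Z j))
    (hres : ∀ j ∈ s, S.resAll (b j * b' j) = 1) :
    ∃ a : K, IsModulus A a ∧ (∃ c : K, c ∈ A ∧ a₀ = a * c) ∧
      ∀ j ∈ s, URed (chartOf S.Oall (Z j)) (algebraMap K F a) (b j) := by
  classical
  -- a modulus for each index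
  have hex : ∀ j ∈ s, ∃ a' : K, IsModulus A a' ∧
      URed (chartOf S.Oall (Z j)) (algebraMap K F a') (b j) := by
    intro j hj
    rcases S.eq_one_or_exists_smul_of_resAll_mul_eq_one (hb j hj) (hb' j hj) (hres j hj) with
      h1 | ⟨a', ha', w, hw, h, -⟩
    · exact ⟨a₀, ha₀, S.ured_of_mul_eq_one a₀ (hb' j hj) h1⟩
    · exact ⟨a', ha', S.ured_of_eq_one_add_smul (hb' j hj) hw A.one_mem (mul_one a').symm h⟩
  choose! a' ha' hured using hex
  -- the common modulus among `a₀` and the `a' j`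
  let f : Option σ → K := fun o => o.elim a₀ a'
  have hf : ∀ o ∈ insert none (s.image some), IsModulus A (f o) := by
    intro o ho
    rcases Finset.mem_insert.1 ho with rfl | ho
    · exact ha₀
    · obtain ⟨j, hj, rfl⟩ := Finset.mem_image.1 ho
      exact ha' j hj
  obtain ⟨a, ha, hdiv⟩ := exists_common_modulus' (insert none (s.image some))
    (Finset.insert_nonempty _ _) f hf
  refine ⟨a, ha, hdiv none (Finset.mem_insert_self _ _), fun j hj => ?_⟩
  obtain ⟨c, hc, hac⟩ := hdiv (some j)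
    (Finset.mem_insert_of_mem (Finset.mem_image_of_mem _ hj))
  have h := hured j hj
  have hac' : a' j = a * c := hac
  rw [hac'] at h
  exact S.ured_of_ured_mul hc h

/-- **(U4)** Units modulo `a` are units modulo `a ^ n` (geometric series). -/
theorem exists_mul_eq_one_add_pow_smul {Z : Set (Place K F)} {a : K} (ha : a ∈ A) {x w : F}
    (hw : w ∈ chartOf S.Oall Z) (hx : x = 1 + a • w) (n : ℕ) :
    ∃ b'' ∈ chartOf S.Oall Z, ∃ w'' ∈ chartOf S.Oall Z, x * b'' = 1 + a ^ n • w'' := by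
  have hπ : algebraMap K F a ∈ chartOf S.Oall Z := S.algebraMap_mem_chart Z ha
  have h1 : URed (chartOf S.Oall Z) (algebraMap K F a) x :=
    ⟨1, (chartOf S.Oall Z).one_mem, w, hw, by rw [mul_one, hx, Algebra.smul_def]⟩
  obtain ⟨b'', hb'', z, hz, h⟩ := h1.exists_inv_pow hπ n
  exact ⟨b'', hb'', z, hz, by rw [h, Algebra.smul_def, map_pow]⟩

end SemistableSetup

end Fermat.Agent.BR.SS
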