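import Mathlib
import Fermat.Agent.BR.SS.Setup

/-!
# Program B (BADRED), block B3: basic API for `SemistableSetup` (port of `Red/Basic.lean`)

* `S.Oall : Subring F` is `⨅ v, O v`; `S.resF v : F → Ft v` is the residue map of the component
  `v` extended by zero; `S.resAll : F → ∀ v, Ft v` is the tuple of residues (a ring map on
  `S.Oall`, semilinear along `π` for constants of `A`).
* `S.exists_smul_mem v` : value group of the component `v` (from `approx v` with `V = ⊥`);
  `S.exists_smul_mem_Oall` : every nonzero function is a constant times an element of `Oall` with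
  nonzero residue tuple (maximum norm).
* `S.exists_smul_of_resAll_eq_zero` : saturation.
-/

set_option autoImplicit false

namespace Fermat.Agent.BR.SS

open AlgebraicCurve Fermat.Agent.Red

variable {K F k : Type*} [Field K] [Field F] [Algebra K F] [Field k]
  {A : ValuationSubring K} {π : A →+* k} {ι : Type*} {Ft : ι → Type*}
  [∀ v, Field (Ft v)] [∀ v, Algebra k (Ft v)] {ν : Type*}

namespace SemistableSetup

variable (S : SemistableSetup (F := F) A π ι Ft ν)

/-- Functions integral on all components. -/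
def Oall : Subring F := ⨅ v, (S.O v).toSubring

theorem mem_Oall {x : F} : x ∈ S.Oall ↔ ∀ v, x ∈ S.O v := by
  unfold Oall
  rw [Subring.mem_iInf]
  rfl

theorem mem_O_of_mem_Oall {x : F} (h : x ∈ S.Oall) (v : ι) : x ∈ S.O v := S.mem_Oall.mp h v

/-- The residue map of the component `v`, extended by zero outside `O v`. -/
noncomputable def resF (v : ι) (x : F) : Ft v :=
  letI := Classical.propDecidable (x ∈ S.O v)
  if h : x ∈ S.O v then S.res v ⟨x, h⟩ else 0

/-- The tuple of residues. -/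
noncomputable def resAll (x : F) : ∀ v, Ft v := fun v => S.resF v x

@[simp] theorem resAll_apply (x : F) (v : ι) : S.resAll x v = S.resF v x := rfl

theorem resF_of_mem {v : ι} {x : F} (h : x ∈ S.O v) : S.resF v x = S.res v ⟨x, h⟩ := by
  unfold resF
  rw [dif_pos h]

theorem resF_of_not_mem {v : ι} {x : F} (h : x ∉ S.O v) : S.resF v x = 0 := by
  unfold resF
  rw [dif_neg h]

@[simp] theorem resF_zero (v : ι) : S.resF v 0 = 0 := by
  rw [S.resF_of_mem (S.O v).zero_mem]
  exact map_zero (S.res v)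

@[simp] theorem resAll_zero : S.resAll 0 = 0 := by
  funext v
  simp

@[simp] theorem resF_one (v : ι) : S.resF v 1 = 1 := by
  rw [S.resF_of_mem (S.O v).one_mem]
  exact map_one (S.res v)

@[simp] theorem resAll_one : S.resAll 1 = 1 := by
  funext v
  simp

theorem resF_add {v : ι} {x y : F} (hx : x ∈ S.O v) (hy : y ∈ S.O v) :
    S.resF v (x + y) = S.resF v x + S.resF v y := by
  rw [S.resF_of_mem hx, S.resF_of_mem hy, S.resF_of_mem ((S.O v).add_mem _ _ hx hy), ← map_add]
  rfl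

theorem resAll_add {x y : F} (hx : x ∈ S.Oall) (hy : y ∈ S.Oall) :
    S.resAll (x + y) = S.resAll x + S.resAll y := by
  funext v
  exact S.resF_add (S.mem_O_of_mem_Oall hx v) (S.mem_O_of_mem_Oall hy v)

theorem resF_mul {v : ι} {x y : F} (hx : x ∈ S.O v) (hy : y ∈ S.O v) :
    S.resF v (x * y) = S.resF v x * S.resF v y := by
  rw [S.resF_of_mem hx, S.resF_of_mem hy, S.resF_of_mem ((S.O v).mul_mem _ _ hx hy), ← map_mul]
  rfl

theorem resAll_mul {x y : F} (hx : x ∈ S.Oall) (hy : y ∈ S.Oall) :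
    S.resAll (x * y) = S.resAll x * S.resAll y := by
  funext v
  exact S.resF_mul (S.mem_O_of_mem_Oall hx v) (S.mem_O_of_mem_Oall hy v)

theorem resF_neg {v : ι} {x : F} (hx : x ∈ S.O v) : S.resF v (-x) = -S.resF v x := by
  rw [S.resF_of_mem hx, S.resF_of_mem ((S.O v).neg_mem _ hx), ← map_neg]
  rfl

theorem resAll_neg {x : F} (hx : x ∈ S.Oall) : S.resAll (-x) = -S.resAll x := by
  funext v
  exact S.resF_neg (S.mem_O_of_mem_Oall hx v)

theorem resF_sub {v : ι} {x y : F} (hx : x ∈ S.O v) (hy : y ∈ S.O v) :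
    S.resF v (x - y) = S.resF v x - S.resF v y := by
  rw [sub_eq_add_neg, S.resF_add hx ((S.O v).neg_mem _ hy), S.resF_neg hy, sub_eq_add_neg]

theorem resAll_sub {x y : F} (hx : x ∈ S.Oall) (hy : y ∈ S.Oall) :
    S.resAll (x - y) = S.resAll x - S.resAll y := by
  funext v
  exact S.resF_sub (S.mem_O_of_mem_Oall hx v) (S.mem_O_of_mem_Oall hy v)

theorem resF_pow {v : ι} {x : F} (hx : x ∈ S.O v) (n : ℕ) :
    S.resF v (x ^ n) = S.resF v x ^ n := by
  rw [S.resF_of_mem hx, S.resF_of_mem (pow_mem hx n), ← map_pow]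
  rfl

theorem resAll_pow {x : F} (hx : x ∈ S.Oall) (n : ℕ) : S.resAll (x ^ n) = S.resAll x ^ n := by
  funext v
  exact S.resF_pow (S.mem_O_of_mem_Oall hx v) n

theorem resF_sum {v : ι} {σ : Type*} (s : Finset σ) (x : σ → F) (hx : ∀ i ∈ s, x i ∈ S.O v) :
    S.resF v (∑ i ∈ s, x i) = ∑ i ∈ s, S.resF v (x i) := by
  classical
  induction s using Finset.induction_on with
  | empty => simp
  | insert i s hi ih =>
    rw [Finset.sum_insert hi, Finset.sum_insert hi,
      S.resF_add (hx i (Finset.mem_insert_self i s))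
        ((S.O v).toSubring.sum_mem fun j hj => hx j (Finset.mem_insert_of_mem hj)),
      ih fun j hj => hx j (Finset.mem_insert_of_mem hj)]

theorem resAll_sum {σ : Type*} (s : Finset σ) (x : σ → F) (hx : ∀ i ∈ s, x i ∈ S.Oall) :
    S.resAll (∑ i ∈ s, x i) = ∑ i ∈ s, S.resAll (x i) := by
  funext v
  rw [resAll_apply, Finset.sum_apply, S.resF_sum s x fun i hi => S.mem_O_of_mem_Oall (hx i hi) v]
  rfl

theorem sum_mem {σ : Type*} (s : Finset σ) (x : σ → F) (hx : ∀ i ∈ s, x i ∈ S.Oall) :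
    ∑ i ∈ s, x i ∈ S.Oall :=
  S.Oall.sum_mem hx

/-- Non-units of `O v` are exactly the elements with zero residue on `v`. -/
theorem resF_eq_zero_iff {v : ι} {x : F} (hx : x ∈ S.O v) :
    S.resF v x = 0 ↔ x ∈ (S.O v).nonunits := by
  rw [S.resF_of_mem hx, S.res_eq_zero_iff]
  have h1 : (x ∈ (S.O v).nonunits) ↔ (⟨x, hx⟩ : S.O v) ∈ IsLocalRing.maximalIdeal (S.O v) :=
    ValuationSubring.coe_mem_nonunits_iff (A := S.O v) (a := ⟨x, hx⟩)
  rw [h1, IsLocalRing.mem_maximalIdeal, mem_nonunits_iff]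

theorem resF_ne_zero_iff {v : ι} {x : F} (hx : x ∈ S.O v) :
    S.resF v x ≠ 0 ↔ x ≠ 0 ∧ x⁻¹ ∈ S.O v := by
  rw [Ne, S.resF_eq_zero_iff hx, ValuationSubring.mem_nonunits_iff_or]
  push Not
  rfl

theorem mem_of_resF_ne_zero {v : ι} {x : F} (h : S.resF v x ≠ 0) : x ∈ S.O v := by
  by_contra hx
  exact h (S.resF_of_not_mem hx)

theorem inv_mem_of_resF_ne_zero {v : ι} {x : F} (h : S.resF v x ≠ 0) : x⁻¹ ∈ S.O v :=
  ((S.resF_ne_zero_iff (S.mem_of_resF_ne_zero h)).mp h).2

theorem ne_zero_of_resF_ne_zero {v : ι} {x : F} (h : S.resF v x ≠ 0) : x ≠ 0 := by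
  rintro rfl
  exact h (S.resF_zero v)

theorem ne_zero_of_resAll_ne_zero {x : F} (h : S.resAll x ≠ 0) : x ≠ 0 := by
  rintro rfl
  exact h S.resAll_zero

theorem resF_inv {v : ι} {x : F} (h : S.resF v x ≠ 0) : S.resF v x⁻¹ = (S.resF v x)⁻¹ := by
  have hx := S.mem_of_resF_ne_zero h
  have hxi := S.inv_mem_of_resF_ne_zero h
  have h0 := S.ne_zero_of_resF_ne_zero h
  have := S.resF_mul hx hxi
  rw [mul_inv_cancel₀ h0, S.resF_one] at this
  exact eq_inv_of_mul_eq_one_right this.symm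

/-- An element all of whose residues are nonzero is a unit of `Oall`. -/
theorem inv_mem_Oall {x : F} (h : ∀ v, S.resF v x ≠ 0) : x⁻¹ ∈ S.Oall :=
  S.mem_Oall.mpr fun v => S.inv_mem_of_resF_ne_zero (h v)

theorem mem_Oall_of_resF_ne_zero {x : F} (h : ∀ v, S.resF v x ≠ 0) : x ∈ S.Oall :=
  S.mem_Oall.mpr fun v => S.mem_of_resF_ne_zero (h v)

/-- Constants: `a ∈ A` maps into `Oall`. -/
theorem algebraMap_mem {a : K} (ha : a ∈ A) : algebraMap K F a ∈ S.Oall :=
  S.mem_Oall.mpr fun v => (S.algebraMap_mem_iff v a).mpr ha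

theorem resF_algebraMap (v : ι) {a : K} (ha : a ∈ A) :
    S.resF v (algebraMap K F a) = algebraMap k (Ft v) (π ⟨a, ha⟩) := by
  rw [S.resF_of_mem (S.mem_O_of_mem_Oall (S.algebraMap_mem ha) v)]
  exact S.res_algebraMap v a ha _

theorem resAll_algebraMap {a : K} (ha : a ∈ A) :
    S.resAll (algebraMap K F a) = π ⟨a, ha⟩ • (1 : ∀ v, Ft v) := by
  funext v
  rw [resAll_apply, S.resF_algebraMap v ha, Pi.smul_apply, Pi.one_apply, Algebra.smul_def, mul_one]

theorem smul_mem_O (v : ι) {a : K} (ha : a ∈ A) {x : F} (hx : x ∈ S.O v) : a • x ∈ S.O v := by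
  rw [Algebra.smul_def]
  exact (S.O v).mul_mem _ _ ((S.algebraMap_mem_iff v a).mpr ha) hx

theorem smul_mem {a : K} (ha : a ∈ A) {x : F} (hx : x ∈ S.Oall) : a • x ∈ S.Oall := by
  rw [Algebra.smul_def]
  exact S.Oall.mul_mem (S.algebraMap_mem ha) hx

theorem resF_smul (v : ι) {a : K} (ha : a ∈ A) {x : F} (hx : x ∈ S.O v) :
    S.resF v (a • x) = π ⟨a, ha⟩ • S.resF v x := by
  rw [Algebra.smul_def, S.resF_mul ((S.algebraMap_mem_iff v a).mpr ha) hx, S.resF_algebraMap v ha,
    Algebra.smul_def]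

theorem resAll_smul {a : K} (ha : a ∈ A) {x : F} (hx : x ∈ S.Oall) :
    S.resAll (a • x) = π ⟨a, ha⟩ • S.resAll x := by
  funext v
  exact S.resF_smul v ha (S.mem_O_of_mem_Oall hx v)

include S in
/-- `π a = 0` iff `a` is a non-unit of `A` (uses one component `v`). -/
theorem pi_eq_zero_iff (v : ι) (a : A) : π a = 0 ↔ (a : K) ∈ A.nonunits := by
  have h1 : S.resF v (algebraMap K F (a : K)) = algebraMap k (Ft v) (π a) :=
    S.resF_algebraMap v a.2
  have h2 : π a = 0 ↔ S.resF v (algebraMap K F (a : K)) = 0 := by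
    rw [h1]
    constructor
    · intro h; rw [h, map_zero]
    · intro h
      exact (map_eq_zero_iff _ (algebraMap k (Ft v)).injective).mp h
  rw [h2, S.resF_eq_zero_iff ((S.algebraMap_mem_iff v _).mpr a.2),
    ValuationSubring.mem_nonunits_iff_or, ValuationSubring.mem_nonunits_iff_or]
  constructor
  · rintro (h | h)
    · left
      exact (map_eq_zero_iff _ (algebraMap K F).injective).mp h
    · right
      intro hinv
      apply h
      rw [← map_inv₀]
      exact (S.algebraMap_mem_iff v _).mpr hinv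
  · rintro (h | h)
    · left
      rw [h, map_zero]
    · right
      intro hinv
      apply h
      rw [← map_inv₀] at hinv
      exact (S.algebraMap_mem_iff v _).mp hinv

include S in
theorem pi_ne_zero_of_unit (v : ι) {a : K} (ha : a ∈ A) (hai : a⁻¹ ∈ A) (h0 : a ≠ 0) :
    π ⟨a, ha⟩ ≠ 0 := by
  rw [Ne, S.pi_eq_zero_iff v, ValuationSubring.mem_nonunits_iff_or]
  push Not
  exact ⟨h0, hai⟩

include S in
theorem pi_eq_zero_of_inv_not_mem (v : ι) {a : K} (ha : a ∈ A) (hai : a⁻¹ ∉ A) :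
    π ⟨a, ha⟩ = 0 := by
  rw [S.pi_eq_zero_iff v, ValuationSubring.mem_nonunits_iff_or]
  exact Or.inr hai

/-- If `a ∉ A` then `a⁻¹` is a non-unit of `A`, so scaling by it kills the residue on `v`. -/
theorem resF_smul_eq_zero_of_not_mem (v : ι) {a : K} (ha : a ∉ A) {x : F} (hx : x ∈ S.O v) :
    a⁻¹ • x ∈ S.O v ∧ S.resF v (a⁻¹ • x) = 0 := by
  have hai : a⁻¹ ∈ A := (A.mem_or_inv_mem a).resolve_left ha
  refine ⟨S.smul_mem_O v hai hx, ?_⟩
  rw [S.resF_smul v hai hx]
  have : π ⟨a⁻¹, hai⟩ = 0 := by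
    rw [S.pi_eq_zero_iff v, ValuationSubring.mem_nonunits_iff_or]
    right
    simpa using ha
  rw [this, zero_smul]

theorem resAll_smul_eq_zero_of_not_mem {a : K} (ha : a ∉ A) {x : F} (hx : x ∈ S.Oall) :
    a⁻¹ • x ∈ S.Oall ∧ S.resAll (a⁻¹ • x) = 0 := by
  have hai : a⁻¹ ∈ A := (A.mem_or_inv_mem a).resolve_left ha
  refine ⟨S.smul_mem hai hx, ?_⟩
  funext v
  exact (S.resF_smul_eq_zero_of_not_mem v ha (S.mem_O_of_mem_Oall hx v)).2

/-- Value group of the component `v`: every nonzero function is a constant times a unit of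
`O v`. -/
theorem exists_smul_mem (v : ι) {f : F} (hf : f ≠ 0) :
    ∃ c : K, c ≠ 0 ∧ c • f ∈ S.O v ∧ S.resF v (c • f) ≠ 0 := by
  have hfin : Module.Finite K (⊥ : Submodule K F) := inferInstance
  have hf' : f ∉ (⊥ : Submodule K F) := by simpa using hf
  obtain ⟨w, hw, c, hc, h₁, hne⟩ := S.approx v ⊥ hfin f hf'
  have hw0 : w = 0 := by simpa using hw
  have e : c • (f - w) = c • f := by rw [hw0, sub_zero]
  refine ⟨c, hc, e ▸ h₁, ?_⟩
  intro h0
  apply hne 0 (Submodule.zero_mem _)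
  rw [← S.resF_of_mem h₁, e, h0]
  exact map_zero (S.res v)

/-- Every nonzero function is a constant times an element of `Oall` with nonzero residue tuple
(the maximum of the component norms is attained). -/
theorem exists_smul_mem_Oall [Finite ι] [Nonempty ι] {f : F} (hf : f ≠ 0) :
    ∃ c : K, c ≠ 0 ∧ c • f ∈ S.Oall ∧ ∃ v, S.resF v (c • f) ≠ 0 := by
  classical
  have := Fintype.ofFinite ι
  choose c hc hmem hres using fun v => S.exists_smul_mem v hf
  obtain ⟨v₀, -, hv₀⟩ := Finset.exists_min_image Finset.univ (fun v => A.valuation (c v))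
    Finset.univ_nonempty
  refine ⟨c v₀, hc v₀, S.mem_Oall.mpr fun v => ?_, v₀, hres v₀⟩
  have h1 : c v₀ * (c v)⁻¹ ∈ A := by
    rw [← A.valuation_le_one_iff, map_mul, map_inv₀]
    have hcv : A.valuation (c v) ≠ 0 := (A.valuation.ne_zero_iff).mpr (hc v)
    rw [mul_inv_le_iff₀ (zero_lt_iff.mpr hcv), one_mul]
    exact hv₀ v (Finset.mem_univ v)
  have h2 : c v₀ • f = (c v₀ * (c v)⁻¹) • (c v • f) := by
    rw [smul_smul, mul_assoc, inv_mul_cancel₀ (hc v), mul_one]
  rw [h2]
  exact S.smul_mem_O v h1 (hmem v)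

/-- Every element of `F` can be scaled into `Oall` by a nonzero constant. -/
theorem exists_smul_mem_Oall' [Finite ι] [Nonempty ι] (y : F) : ∃ c : K, c ≠ 0 ∧ c • y ∈ S.Oall := by
  rcases eq_or_ne y 0 with rfl | hy
  · exact ⟨1, one_ne_zero, by simp [S.Oall.zero_mem]⟩
  · obtain ⟨c, hc, h, -⟩ := S.exists_smul_mem_Oall hy
    exact ⟨c, hc, h⟩

/-- **Saturation.** A nonzero element of `Oall` with zero residue tuple is a non-unit constant of
`A` times an element of `Oall` with nonzero residue tuple. -/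
theorem exists_smul_of_resAll_eq_zero [Finite ι] [Nonempty ι] {x : F} (hx : x ∈ S.Oall)
    (hx0 : x ≠ 0) (hres : S.resAll x = 0) :
    ∃ a : K, a ∈ A ∧ a ≠ 0 ∧ a⁻¹ ∉ A ∧ ∃ w ∈ S.Oall, (∃ v, S.resF v w ≠ 0) ∧ x = a • w := by
  obtain ⟨c, hc, hmem, v, hne⟩ := S.exists_smul_mem_Oall hx0
  have hcA : c ∉ A := by
    intro hcA
    apply hne
    rw [S.resF_smul v hcA (S.mem_O_of_mem_Oall hx v)]
    have : S.resF v x = 0 := congrFun hres v
    rw [this, smul_zero]
  have hci : c⁻¹ ∈ A := (A.mem_or_inv_mem c).resolve_left hcA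
  refine ⟨c⁻¹, hci, inv_ne_zero hc, by simpa using hcA, c • x, hmem, ⟨v, hne⟩, ?_⟩
  rw [smul_smul, inv_mul_cancel₀ hc, one_smul]

end SemistableSetup

end Fermat.Agent.BR.SS
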