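import Mathlib
import Fermat.Agent.BR.SS.Basic
import Fermat.Agent.Red.FFLemmas

/-!
# Program B (BADRED), block B3: push-forward of divisors to the components

* `S.push E v : Divisor k (Ft v)` : the part on the component `v` of the reduction `r_* E`;
  additivity, value at branch points, degree.
* `S.MatchAt t` : the family `t : ∀ v, Ft v` is regular at all branch points with equal values at
  the two branches of every node.
* `S.push_divOf` : conservation at the smooth points of `v` in divisor form.
* `S.isSmoothPlace_iff`, `S.not_isSmoothPlace_iff` : the annular places.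
-/

set_option autoImplicit false

namespace Fermat.Agent.BR.SS

open AlgebraicCurve Fermat.Agent.Red Fermat.Agent.X0

variable {K F k : Type*} [Field K] [Field F] [Algebra K F] [Field k]
  {A : ValuationSubring K} {π : A →+* k} {ι : Type*} {Ft : ι → Type*}
  [∀ v, Field (Ft v)] [∀ v, Algebra k (Ft v)] {ν : Type*}

namespace SemistableSetup

variable (S : SemistableSetup (F := F) A π ι Ft ν)

/-- The family `t` is regular at all branch points, with equal values at the two branches of
every node. -/
def MatchAt (t : ∀ v, Ft v) : Prop :=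
  ∀ e, ∃ c : k, IsValueAt (S.s₁ e) (t (S.src e)) c ∧ IsValueAt (S.s₂ e) (t (S.tgt e)) c

/-- The part of the reduction of the divisor `E` on the component `v`. -/
noncomputable def push (E : Divisor K F) (v : ι) : Divisor k (Ft v) :=
  Finsupp.split (Finsupp.mapDomain S.r E) v

@[simp] theorem push_apply (E : Divisor K F) (v : ι) (Q : Place k (Ft v)) :
    S.push E v Q = Finsupp.mapDomain S.r E ⟨v, Q⟩ := by
  unfold push
  rw [Finsupp.split_apply]

@[simp] theorem push_zero (v : ι) : S.push 0 v = 0 := by
  ext Q
  simp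

theorem push_add (E E' : Divisor K F) (v : ι) : S.push (E + E') v = S.push E v + S.push E' v := by
  ext Q
  simp [Finsupp.mapDomain_add]

theorem push_neg (E : Divisor K F) (v : ι) : S.push (-E) v = -S.push E v := by
  ext Q
  have h : Finsupp.mapDomain S.r (-E) = -Finsupp.mapDomain S.r E :=
    map_neg (Finsupp.mapDomain.addMonoidHom S.r) E
  simp [h]

theorem push_sub (E E' : Divisor K F) (v : ι) : S.push (E - E') v = S.push E v - S.push E' v := by
  rw [sub_eq_add_neg, push_add, push_neg, sub_eq_add_neg]

theorem push_nsmul (m : ℕ) (E : Divisor K F) (v : ι) : S.push (m • E) v = m • S.push E v := by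
  ext Q
  have h : Finsupp.mapDomain S.r (m • E) = m • Finsupp.mapDomain S.r E :=
    map_nsmul (Finsupp.mapDomain.addMonoidHom S.r) m E
  simp [h]

theorem push_apply_eq_sum (E : Divisor K F) (v : ι) (Q : Place k (Ft v)) :
    S.push E v Q = ∑ P ∈ E.support,
      (letI := Classical.propDecidable (S.r P = ⟨v, Q⟩); if S.r P = ⟨v, Q⟩ then E P else 0) := by
  rw [push_apply, mapDomain_apply_eq_sum]

/-- A place is smooth iff it is not annular (nothing reduces to a target branch). -/
theorem not_isSmoothPlace_iff (P : Place K F) :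
    ¬ S.IsSmoothPlace P ↔ ∃ e, S.r P = ⟨S.src e, S.s₁ e⟩ := by
  unfold IsSmoothPlace IsBranch
  rw [not_not]
  constructor
  · rintro ⟨e, h | h⟩
    · exact ⟨e, h⟩
    · exact absurd h (S.r_ne_tgt P e)
  · rintro ⟨e, h⟩
    exact ⟨e, Or.inl h⟩

theorem isSmoothPlace_iff (P : Place K F) :
    S.IsSmoothPlace P ↔ ∀ e, S.r P ≠ ⟨S.src e, S.s₁ e⟩ := by
  rw [← not_iff_not, not_isSmoothPlace_iff]
  push Not
  rfl

/-- A divisor supported on smooth places has no reduction at the branch points. -/
theorem push_apply_of_isBranch {E : Divisor K F} (hE : ∀ P ∈ E.support, S.IsSmoothPlace P)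
    {v : ι} {Q : Place k (Ft v)} (hQ : S.IsBranch ⟨v, Q⟩) : S.push E v Q = 0 := by
  rw [push_apply_eq_sum]
  refine Finset.sum_eq_zero fun P hP => ?_
  rw [if_neg]
  intro h
  exact hE P hP (h ▸ hQ)

theorem push_apply_src {E : Divisor K F} (hE : ∀ P ∈ E.support, S.IsSmoothPlace P) (e : ν) :
    S.push E (S.src e) (S.s₁ e) = 0 :=
  S.push_apply_of_isBranch hE ⟨e, Or.inl rfl⟩

theorem push_apply_tgt {E : Divisor K F} (hE : ∀ P ∈ E.support, S.IsSmoothPlace P) (e : ν) :
    S.push E (S.tgt e) (S.s₂ e) = 0 :=
  S.push_apply_of_isBranch hE ⟨e, Or.inr rfl⟩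

/-- **Conservation in divisor form**: at a non-branch point `Q` of the component `v`, the
reduction of the divisor of a unit `y` of `O v` is the divisor of the residue of `y`. -/
theorem push_divOf [HasPrincipalDivisors K F] {v : ι} {y : F} (hy : S.resF v y ≠ 0)
    {Q : Place k (Ft v)} (hQ : ¬ S.IsBranch ⟨v, Q⟩) :
    S.push (divOf K y) v Q = Q.ord (S.resF v y) := by
  have hmem := S.mem_of_resF_ne_zero hy
  rw [push_apply, S.resF_of_mem hmem]
  refine S.conservation v ⟨y, hmem⟩ ?_ (divOf K y) (fun P => divOf_apply y P) Q ?_ ?_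
  · rwa [← S.resF_of_mem hmem]
  · exact fun e h => hQ ⟨e, Or.inl h⟩
  · exact fun e h => hQ ⟨e, Or.inr h⟩

/-- The degree of the reduction is the degree (all places of degree one). -/
theorem sum_degree_push [Fintype ι] (hF : RiemannPkg K F) (hFt : ∀ v, RiemannPkg k (Ft v))
    (E : Divisor K F) : ∑ v, Divisor.degree (S.push E v) = Divisor.degree E := by
  classical
  have h1 : ∀ v, Divisor.degree (S.push E v) = (S.push E v).sum fun _ n => n :=
    fun v => degree_eq_sum (hFt v) _
  rw [degree_eq_sum hF E]
  simp_rw [h1]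
  have h2 : (Finsupp.mapDomain S.r E).sum (fun _ n => n) = E.sum fun _ n => n :=
    Finsupp.sum_mapDomain_index (fun _ => rfl) fun _ _ _ => rfl
  rw [← h2, Finsupp.sigma_sum]
  unfold push
  symm
  refine Finset.sum_subset (Finset.subset_univ _) fun v _ hv => ?_
  have : Finsupp.split (Finsupp.mapDomain S.r E) v = 0 := by
    by_contra hne
    exact hv (Finsupp.mem_splitSupport_iff_nonzero _ _ |>.mpr hne)
  rw [this, Finsupp.sum_zero_index]

end SemistableSetup

end Fermat.Agent.BR.SS
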