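import Mathlib
import Fermat.Agent.BR.SS.Push
import Fermat.Agent.Red.NormalForm

/-!
# Program B (BADRED), block B3, node B3.6 part (U): unit normalisation

For a divisor `D` supported on smooth places whose reduction has degree zero on every component,
and `h` with `div h = m D`:

* `S.exists_smul_resF_ne_zero` : a constant multiple of `h` is a unit on EVERY component
  (maximum principle on the dual graph: `node_match` + degree count + connectedness; no thickness
  of the nodes is used);
* `S.exists_smul_resF_eq_pow` : if moreover the reduction of `D` is the divisor of a matching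
  family `t`, a constant multiple of `h` has residues `t v ^ m`.
-/

set_option autoImplicit false

namespace Fermat.Agent.BR.SS

open AlgebraicCurve Fermat.Agent.Red Fermat.Agent.X0 Fermat.Agent.Red.NormalForm

section Value

variable {K F : Type*} [Field K] [Field F] [Algebra K F]

theorem ne_zero_of_isValueAt_ne_zero {P : Place K F} {h : F} {c : K} (hc : IsValueAt P h c)
    (hc0 : c ≠ 0) : h ≠ 0 := by
  rintro rfl
  have h1 : P.adicValuation ((0 : F) - algebraMap K F c) = 1 := by
    rw [zero_sub, Valuation.map_neg]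
    exact adicValuation_algebraMap_of_ne_zero P hc0
  have h2 : P.adicValuation ((0 : F) - algebraMap K F c) < 1 := hc
  rw [h1] at h2
  exact lt_irrefl _ h2

theorem value_ne_zero_of_ord_eq_zero {P : Place K F} {h : F} {c : K} (hc : IsValueAt P h c)
    (h0 : h ≠ 0) (hord : P.ord h = 0) : c ≠ 0 := by
  rintro rfl
  rcases (adicValuation_lt_one_iff P).mp (isValueAt_zero_iff.mp hc) with h1 | h1
  · exact h0 h1
  · omega

theorem ord_nonneg_of_isValueAt {P : Place K F} {h : F} {c : K} (hc : IsValueAt P h c) :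
    0 ≤ P.ord h :=
  Place.ord_nonneg_of_mem P hc.mem

end Value

variable {K F k : Type*} [Field K] [Field F] [Algebra K F] [Field k]
  {A : ValuationSubring K} {π : A →+* k} {ι : Type*} {Ft : ι → Type*}
  [∀ v, Field (Ft v)] [∀ v, Algebra k (Ft v)] {ν : Type*}

namespace SemistableSetup

variable (S : SemistableSetup (F := F) A π ι Ft ν)

/-- `node_match` in terms of `resF`. -/
theorem exists_isValueAt_resF {y : F} (hy : y ∈ S.Oall)
    (hpole : ∀ P, ¬ S.IsSmoothPlace P → 0 ≤ P.ord y) (e : ν) :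
    ∃ c : k, IsValueAt (S.s₁ e) (S.resF (S.src e) y) c ∧
      IsValueAt (S.s₂ e) (S.resF (S.tgt e) y) c := by
  have h₁ := S.mem_O_of_mem_Oall hy (S.src e)
  have h₂ := S.mem_O_of_mem_Oall hy (S.tgt e)
  rw [S.resF_of_mem h₁, S.resF_of_mem h₂]
  refine S.node_match e y h₁ h₂ fun P hP => hpole P ?_
  rw [S.not_isSmoothPlace_iff]
  exact ⟨e, hP⟩

/-- The residues of a function integral on all components and without poles in the annuli match
at all nodes. -/
theorem matchAt_resAll {y : F} (hy : y ∈ S.Oall)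
    (hpole : ∀ P, ¬ S.IsSmoothPlace P → 0 ≤ P.ord y) : S.MatchAt (S.resAll y) :=
  fun e => S.exists_isValueAt_resF hy hpole e

/-- The residues of such a function are regular at all branch points. -/
theorem ord_resF_nonneg_of_isBranch {y : F} (hy : y ∈ S.Oall)
    (hpole : ∀ P, ¬ S.IsSmoothPlace P → 0 ≤ P.ord y) (x : Σ v, Place k (Ft v))
    (hx : S.IsBranch x) : 0 ≤ x.2.ord (S.resF x.1 y) := by
  obtain ⟨e, rfl | rfl⟩ := hx
  · obtain ⟨c, h1, -⟩ := S.exists_isValueAt_resF hy hpole e
    exact ord_nonneg_of_isValueAt h1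
  · obtain ⟨c, -, h2⟩ := S.exists_isValueAt_resF hy hpole e
    exact ord_nonneg_of_isValueAt h2

/-- A function with divisor `m D`, `D` smooth, has no zeros or poles in the annuli. -/
theorem ord_eq_zero_of_not_isSmoothPlace {D : Divisor K F}
    (hD : ∀ P ∈ D.support, S.IsSmoothPlace P) {m : ℕ} {y : F}
    (hy : ∀ P, (m • D) P = P.ord y) (P : Place K F) (hP : ¬ S.IsSmoothPlace P) :
    P.ord y = 0 := by
  have : D P = 0 := by
    by_contra h
    exact hP (hD P (Finsupp.mem_support_iff.mpr h))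
  rw [← hy, Finsupp.smul_apply, this, smul_zero]

/-- **Degree count.** If `div y = m D` (`D` smooth, reduction of degree zero on `v`), `y` integral
on all components and a unit on `v`, then the divisor of the residue of `y` on `v` is exactly
`m` times the reduction of `D`; in particular the residue is a unit at all branch points. -/
theorem divOf_resF_eq [HasPrincipalDivisors K F] (hFt : ∀ v, RiemannPkg k (Ft v))
    {D : Divisor K F} (hD : ∀ P ∈ D.support, S.IsSmoothPlace P) {m : ℕ} {y : F}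
    (hyO : y ∈ S.Oall) (hy : ∀ P, (m • D) P = P.ord y) {v : ι} (hv : S.resF v y ≠ 0)
    (hdeg : Divisor.degree (S.push D v) = 0) :
    haveI := (hFt v).principal
    divOf k (S.resF v y) = m • S.push D v := by
  haveI := (hFt v).principal
  have hpole : ∀ P, ¬ S.IsSmoothPlace P → 0 ≤ P.ord y := fun P hP =>
    (S.ord_eq_zero_of_not_isSmoothPlace hD hy P hP).ge
  have hdiv : divOf K y = m • D := divOf_eq_of_forall hy
  set B : Divisor k (Ft v) := divOf k (S.resF v y) - m • S.push D v with hB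
  have hBdeg : Divisor.degree B = 0 := by
    rw [hB, map_sub, degree_divOf, map_nsmul, hdeg, smul_zero, sub_zero]
  have hBnonneg : 0 ≤ B := by
    intro Q
    rw [Finsupp.zero_apply, hB, Finsupp.sub_apply, divOf_apply, Finsupp.smul_apply]
    by_cases hQ : S.IsBranch ⟨v, Q⟩
    · rw [S.push_apply_of_isBranch hD hQ, smul_zero, sub_zero]
      exact S.ord_resF_nonneg_of_isBranch hyO hpole ⟨v, Q⟩ hQ
    · rw [← S.push_divOf hv hQ, hdiv, S.push_nsmul, Finsupp.smul_apply, sub_self]
  have hB0 := eq_zero_of_nonneg_of_degree_eq_zero (hFt v) hBnonneg hBdeg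
  rw [hB] at hB0
  exact sub_eq_zero.mp hB0

theorem ord_resF_eq_zero_of_isBranch [HasPrincipalDivisors K F]
    (hFt : ∀ v, RiemannPkg k (Ft v))
    {D : Divisor K F} (hD : ∀ P ∈ D.support, S.IsSmoothPlace P) {m : ℕ} {y : F}
    (hyO : y ∈ S.Oall) (hy : ∀ P, (m • D) P = P.ord y) (hdeg : ∀ v, Divisor.degree (S.push D v) = 0)
    (x : Σ v, Place k (Ft v)) (hx : S.IsBranch x) (hv : S.resF x.1 y ≠ 0) :
    x.2.ord (S.resF x.1 y) = 0 := by
  haveI := (hFt x.1).principal
  have h := S.divOf_resF_eq hFt hD hyO hy hv (hdeg x.1)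
  have h2 := congrArg (fun E : Divisor k (Ft x.1) => E x.2) h
  simp only [divOf_apply, Finsupp.smul_apply] at h2
  rw [h2, S.push_apply_of_isBranch hD (v := x.1) (Q := x.2) hx, smul_zero]

/-- **(U), first half: unit normalisation.** If `div h = m D` with `D` smooth and of degree zero
on every component, a constant multiple of `h` is a unit on every component. -/
theorem exists_smul_resF_ne_zero [Finite ι] (hF : RiemannPkg K F)
    (hFt : ∀ v, RiemannPkg k (Ft v)) {D : Divisor K F}
    (hD : ∀ P ∈ D.support, S.IsSmoothPlace P)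
    (hdeg : ∀ v, Divisor.degree (S.push D v) = 0) {m : ℕ} {h : F} (h0 : h ≠ 0)
    (hh : ∀ P, (m • D) P = P.ord h) :
    ∃ c : K, c ≠ 0 ∧ c • h ∈ S.Oall ∧ ∀ v, S.resF v (c • h) ≠ 0 := by
  haveI := hF.principal
  haveI : Nonempty ι := by
    obtain ⟨P⟩ := hF.infinite_places.nonempty
    exact ⟨(S.r P).1⟩
  obtain ⟨c, hc, hmem, v₀, hv₀⟩ := S.exists_smul_mem_Oall h0
  refine ⟨c, hc, hmem, ?_⟩
  set y : F := c • h with hy
  have hyD : ∀ P, (m • D) P = P.ord y := fun P => by rw [hy, ord_const_smul P hc, hh]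
  have hpole : ∀ P, ¬ S.IsSmoothPlace P → 0 ≤ P.ord y := fun P hP =>
    (S.ord_eq_zero_of_not_isSmoothPlace hD hyD P hP).ge
  have hT : {v | S.resF v y ≠ 0} = Set.univ := by
    refine S.connected _ ⟨v₀, hv₀⟩ fun e => ?_
    obtain ⟨c₀, h1, h2⟩ := S.exists_isValueAt_resF hmem hpole e
    constructor
    · intro hv
      have hord := S.ord_resF_eq_zero_of_isBranch hFt hD hmem hyD hdeg ⟨S.src e, S.s₁ e⟩
        ⟨e, Or.inl rfl⟩ hv
      exact ne_zero_of_isValueAt_ne_zero h2 (value_ne_zero_of_ord_eq_zero h1 hv hord)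
    · intro hv
      have hord := S.ord_resF_eq_zero_of_isBranch hFt hD hmem hyD hdeg ⟨S.tgt e, S.s₂ e⟩
        ⟨e, Or.inr rfl⟩ hv
      exact ne_zero_of_isValueAt_ne_zero h1 (value_ne_zero_of_ord_eq_zero h2 hv hord)
  intro v
  have : v ∈ {v | S.resF v y ≠ 0} := by rw [hT]; exact Set.mem_univ v
  exact this

/-- **(U), second half.** If moreover the reduction of `D` is the divisor of a family `t` matching
at the nodes, a constant multiple of `h` has residues `t v ^ m` on all components. -/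
theorem exists_smul_resF_eq_pow [Finite ι] (hF : RiemannPkg K F)
    (hFt : ∀ v, RiemannPkg k (Ft v)) (hπ : Function.Surjective π) {D : Divisor K F}
    (hD : ∀ P ∈ D.support, S.IsSmoothPlace P) {m : ℕ} {h : F} (h0 : h ≠ 0)
    (hh : ∀ P, (m • D) P = P.ord h) {t : ∀ v, Ft v} (ht0 : ∀ v, t v ≠ 0)
    (htD : ∀ v (Q : Place k (Ft v)), Q.ord (t v) = S.push D v Q) (htm : S.MatchAt t) :
    ∃ c : K, c ≠ 0 ∧ c • h ∈ S.Oall ∧ ∀ v, S.resF v (c • h) = t v ^ m := by
  haveI := hF.principal
  haveI : Nonempty ι := by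
    obtain ⟨P⟩ := hF.infinite_places.nonempty
    exact ⟨(S.r P).1⟩
  have hdeg : ∀ v, Divisor.degree (S.push D v) = 0 := by
    intro v
    haveI := (hFt v).principal
    have : divOf k (t v) = S.push D v := divOf_eq_of_forall fun Q => (htD v Q).symm
    rw [← this, degree_divOf]
  obtain ⟨c₁, hc₁, hmem, hunit⟩ := S.exists_smul_resF_ne_zero hF hFt hD hdeg h0 hh
  set y : F := c₁ • h with hy
  have hyD : ∀ P, (m • D) P = P.ord y := fun P => by rw [hy, ord_const_smul P hc₁, hh]
  have hpole : ∀ P, ¬ S.IsSmoothPlace P → 0 ≤ P.ord y := fun P hP =>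
    (S.ord_eq_zero_of_not_isSmoothPlace hD hyD P hP).ge
  -- the constants `κ v`
  have hconst : ∀ v, ∃ κ : k, S.resF v y = algebraMap k (Ft v) κ * t v ^ m := by
    intro v
    haveI := (hFt v).principal
    have hdiv := S.divOf_resF_eq hFt hD hmem hyD (hunit v) (hdeg v)
    have hu0 : S.resF v y * (t v ^ m)⁻¹ ≠ 0 :=
      mul_ne_zero (hunit v) (inv_ne_zero (pow_ne_zero m (ht0 v)))
    have hL : S.resF v y * (t v ^ m)⁻¹ ∈ riemannRochSpace (0 : Divisor k (Ft v)) := by
      rw [mem_riemannRochSpace_iff]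
      intro Q
      right
      rw [Q.ord_mul (hunit v) (inv_ne_zero (pow_ne_zero m (ht0 v))), Q.ord_inv, Place.ord_pow,
        ← divOf_apply (K := k), hdiv, Finsupp.smul_apply, htD v Q, Finsupp.zero_apply,
        nsmul_eq_mul]
      simp
    obtain ⟨κ, hκ⟩ := (hFt v).L_zero _ hL
    refine ⟨κ, ?_⟩
    rw [← hκ, mul_assoc, inv_mul_cancel₀ (pow_ne_zero m (ht0 v)), mul_one]
  choose κ hκ using hconst
  have hκ0 : ∀ v, κ v ≠ 0 := by
    intro v h
    apply hunit v
    rw [hκ v, h, map_zero, zero_mul]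
  -- the constants agree along every edge
  have hedge : ∀ e, κ (S.src e) = κ (S.tgt e) := by
    intro e
    obtain ⟨a, ha1, ha2⟩ := S.exists_isValueAt_resF hmem hpole e
    obtain ⟨b, hb1, hb2⟩ := htm e
    have hb0 : b ≠ 0 := by
      refine value_ne_zero_of_ord_eq_zero hb1 (ht0 _) ?_
      rw [htD, S.push_apply_src hD]
    have e1 : a = κ (S.src e) * b ^ m := by
      refine ha1.unique ?_
      rw [hκ (S.src e)]
      exact (isValueAt_algebraMap _ _).mul (hb1.pow m)
    have e2 : a = κ (S.tgt e) * b ^ m := by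
      refine ha2.unique ?_
      rw [hκ (S.tgt e)]
      exact (isValueAt_algebraMap _ _).mul (hb2.pow m)
    exact mul_right_cancel₀ (pow_ne_zero m hb0) (e1.symm.trans e2)
  obtain ⟨v₀⟩ := ‹Nonempty ι›
  have hT : {v | κ v = κ v₀} = Set.univ := by
    refine S.connected _ ⟨v₀, rfl⟩ fun e => ?_
    show κ (S.src e) = κ v₀ ↔ κ (S.tgt e) = κ v₀
    rw [hedge e]
  have hall : ∀ v, κ v = κ v₀ := fun v => by
    have : v ∈ {v | κ v = κ v₀} := by rw [hT]; exact Set.mem_univ v
    exact this
  obtain ⟨a₁, ha₁⟩ := hπ (κ v₀)⁻¹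
  have ha₁0 : (a₁ : K) ≠ 0 := by
    intro h
    have : a₁ = 0 := Subtype.ext h
    rw [this, map_zero] at ha₁
    exact inv_ne_zero (hκ0 v₀) ha₁.symm
  refine ⟨(a₁ : K) * c₁, mul_ne_zero ha₁0 hc₁, ?_, fun v => ?_⟩
  · rw [← smul_smul]
    exact S.smul_mem a₁.2 hmem
  · rw [← smul_smul, S.resF_smul v a₁.2 (S.mem_O_of_mem_Oall hmem v), Subtype.coe_eta, ha₁, hκ v,
      hall v, Algebra.smul_def, ← mul_assoc, ← map_mul, inv_mul_cancel₀ (hκ0 v₀), map_one, one_mul]

end SemistableSetup

end Fermat.Agent.BR.SS
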