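import Mathlib
import Fermat.Agent.BR.SS.UnitNorm

/-!
# Program B (BADRED), block B3, node B3.6 part (N): reduction to normal form

* `S.exists_r_eq` : every smooth point of every component is the reduction of a place;
  `S.exists_smoothPlace_on` : smooth places on a component outside finitely many fibres.
* `S.pi_surjective` : `π : A → k` is surjective.
* `LiftLarge S` (hypothesis-form interface with B3.4): in large multidegree every matching family
  of `L(push E v)` is the reduction of an element of `L(E) ∩ Oall`.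
* `NormalFormKernel S` : the target in normal form (`push D v = 0`, `m D = div f`, all residues of
  `f` equal to `1`).
* `noTorsionInKernel_of_normalForm` : `LiftLarge S → NormalFormKernel S → NoTorsionInKernel S`.
-/

set_option autoImplicit false

namespace Fermat.Agent.BR.SS

open AlgebraicCurve Fermat.Agent.Red Fermat.Agent.X0 Fermat.Agent.Red.NormalForm

section Value

variable {K F : Type*} [Field K] [Field F] [Algebra K F]

/-- The inverse of a function with nonzero value `c` at `P` has value `c⁻¹`. -/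
theorem isValueAt_inv {P : Place K F} {h : F} {c : K} (hc : IsValueAt P h c) (hc0 : c ≠ 0) :
    IsValueAt P h⁻¹ c⁻¹ := by
  have hh0 : h ≠ 0 := ne_zero_of_isValueAt_ne_zero hc hc0
  have hc' : algebraMap K F c ≠ 0 := (map_ne_zero _).mpr hc0
  have h1 : h⁻¹ - algebraMap K F c⁻¹ = -((h - algebraMap K F c) * (h⁻¹ * algebraMap K F c⁻¹)) := by
    rw [map_inv₀]
    field_simp
    ring
  rw [IsValueAt, h1, Valuation.map_neg, map_mul, map_mul, map_inv₀,
    hc.adicValuation_eq_one hc0, adicValuation_algebraMap_of_ne_zero P (inv_ne_zero hc0), inv_one,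
    mul_one, mul_one]
  exact hc

end Value

variable {K F k : Type*} [Field K] [Field F] [Algebra K F] [Field k]
  {A : ValuationSubring K} {π : A →+* k} {ι : Type*} {Ft : ι → Type*}
  [∀ v, Field (Ft v)] [∀ v, Algebra k (Ft v)] {ν : Type*}

namespace SemistableSetup

variable (S : SemistableSetup (F := F) A π ι Ft ν)

/-- The set of branch points on the component `v`, as a finite set. -/
theorem finite_branch [Finite ν] (v : ι) : {Q : Place k (Ft v) | S.IsBranch ⟨v, Q⟩}.Finite := by
  classical
  have h1 : (Set.range fun e : ν ⊕ ν =>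
      Sum.elim (fun e => (⟨S.src e, S.s₁ e⟩ : Σ v, Place k (Ft v))) (fun e => ⟨S.tgt e, S.s₂ e⟩)
        e).Finite := Set.finite_range _
  refine (h1.preimage (f := Sigma.mk v) sigma_mk_injective.injOn).subset ?_
  rintro Q ⟨e, h | h⟩
  · exact ⟨Sum.inl e, h.symm⟩
  · exact ⟨Sum.inr e, h.symm⟩

variable [HasPrincipalDivisors K F]

/-- Every smooth point of every component is the reduction of a place. -/
theorem exists_r_eq {v : ι} {Q : Place k (Ft v)} (hQ : ¬ S.IsBranch ⟨v, Q⟩) :
    ∃ P : Place K F, S.r P = ⟨v, Q⟩ := by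
  obtain ⟨t, ht⟩ := exists_ord_eq_one Q
  obtain ⟨y, hy⟩ := S.res_surjective v t
  have ht0 : t ≠ 0 := by rintro rfl; simp at ht
  have hy1 : S.resF v (y : F) ≠ 0 := by rw [S.resF_of_mem y.2, Subtype.coe_eta, hy]; exact ht0
  have h := S.push_divOf hy1 hQ
  rw [S.resF_of_mem y.2, Subtype.coe_eta, hy, ht, S.push_apply] at h
  obtain ⟨P, hP, -⟩ := exists_of_mapDomain_apply_ne_zero S.r (divOf K (y : F)) ⟨v, Q⟩
    (by rw [h]; exact one_ne_zero)
  exact ⟨P, hP⟩

/-- Smooth places on the component `v` whose reduction avoids a given finite set. -/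
theorem exists_smoothPlace_on [Finite ν] (hFt : ∀ v, RiemannPkg k (Ft v)) (v : ι)
    (Y : Set (Σ v, Place k (Ft v))) (hY : Y.Finite) :
    ∃ P : Place K F, (S.r P).1 = v ∧ S.IsSmoothPlace P ∧ S.r P ∉ Y := by
  classical
  haveI := (hFt v).infinite_places
  have hinj : Function.Injective (fun Q : Place k (Ft v) => (⟨v, Q⟩ : Σ v, Place k (Ft v))) :=
    fun Q Q' h => eq_of_heq (Sigma.mk.inj_iff.mp h).2
  have hfin : ({Q : Place k (Ft v) | S.IsBranch ⟨v, Q⟩} ∪
      (fun Q : Place k (Ft v) => (⟨v, Q⟩ : Σ v, Place k (Ft v))) ⁻¹' Y).Finite :=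
    (S.finite_branch v).union (hY.preimage hinj.injOn)
  obtain ⟨Q, hQ⟩ := Infinite.exists_notMem_finset hfin.toFinset
  rw [Set.Finite.mem_toFinset, Set.mem_union, not_or] at hQ
  obtain ⟨P, hP⟩ := S.exists_r_eq hQ.1
  refine ⟨P, by rw [hP], ?_, ?_⟩
  · unfold IsSmoothPlace
    rw [hP]
    exact hQ.1
  · rw [hP]
    exact hQ.2

/-- Key step for the surjectivity of `π`. -/
theorem exists_pole_of_value {v : ι} {Q : Place k (Ft v)} (hQ : ¬ S.IsBranch ⟨v, Q⟩) (x : F)
    (P : Place K F) (hP : S.r P = ⟨v, Q⟩) (c : K)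
    (hpos : 0 < P.ord (x - algebraMap K F c)) (y : F) (e : K) (he : e ≠ 0)
    (hy : y = e • (x - algebraMap K F c)) (μ : k) (hμ : μ ≠ 0)
    (hres : S.resF v y = algebraMap k (Ft v) μ) :
    ∃ P', S.r P' = S.r P ∧ P'.ord x < 0 := by
  have hy1 : S.resF v y ≠ 0 := by rw [hres]; exact (map_ne_zero _).mpr hμ
  have h := S.push_divOf hy1 hQ
  rw [hres, Place.ord_algebraMap, S.push_apply, ← hP] at h
  have hDP : 0 < divOf K y P := by rw [divOf_apply, hy, ord_const_smul _ he]; exact hpos
  obtain ⟨P', hP', hneg⟩ := exists_neg_of_mapDomain_apply_eq_zero S.r (divOf K y) P h hDP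
  refine ⟨P', hP', ?_⟩
  rw [divOf_apply, hy, ord_const_smul _ he] at hneg
  by_contra hcon
  push Not at hcon
  have : 0 ≤ P'.ord (x - algebraMap K F c) :=
    Place.ord_nonneg_of_mem P' (sub_mem (Place.mem_of_ord_nonneg P' hcon) (P'.algebraMap_mem' c))
  omega

include S in
/-- **`π : A → k` is surjective.** -/
theorem pi_surjective [Finite ν] (hF : RiemannPkg K F) (hFt : ∀ v, RiemannPkg k (Ft v)) :
    Function.Surjective π := by
  classical
  obtain ⟨P₁⟩ := hF.infinite_places.nonempty
  set v : ι := (S.r P₁).1 with hv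
  intro κ
  by_contra hκ
  push Not at hκ
  obtain ⟨x, hx⟩ := S.res_surjective v (algebraMap k (Ft v) κ)
  have hxres : S.resF v (x : F) = algebraMap k (Ft v) κ := by
    rw [S.resF_of_mem x.2, Subtype.coe_eta, hx]
  by_cases hconst : ∃ c : K, (x : F) = algebraMap K F c
  · obtain ⟨c, hc⟩ := hconst
    have hcA : c ∈ A := (S.algebraMap_mem_iff v c).mp (hc ▸ x.2)
    rw [hc, S.resF_algebraMap v hcA] at hxres
    exact hκ ⟨c, hcA⟩ ((algebraMap k (Ft v)).injective hxres)
  · push Not at hconst
    have hx0 : (x : F) ≠ 0 := fun h => hconst 0 (by rw [h, map_zero])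
    have hfinY : (S.r '' ((divOf K (x : F)).support : Set (Place K F))).Finite :=
      (Finset.finite_toSet _).image _
    obtain ⟨P, hPv, hPs, hPY⟩ := S.exists_smoothPlace_on hFt v _ hfinY
    have hQ : ¬ S.IsBranch ⟨v, (hPv ▸ (S.r P).2 : Place k (Ft v))⟩ := by
      have : (⟨v, (hPv ▸ (S.r P).2 : Place k (Ft v))⟩ : Σ v, Place k (Ft v)) = S.r P := by
        ext
        · exact hPv.symm
        · simp
      rw [this]
      exact hPs
    have hrP : S.r P = ⟨v, (hPv ▸ (S.r P).2 : Place k (Ft v))⟩ := by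
      ext
      · exact hPv
      · simp
    have hPx : P.ord (x : F) = 0 := by
      by_contra h
      apply hPY
      refine ⟨P, ?_, rfl⟩
      rw [Finset.mem_coe, Finsupp.mem_support_iff, divOf_apply]
      exact h
    obtain ⟨c, hc⟩ := exists_ord_sub_pos_of_deg_one P (hF.deg_one P) hconst hPx.ge
    obtain ⟨P', hP', hneg⟩ : ∃ P', S.r P' = S.r P ∧ P'.ord (x : F) < 0 := by
      by_cases hcA : c ∈ A
      · refine S.exists_pole_of_value hQ (x : F) P hrP c hc ((x : F) - algebraMap K F c) 1
          one_ne_zero (by rw [one_smul]) (κ - π ⟨c, hcA⟩) (sub_ne_zero.mpr (Ne.symm (hκ _))) ?_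
        rw [S.resF_sub x.2 ((S.algebraMap_mem_iff v c).mpr hcA), hxres, S.resF_algebraMap v hcA,
          map_sub]
      · have hc0 : c ≠ 0 := fun h => hcA (h ▸ A.zero_mem)
        have hci : c⁻¹ ∈ A := (A.mem_or_inv_mem c).resolve_left hcA
        have hπ0 : π ⟨c⁻¹, hci⟩ = 0 :=
          S.pi_eq_zero_of_inv_not_mem v hci (by simpa using hcA)
        have hmem : algebraMap K F c⁻¹ * (x : F) ∈ S.O v :=
          (S.O v).mul_mem _ _ ((S.algebraMap_mem_iff v _).mpr hci) x.2
        refine S.exists_pole_of_value hQ (x : F) P hrP c hc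
          (1 - algebraMap K F c⁻¹ * (x : F)) (-c⁻¹) (neg_ne_zero.mpr (inv_ne_zero hc0)) ?_ 1
          one_ne_zero ?_
        · rw [Algebra.smul_def, map_neg, map_inv₀]
          have : algebraMap K F c ≠ 0 := (map_ne_zero _).mpr hc0
          field_simp
          ring
        · rw [S.resF_sub (S.O v).one_mem hmem, S.resF_one,
            S.resF_mul ((S.algebraMap_mem_iff v _).mpr hci) x.2, S.resF_algebraMap v hci, hπ0,
            map_zero, zero_mul, sub_zero, map_one]
    apply hPY
    refine ⟨P', ?_, hP'⟩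
    rw [Finset.mem_coe, Finsupp.mem_support_iff, divOf_apply]
    omega

end SemistableSetup

/-- (L) in hypothesis form: in large multidegree every matching family of `L(push E v)` is the
reduction of an element of `L(E) ∩ Oall` (`E` supported on smooth places). -/
def LiftLarge (S : SemistableSetup (F := F) A π ι Ft ν) : Prop :=
  ∃ c : ι → ℤ, ∀ E : Divisor K F, (∀ P ∈ E.support, S.IsSmoothPlace P) →
    (∀ v, c v ≤ Divisor.degree (S.push E v)) →
    ∀ t : ∀ v, Ft v, (∀ v, t v ∈ riemannRochSpace (S.push E v)) → S.MatchAt t →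
      ∃ y ∈ riemannRochSpace E, y ∈ S.Oall ∧ S.resAll y = t

/-- The target of B3 in normal form: `r_* D = 0` on every component and `m D = div f` with all
residues of `f` equal to `1`. -/
def NormalFormKernel (S : SemistableSetup (F := F) A π ι Ft ν) : Prop :=
  ∀ m : ℕ, (m : k) ≠ 0 → ∀ D : Divisor K F, (∀ P ∈ D.support, S.IsSmoothPlace P) →
    (∀ v, S.push D v = 0) →
    (∃ f : F, f ∈ S.Oall ∧ (∀ v, S.resF v f = 1) ∧ ∀ P : Place K F, (m • D) P = P.ord f) →
    D ∈ Divisor.principal (K := K) (F := F)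

namespace SemistableSetup

variable (S : SemistableSetup (F := F) A π ι Ft ν)

/-- The reduction of `single P 1` on the component `w`. -/
theorem push_single (P : Place K F) (n : ℤ) (w : ι) (Q : Place k (Ft w)) :
    S.push (Finsupp.single P n) w Q =
      (letI := Classical.propDecidable (S.r P = ⟨w, Q⟩); if S.r P = ⟨w, Q⟩ then n else 0) := by
  classical
  rw [S.push_apply, Finsupp.mapDomain_single, Finsupp.single_apply]
  congr

theorem degree_push_single (hFt : ∀ v, RiemannPkg k (Ft v)) (P : Place K F) (n : ℤ) (w : ι) :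
    Divisor.degree (S.push (Finsupp.single P n) w) =
      (letI := Classical.propDecidable ((S.r P).1 = w); if (S.r P).1 = w then n else 0) := by
  classical
  by_cases h : (S.r P).1 = w
  · subst h
    have : S.push (Finsupp.single P n) (S.r P).1 = Finsupp.single (S.r P).2 n := by
      ext Q
      rw [S.push_single, Finsupp.single_apply]
      by_cases hQ : (S.r P).2 = Q
      · subst hQ
        rw [if_pos rfl, if_pos rfl]
      · rw [if_neg hQ, if_neg]
        intro h2
        apply hQ
        exact eq_of_heq (Sigma.ext_iff.mp h2).2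
    rw [if_pos rfl, this, degree_single_of_pkg (hFt _)]
  · have : S.push (Finsupp.single P n) w = 0 := by
      ext Q
      rw [S.push_single, if_neg, Finsupp.zero_apply]
      intro h2
      apply h
      rw [h2]
    rw [if_neg h, this, map_zero]

/-- An effective divisor supported on smooth places with prescribed degree `n v ≥ 0` on every
component, avoiding the fibres over a finite set. -/
theorem exists_effective_smooth [HasPrincipalDivisors K F] [Fintype ι] [Finite ν]
    (hFt : ∀ v, RiemannPkg k (Ft v)) (n : ι → ℕ) (Y : Set (Σ v, Place k (Ft v))) (hY : Y.Finite) :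
    ∃ (P₀ : ι → Place K F) (E₀ : Divisor K F), (∀ v, (S.r (P₀ v)).1 = v) ∧
      (∀ v, S.IsSmoothPlace (P₀ v)) ∧ (∀ v, S.r (P₀ v) ∉ Y) ∧
      E₀ = ∑ v, n v • Finsupp.single (P₀ v) (1 : ℤ) ∧
      (∀ P ∈ E₀.support, ∃ v, P = P₀ v) ∧ 0 ≤ E₀ ∧
      ∀ v, Divisor.degree (S.push E₀ v) = n v := by
  classical
  choose P₀ h1 h2 h3 using fun v => S.exists_smoothPlace_on hFt v Y hY
  refine ⟨P₀, _, h1, h2, h3, rfl, ?_, ?_, ?_⟩
  · intro P hP
    by_contra hne
    push Not at hne
    apply Finsupp.mem_support_iff.mp hP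
    rw [Finsupp.finsetSum_apply]
    refine Finset.sum_eq_zero fun v _ => ?_
    rw [Finsupp.smul_apply, Finsupp.single_apply, if_neg (Ne.symm (hne v)), smul_zero]
  · intro P
    rw [Finsupp.zero_apply, Finsupp.finsetSum_apply]
    refine Finset.sum_nonneg fun v _ => ?_
    rw [Finsupp.smul_apply, Finsupp.single_apply]
    split_ifs <;> simp
  · intro w
    have hpush : S.push (∑ v, n v • Finsupp.single (P₀ v) (1 : ℤ)) w =
        ∑ v, n v • S.push (Finsupp.single (P₀ v) (1 : ℤ)) w := by
      induction (Finset.univ : Finset ι) using Finset.induction_on with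
      | empty => simp
      | insert a s ha ih => rw [Finset.sum_insert ha, Finset.sum_insert ha, S.push_add,
          S.push_nsmul, ih]
    rw [hpush, map_sum]
    simp_rw [map_nsmul, S.degree_push_single hFt, h1]
    rw [Finset.sum_eq_single w]
    · simp
    · intro v _ hv
      rw [if_neg hv, smul_zero]
    · intro h
      exact absurd (Finset.mem_univ w) h

end SemistableSetup

/-- **Reduction to normal form.** -/
theorem noTorsionInKernel_of_normalForm [Fintype ι] [Finite ν]
    (S : SemistableSetup (F := F) A π ι Ft ν) (hF : RiemannPkg K F)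
    (hFt : ∀ v, RiemannPkg k (Ft v)) (hlift : LiftLarge S) (h : NormalFormKernel S) :
    NoTorsionInKernel S := by
  classical
  haveI := hF.principal
  intro m hm D hD hmD hred
  obtain ⟨h₀, h₀0, hh₀⟩ := hmD
  obtain ⟨t, ht0, htD', htm⟩ := hred
  have htD : ∀ v (Q : Place k (Ft v)), Q.ord (t v) = S.push D v Q := fun v Q => by
    rw [htD' v Q, S.push_apply]
  obtain ⟨c₀, hc₀, hymem, hyres⟩ := S.exists_smul_resF_eq_pow hF hFt (S.pi_surjective hF hFt)
    hD h₀0 hh₀ ht0 htD htm
  set y : F := c₀ • h₀ with hy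
  have hy0 : y ≠ 0 := smul_ne_zero hc₀ h₀0
  have hyD : ∀ P, (m • D) P = P.ord y := fun P => by rw [hy, ord_const_smul P hc₀, hh₀]
  -- the auxiliary effective divisor
  obtain ⟨c, hc⟩ := hlift
  obtain ⟨P₀, E₀, hP₀v, hP₀s, -, -, hE₀supp, hE₀pos, hE₀deg⟩ :=
    S.exists_effective_smooth hFt (fun v => (c v).toNat) ∅ Set.finite_empty
  set E : Divisor K F := D + E₀ with hE
  have hEs : ∀ P ∈ E.support, S.IsSmoothPlace P := by
    intro P hP
    have : D P ≠ 0 ∨ E₀ P ≠ 0 := by
      by_contra hcon
      push Not at hcon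
      apply Finsupp.mem_support_iff.mp hP
      rw [hE, Finsupp.add_apply, hcon.1, hcon.2, add_zero]
    rcases this with h1 | h1
    · exact hD P (Finsupp.mem_support_iff.mpr h1)
    · obtain ⟨v, rfl⟩ := hE₀supp P (Finsupp.mem_support_iff.mpr h1)
      exact hP₀s v
  have hdegD : ∀ v, Divisor.degree (S.push D v) = 0 := by
    intro v
    haveI := (hFt v).principal
    have : divOf k (t v) = S.push D v := divOf_eq_of_forall fun Q => (htD v Q).symm
    rw [← this, degree_divOf]
  have hEdeg : ∀ v, c v ≤ Divisor.degree (S.push E v) := by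
    intro v
    rw [hE, S.push_add, map_add, hdegD v, zero_add, hE₀deg v]
    exact Int.self_le_toNat (c v)
  have hE₀push : ∀ v (Q : Place k (Ft v)), 0 ≤ S.push E₀ v Q := by
    intro v Q
    rw [S.push_apply]
    exact mapDomain_apply_nonneg S.r E₀ _ fun P _ => hE₀pos P
  -- the family `t⁻¹`
  have htinv : ∀ v, (t v)⁻¹ ∈ riemannRochSpace (S.push E v) := by
    intro v
    rw [mem_riemannRochSpace_iff]
    intro Q
    right
    rw [Q.ord_inv, htD v Q, hE, S.push_add, Finsupp.add_apply]
    have := hE₀push v Q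
    omega
  have hbval : ∀ e, ∃ b : k, b ≠ 0 ∧ IsValueAt (S.s₁ e) (t (S.src e)) b ∧
      IsValueAt (S.s₂ e) (t (S.tgt e)) b := by
    intro e
    obtain ⟨b, hb1, hb2⟩ := htm e
    refine ⟨b, ?_, hb1, hb2⟩
    refine value_ne_zero_of_ord_eq_zero hb1 (ht0 _) ?_
    rw [htD, S.push_apply_src hD]
  have htinvm : S.MatchAt fun v => (t v)⁻¹ := by
    intro e
    obtain ⟨b, hb0, hb1, hb2⟩ := hbval e
    exact ⟨b⁻¹, isValueAt_inv hb1 hb0, isValueAt_inv hb2 hb0⟩
  obtain ⟨T, hTE, hTO, hTres⟩ := hc E hEs hEdeg (fun v => (t v)⁻¹) htinv htinvm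
  have hTresv : ∀ v, S.resF v T = (t v)⁻¹ := fun v => congrFun hTres v
  have hTunit : ∀ v, S.resF v T ≠ 0 := fun v => by rw [hTresv v]; exact inv_ne_zero (ht0 v)
  have hT0 : T ≠ 0 := by
    obtain ⟨P⟩ := hF.infinite_places.nonempty
    exact S.ne_zero_of_resF_ne_zero (hTunit (S.r P).1)
  -- `T` has no zeros or poles at the annular places
  have hTpole : ∀ P, ¬ S.IsSmoothPlace P → 0 ≤ P.ord T := by
    intro P hP
    have h1 := (mem_riemannRochSpace_iff.mp hTE P).resolve_left hT0
    have : E P = 0 := by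
      by_contra hne
      exact hP (hEs P (Finsupp.mem_support_iff.mpr hne))
    omega
  have hTann : ∀ P, ¬ S.IsSmoothPlace P → P.ord T = 0 := by
    intro P hP
    obtain ⟨e, he⟩ := (S.not_isSmoothPlace_iff P).mp hP
    obtain ⟨b, hb0, hb1, -⟩ := hbval e
    have h₁ := S.mem_O_of_mem_Oall hTO (S.src e)
    have h₂ := S.mem_O_of_mem_Oall hTO (S.tgt e)
    refine S.node_unit e T h₁ h₂ (fun P' hP' => hTpole P' ?_) ⟨b⁻¹, inv_ne_zero hb0, ?_⟩ P he
    · rw [S.not_isSmoothPlace_iff]
      exact ⟨e, hP'⟩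
    · rw [← S.resF_of_mem h₁, hTresv]
      exact isValueAt_inv hb1 hb0
  -- the new divisor
  set D' : Divisor K F := D + divOf K T with hD'
  have hD's : ∀ P ∈ D'.support, S.IsSmoothPlace P := by
    intro P hP
    by_contra hns
    apply Finsupp.mem_support_iff.mp hP
    have : D P = 0 := by
      by_contra hne
      exact hns (hD P (Finsupp.mem_support_iff.mpr hne))
    rw [hD', Finsupp.add_apply, divOf_apply, this, hTann P hns, add_zero]
  have hD'push : ∀ v, S.push D' v = 0 := by
    intro v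
    ext Q
    rw [Finsupp.zero_apply]
    by_cases hQ : S.IsBranch ⟨v, Q⟩
    · exact S.push_apply_of_isBranch hD's hQ
    · rw [hD', S.push_add, Finsupp.add_apply, S.push_divOf (hTunit v) hQ, hTresv, Q.ord_inv,
        htD v Q]
      ring
  have hDprin : D' ∈ Divisor.principal (K := K) (F := F) := by
    refine h m hm D' hD's hD'push ⟨y * T ^ m, S.Oall.mul_mem hymem (pow_mem hTO m), fun v => ?_,
      fun P => ?_⟩
    · rw [S.resF_mul (S.mem_O_of_mem_Oall hymem v) (pow_mem (S.mem_O_of_mem_Oall hTO v) m),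
        S.resF_pow (S.mem_O_of_mem_Oall hTO v), hyres v, hTresv v, ← mul_pow,
        mul_inv_cancel₀ (ht0 v), one_pow]
    · rw [P.ord_mul hy0 (pow_ne_zero m hT0), Place.ord_pow, ← hyD, hD', Finsupp.smul_apply,
        Finsupp.smul_apply, Finsupp.add_apply, divOf_apply, nsmul_eq_mul, nsmul_eq_mul]
      ring
  have hTprin : divOf K T ∈ Divisor.principal (K := K) (F := F) := divOf_mem_principal hT0
  have := sub_mem hDprin hTprin
  rwa [hD', add_sub_cancel_right] at this

end Fermat.Agent.BR.SS
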