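import Fermat.Agent.BR.SS.Ending
import Fermat.Agent.BR.SS.NormalForm

/-!
# Program B (BADRED), block B3, node B3.7 (part 5): the normal-form kernel statement from its inputs

Port of the body of `Red.mainStatement` (`Red/Main.lean`) to a `SemistableSetup`:
`NormalFormKernel S` from

* `happrox`, `htwo` : joint best approximation and the two-lattice lemma for `S.Oall`
  (`SS/Lattice`, in the residue-free forms of `SS/EndingGen`; bridges in `SS/Ending`);
* `hlift : LiftLarge S` (`SS/RR` lower half);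
* `hupper` : residues of functions of `Oall` regular outside a set `Z` of smooth places up to a
  divisor `E` supported on smooth places are regular outside the reduction of `Z` up to `push E`
  and match at the nodes (`SS/RR` upper half);
* `hdata` : the normal-form data (two charts and the transition function, `SS/NormalFormData`);
* `hconst` : the constants lemma for two charts with disjoint reductions (`SS/Const`).

Chain: normal-form data → case `g₂ = 1` (`D = 0`) / case `g₂ ≠ 1`: modulus `a₀` from saturation →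
`S.r3_output` → `S.mem_principal_of_forall_approx` with the two auxiliary divisors
`E₀ = n Σ_v P₀ v`, `E₁ = n Σ_v P₁ v`.
-/

set_option autoImplicit false
set_option linter.style.haveILetI false

namespace Fermat.Agent.BR.SS

open AlgebraicCurve Fermat.Agent.Red

variable {K F k : Type*} [Field K] [Field F] [Algebra K F] [Field k]
  {A : ValuationSubring K} {π : A →+* k} {ι : Type*} {Ft : ι → Type*}
  [∀ v, Field (Ft v)] [∀ v, Algebra k (Ft v)] {ν : Type*}

namespace SemistableSetup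

variable (S : SemistableSetup (F := F) A π ι Ft ν)

/-- Hypothesis form of the upper half of `SS/RR` (chart version). -/
def UpperProp : Prop :=
  ∀ (Z : Set (Place K F)) (E : Divisor K F), (∀ P ∈ Z, S.IsSmoothPlace P) →
    (∀ P ∈ E.support, S.IsSmoothPlace P) → ∀ y ∈ S.Oall, y ∈ regularOutside Z E →
      (∀ v, S.resF v y ∈ regularOutside (S.redSet Z v) (S.push E v)) ∧ S.MatchAt (S.resAll y)

/-- Hypothesis form of the normal-form data (two charts and the transition function). -/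
def NormalFormDataProp : Prop :=
  ∀ (m : ℕ), (m : k) ≠ 0 → ∀ D : Divisor K F, (∀ P ∈ D.support, S.IsSmoothPlace P) →
    (∀ v, S.push D v = 0) → ∀ f : F, f ∈ S.Oall → (∀ v, S.resF v f = 1) →
    (∀ P : Place K F, (m • D) P = P.ord f) →
    ∃ (Z1 Z2 : Finset (Place K F)) (g2 : F),
      (∀ P ∈ Z1, S.IsSmoothPlace P) ∧ (∀ P ∈ Z2, S.IsSmoothPlace P) ∧
      (∀ v, ∃ P ∈ Z1, (S.r P).1 = v) ∧ (∀ v, ∃ P ∈ Z2, (S.r P).1 = v) ∧
      D.support ⊆ Z1 ∧ (∀ P₁ ∈ Z1, ∀ P₂ ∈ Z2, S.r P₁ ≠ S.r P₂) ∧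
      g2 ∈ S.Oall ∧ S.resAll g2 = 1 ∧ (∀ P : Place K F, P ∉ Z2 → P.ord g2 = - D P) ∧
      f ∈ chartOf S.Oall (Z1 : Set (Place K F)) ∧ f⁻¹ ∈ chartOf S.Oall (Z1 : Set (Place K F)) ∧
      f⁻¹ * (g2 ^ m)⁻¹ ∈ chartOf S.Oall (Z2 : Set (Place K F)) ∧
      g2 ∈ chartOf S.Oall ((Z1 : Set (Place K F)) ∪ Z2)

/-- Hypothesis form of the constants lemma for two charts with disjoint reductions, each meeting
every component. -/
def ConstLemmaProp : Prop :=
  ∀ (Z1 Z2 : Finset (Place K F)), (∀ P ∈ Z1, S.IsSmoothPlace P) → (∀ P ∈ Z2, S.IsSmoothPlace P) →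
    (∀ v, ∃ P ∈ Z1, (S.r P).1 = v) → (∀ v, ∃ P ∈ Z2, (S.r P).1 = v) →
    (∀ P₁ ∈ Z1, ∀ P₂ ∈ Z2, S.r P₁ ≠ S.r P₂) → ∀ a : K, IsModulus A a →
    ∀ x₁ ∈ chartOf S.Oall (Z1 : Set (Place K F)), ∀ x₂ ∈ chartOf S.Oall (Z2 : Set (Place K F)),
    ∀ w ∈ chartOf S.Oall ((Z1 : Set (Place K F)) ∪ Z2), x₁ - x₂ = a • w →
      ∃ l ∈ A, ∃ y ∈ chartOf S.Oall (Z1 : Set (Place K F)), x₁ = algebraMap K F l + a • y

/-- **The normal-form kernel statement from its inputs** (port of the body of
`Red.mainStatement`). -/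
theorem normalFormKernel_of_inputs [Fintype ι] [Finite ν] [Nonempty ι] (hA : IsRankOne A)
    (hF : RiemannPkg K F) (hFt : ∀ v, RiemannPkg k (Ft v))
    (happrox : ApproxProp A S.Oall) (htwo : TwoLatticeProp A S.Oall) (hlift : LiftLarge S)
    (hupper : S.UpperProp) (hdata : S.NormalFormDataProp) (hconst : S.ConstLemmaProp) :
    NormalFormKernel S := by
  classical
  haveI := hF.principal
  intro m hm D hDsm hpush hf
  obtain ⟨f, hfO, hfres, hfD⟩ := hf
  obtain ⟨Z1, Z2, g2, hZ1sm, hZ2sm, hZ1all, hZ2all, hsupp, hdisj, hg2O, hg2res, hord, hf1c, hf1c',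
    hf2c, hg2c⟩ := hdata m hm D hDsm hpush f hfO hfres hfD
  have hD0 : ∀ P : Place K F, P ∉ (Z1 : Set (Place K F)) → D P = 0 := fun P hP =>
    Finsupp.notMem_support_iff.mp fun h => hP (hsupp h)
  have hZdisj : ∀ P ∈ Z1, P ∉ Z2 := fun P h1 h2 => hdisj P h1 P h2 rfl
  have hdeg : Divisor.degree D = 0 := by
    have h1 := S.sum_degree_push hF hFt D
    rw [← h1]
    refine Finset.sum_eq_zero fun v _ => ?_
    rw [hpush v, map_zero]
  by_cases hg21 : g2 = 1
  · -- then `D = 0`
    have hDz : D = 0 := by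
      ext P
      rw [Finsupp.zero_apply]
      by_cases hP : P ∈ Z1
      · have := hord P (hZdisj P hP)
        rw [hg21, Place.ord_one] at this
        omega
      · exact hD0 P hP
    rw [hDz]
    exact zero_mem _
  · -- the modulus `a₀`
    have hx : g2 - 1 ∈ chartOf S.Oall ((Z1 : Set (Place K F)) ∪ Z2) :=
      Subring.sub_mem _ hg2c (Subring.one_mem _)
    have hx0 : g2 - 1 ≠ 0 := sub_ne_zero.mpr hg21
    have hres : S.resAll (g2 - 1) = 0 := by
      rw [S.resAll_sub hg2O S.Oall.one_mem, hg2res, S.resAll_one, sub_self]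
    obtain ⟨a₀, ha₀A, ha₀0, ha₀u, w₀, hw₀O, -, hxw⟩ :=
      S.exists_smul_of_resAll_eq_zero hx.1 hx0 hres
    have ha₀ : IsModulus A a₀ := ⟨ha₀A, ha₀0, ha₀u⟩
    have hw₀ : w₀ ∈ chartOf S.Oall ((Z1 : Set (Place K F)) ∪ Z2) :=
      mem_chartOf_of_smul_mem ha₀0 hw₀O (hxw ▸ hx)
    have hg20 : g2 ≠ 0 := by
      intro h
      have h1 : S.resAll g2 = 0 := by rw [h]; exact S.resAll_zero
      rw [hg2res] at h1
      obtain ⟨v⟩ := ‹Nonempty ι›
      exact one_ne_zero (congrFun h1 v)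
    have hf0 : f ≠ 0 := by
      intro h
      obtain ⟨v⟩ := ‹Nonempty ι›
      have h1 := hfres v
      rw [h, S.resF_zero] at h1
      exact zero_ne_one h1
    have h3 := S.r3_output hA m hm (Z1 : Set (Place K F)) (Z2 : Set (Place K F)) g2 f hg20 hf0
      hf1c hf1c' hf2c hg2c ha₀
      (hconst Z1 Z2 hZ1sm hZ2sm hZ1all hZ2all hdisj a₀ ha₀) hw₀ hxw
    -- the two auxiliary divisors
    obtain ⟨c, hc⟩ := hlift
    obtain ⟨n, hn⟩ : ∃ n : ℕ, ∀ v, c v ≤ (n : ℤ) := by
      refine ⟨(Finset.univ.sup' Finset.univ_nonempty fun v => (c v).toNat), fun v => ?_⟩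
      have h1 : (c v).toNat ≤ Finset.univ.sup' Finset.univ_nonempty fun v => (c v).toNat :=
        Finset.le_sup' (fun v => (c v).toNat) (Finset.mem_univ v)
      have h2 := Int.self_le_toNat (c v)
      omega
    obtain ⟨P₀, E₀, -, hP₀sm, -, hE₀def, hE₀supp, hE₀nn, hE₀deg⟩ :=
      S.exists_effective_smooth hFt (fun _ => n) ∅ Set.finite_empty
    obtain ⟨P₁, E₁, -, hP₁sm, hP₁Y, hE₁def, hE₁supp, hE₁nn, hE₁deg⟩ :=
      S.exists_effective_smooth hFt (fun _ => n) (Set.range fun v => S.r (P₀ v))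
        (Set.finite_range _)
    have hEdisj : ∀ P, E₀ P = 0 ∨ E₁ P = 0 := by
      intro P
      by_contra hcon
      push Not at hcon
      obtain ⟨v, hv⟩ := hE₀supp P (Finsupp.mem_support_iff.mpr hcon.1)
      obtain ⟨w, hw⟩ := hE₁supp P (Finsupp.mem_support_iff.mpr hcon.2)
      exact hP₁Y w ⟨v, by show S.r (P₀ v) = S.r (P₁ w); rw [← hv, hw]⟩
    have hEsm : ∀ (E : Divisor K F) (Q : ι → Place K F), (∀ v, S.IsSmoothPlace (Q v)) →
        (∀ P ∈ E.support, ∃ v, P = Q v) → ∀ P ∈ (D + E).support, S.IsSmoothPlace P := by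
      intro E Q hQ hE P hP
      rcases Finset.mem_union.mp (Finsupp.support_add hP) with h | h
      · exact hDsm P h
      · obtain ⟨v, rfl⟩ := hE P h
        exact hQ v
    have hliftE : ∀ (E : Divisor K F) (Q : ι → Place K F), (∀ v, S.IsSmoothPlace (Q v)) →
        (∀ P ∈ E.support, ∃ v, P = Q v) → (∀ v, Divisor.degree (S.push E v) = ((n : ℕ) : ℤ)) →
        LiftProp A S.Oall (Z1 : Set (Place K F)) (Z2 : Set (Place K F)) D E := by
      intro E Q hQ hE hEdeg
      have hEsupp : ∀ P ∈ E.support, S.IsSmoothPlace P := by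
        intro P hP
        obtain ⟨v, rfl⟩ := hE P hP
        exact hQ v
      refine S.liftProp_of_liftLarge _ _ D E hdisj hpush
        (hupper _ E hZ1sm hEsupp) (hupper _ E hZ2sm hEsupp) ?_
      refine hc (D + E) (hEsm E Q hQ hE) fun v => ?_
      rw [S.push_add, hpush v, zero_add, hEdeg v]
      exact hn v
    exact S.mem_principal_of_forall_approx hF happrox htwo D hdeg (Z1 : Set (Place K F))
      (Z2 : Set (Place K F)) hD0 g2 hg2O hg2res hord E₀ E₁ hE₀nn hE₁nn hEdisj
      (hliftE E₀ P₀ hP₀sm hE₀supp fun v => by rw [hE₀deg v])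
      (hliftE E₁ P₁ hP₁sm hE₁supp fun v => by rw [hE₁deg v])
      fun a ha => h3 a ha.mem ha.ne_zero

end SemistableSetup

/-- **`SS.MainStatement` from its inputs**: once the six inputs are available under the hypotheses
of `MainStatement` (rank one, Riemann packages, genus equality), the main theorem of B3 follows
(`noTorsionInKernel_of_normalForm` ∘ `normalFormKernel_of_inputs`). -/
theorem mainStatement_of_inputs [Fintype ι] [Fintype ν]
    (S : SemistableSetup (F := F) A π ι Ft ν)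
    (hin : IsRankOne A → RiemannPkg K F → (∀ v, RiemannPkg k (Ft v)) →
      (genusFF K F : ℤ) = ∑ v, (genusFF k (Ft v) : ℤ) + Fintype.card ν - Fintype.card ι + 1 →
      ApproxProp A S.Oall ∧ TwoLatticeProp A S.Oall ∧ LiftLarge S ∧ S.UpperProp ∧
        S.NormalFormDataProp ∧ S.ConstLemmaProp) :
    MainStatement S := by
  intro _ _ hA hF hFt hg
  obtain ⟨P⟩ := hF.infinite_places.nonempty
  haveI : Nonempty ι := ⟨(S.r P).1⟩
  obtain ⟨h1, h2, h3, h4, h5, h6⟩ := hin hA hF hFt hg
  exact noTorsionInKernel_of_normalForm S hF hFt h3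
    (S.normalFormKernel_of_inputs hA hF hFt h1 h2 h3 h4 h5 h6)

end Fermat.Agent.BR.SS
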