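import Mathlib
import Fermat.Agent.Red.ValSmith
import Fermat.Agent.BR.SS.Basic

/-!
# Program B (BADRED), block B3, node B3.MA: joint best approximation

`SS.SemistableSetup` asks the best-approximation property `approx` component by component.  The
reduction theory (lattice layer, constants lemma, lifting lemma) needs it for the *maximum* of the
component norms, i.e. for the ball `S.Oall = ⋂ O v` with the residue map `S.resAll`.  This file
derives the joint statement `SemistableSetup.approxAll` from the per-component axioms.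

The proof is pure lattice theory over the valuation ring `A` (any rank, no residue rings):

* for an `A`-submodule `N` of the `K`-vector space `F` ("closed unit ball"), with open unit ball
  `InOpen A N = 𝔪 N`, the best-approximation property `LatApprox A N` is equivalent to:
  `N` is absorbing and the trace `N ∩ W` on every finite-dimensional subspace `W` is a finitely
  generated `A`-module (`LatApprox.absorbing`, `LatApprox.locallyFG`,
  `latApprox_of_absorbing_of_locallyFG`);
* in a torsion-free module over a valuation ring the intersection of two finitely generated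
  submodules is finitely generated (`fg_inf_of_fg`: the sum is finitely generated and
  torsion-free, hence free, hence finitely presented, so the kernel of the sum map is finitely
  generated);
* hence `LatApprox` passes to finite intersections (`LatApprox.inf`, `latApprox_iInf`).
-/

set_option autoImplicit false

namespace Fermat.Agent.BR.SS.MultiApprox

open Fermat.Agent.Red

section LemmaB

variable {R : Type*} [CommRing R] [IsDomain R] [ValuationRing R]
variable {M : Type*} [AddCommGroup M] [Module R M] [Module.IsTorsionFree R M]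

/-- **Lemma B.** In a torsion-free module over a valuation ring, the intersection of two finitely
generated submodules is finitely generated. -/
theorem fg_inf_of_fg {L₁ L₂ : Submodule R M} (h₁ : L₁.FG) (h₂ : L₂.FG) : (L₁ ⊓ L₂).FG := by
  classical
  have hsup : (L₁ ⊔ L₂).FG := h₁.sup h₂
  have : Module.Finite R L₁ := Module.Finite.iff_fg.2 h₁
  have : Module.Finite R L₂ := Module.Finite.iff_fg.2 h₂
  have : Module.Finite R ↥(L₁ ⊔ L₂) := Module.Finite.iff_fg.2 hsup
  have : Module.Free R ↥(L₁ ⊔ L₂) := ValSmith.free_of_finite_of_isTorsionFree _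
  have : Module.FinitePresentation R ↥(L₁ ⊔ L₂) := Module.finitePresentation_of_projective _ _
  -- the sum map
  let f : (L₁ × L₂) →ₗ[R] ↥(L₁ ⊔ L₂) :=
    LinearMap.coprod (Submodule.inclusion le_sup_left) (Submodule.inclusion le_sup_right)
  have hf : Function.Surjective f := by
    rintro ⟨x, hx⟩
    obtain ⟨a, ha, b, hb, rfl⟩ := Submodule.mem_sup.1 hx
    exact ⟨(⟨a, ha⟩, ⟨b, hb⟩), Subtype.ext rfl⟩
  have hker : (LinearMap.ker f).FG := Module.FinitePresentation.fg_ker f hf
  -- the intersection is the image of the kernel under the first projection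
  have himg : L₁ ⊓ L₂ = (LinearMap.ker f).map (L₁.subtype ∘ₗ LinearMap.fst R L₁ L₂) := by
    ext x
    constructor
    · rintro ⟨hx₁, hx₂⟩
      refine ⟨(⟨x, hx₁⟩, ⟨-x, L₂.neg_mem hx₂⟩), ?_, rfl⟩
      change f (⟨x, hx₁⟩, ⟨-x, L₂.neg_mem hx₂⟩) = 0
      apply Subtype.ext
      simp [f]
    · rintro ⟨⟨a, b⟩, hab, rfl⟩
      have hab' : f (a, b) = 0 := hab
      have h0 : (a : M) + (b : M) = 0 := by
        have := congrArg Subtype.val hab'
        simpa [f] using this
      refine ⟨a.2, ?_⟩
      have : (a : M) = -(b : M) := eq_neg_of_add_eq_zero_left h0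
      simp only [LinearMap.coe_comp, Function.comp_apply, LinearMap.fst_apply, Submodule.subtype_apply]
      rw [this]
      exact L₂.neg_mem b.2
  rw [himg]
  exact hker.map _

end LemmaB

section Lattice

variable {K F : Type*} [Field K] [Field F] [Algebra K F] (A : ValuationSubring K)

/-- `x` lies in the open unit ball `𝔪 N` of the lattice `N`. -/
def InOpen (N : Submodule A F) (x : F) : Prop :=
  ∃ a : K, A.valuation a < 1 ∧ ∃ n ∈ N, x = a • n

/-- The best-approximation property of an `A`-lattice `N` in the `K`-vector space `F` (the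
`approx` field of `Red.RedSetup`, phrased with the closed ball `N` and the open ball `𝔪 N`). -/
def LatApprox (N : Submodule A F) : Prop :=
  ∀ V : Submodule K F, Module.Finite K V → ∀ y : F, y ∉ V →
    ∃ w ∈ V, ∃ c : K, c ≠ 0 ∧ c • (y - w) ∈ N ∧
      ∀ z ∈ N, z ∈ V → ¬ InOpen A N (c • (y - w) - z)

/-- Every vector can be scaled into `N`. -/
def Absorbing (N : Submodule A F) : Prop := ∀ y : F, ∃ c : K, c ≠ 0 ∧ c • y ∈ N

/-- The trace of `N` on every finite-dimensional subspace is a finitely generated `A`-module. -/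
def LocallyFG (N : Submodule A F) : Prop :=
  ∀ W : Submodule K F, Module.Finite K W → (N ⊓ W.restrictScalars A).FG

variable {A}

theorem smul_mem_of_mem {N : Submodule A F} {a : K} (ha : a ∈ A) {x : F} (hx : x ∈ N) :
    a • x ∈ N := N.smul_mem ⟨a, ha⟩ hx

theorem LatApprox.absorbing {N : Submodule A F} (hN : LatApprox A N) : Absorbing A N := by
  intro y
  rcases eq_or_ne y 0 with rfl | hy
  · exact ⟨1, one_ne_zero, by simp⟩
  · have hfin : Module.Finite K (⊥ : Submodule K F) := inferInstance
    have hy' : y ∉ (⊥ : Submodule K F) := by simpa using hy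
    obtain ⟨w, hw, c, hc, hmem, -⟩ := hN ⊥ hfin y hy'
    have hw0 : w = 0 := by simpa using hw
    rw [hw0, sub_zero] at hmem
    exact ⟨c, hc, hmem⟩

/-- One step of the induction: adjoining one vector keeps the trace finitely generated. -/
theorem fg_inf_sup_span {N : Submodule A F} (hN : LatApprox A N) (V : Submodule K F)
    (hV : Module.Finite K V) (hfg : (N ⊓ V.restrictScalars A).FG) (y : F) :
    (N ⊓ (V ⊔ K ∙ y).restrictScalars A).FG := by
  by_cases hy : y ∈ V
  · have : V ⊔ K ∙ y = V := sup_eq_left.2 ((Submodule.span_singleton_le_iff_mem y V).2 hy)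
    rw [this]
    exact hfg
  obtain ⟨w, hw, c, hc, hu, hmin⟩ := hN V hV y hy
  obtain ⟨u, hu_def⟩ : ∃ u : F, u = c • (y - w) := ⟨_, rfl⟩
  rw [← hu_def] at hu hmin
  have huW : u ∈ V ⊔ K ∙ y := by
    have h1 : u = c • y + (-(c • w)) := by rw [hu_def, smul_sub, sub_eq_add_neg]
    rw [h1, add_comm]
    exact Submodule.add_mem_sup (V.neg_mem (V.smul_mem c hw))
      (Submodule.smul_mem _ c (Submodule.mem_span_singleton_self y))
  have key : N ⊓ (V ⊔ K ∙ y).restrictScalars A = (N ⊓ V.restrictScalars A) ⊔ A ∙ u := by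
    apply le_antisymm
    · rintro x ⟨hxN, hxW⟩
      have hxW' : x ∈ V ⊔ K ∙ y := hxW
      obtain ⟨v, hv, z, hz, rfl⟩ := Submodule.mem_sup.1 hxW'
      obtain ⟨s, rfl⟩ := Submodule.mem_span_singleton.1 hz
      -- `v + s y = v' + t u`
      obtain ⟨t, ht⟩ : ∃ t : K, t = s * c⁻¹ := ⟨_, rfl⟩
      obtain ⟨v', hv'⟩ : ∃ v' : F, v' = v + s • w := ⟨_, rfl⟩
      have hv'V : v' ∈ V := hv' ▸ V.add_mem hv (V.smul_mem s hw)
      have hdecomp : v + s • y = v' + t • u := by
        rw [hv', ht, hu_def, smul_smul, mul_assoc, inv_mul_cancel₀ hc, mul_one, smul_sub]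
        abel
      by_cases htA : t ∈ A
      · have hv'N : v' ∈ N := by
          have : v' = (v + s • y) - t • u := by rw [hdecomp]; abel
          rw [this]
          exact N.sub_mem hxN (smul_mem_of_mem htA hu)
        rw [hdecomp]
        exact Submodule.add_mem_sup ⟨hv'N, hv'V⟩
          (by
            have : t • u = (⟨t, htA⟩ : A) • u := rfl
            rw [this]
            exact Submodule.smul_mem _ _ (Submodule.mem_span_singleton_self u))
      · exfalso
        have htiA : t⁻¹ ∈ A := (A.mem_or_inv_mem t).resolve_left htA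
        have ht0 : t ≠ 0 := fun h => htA (h ▸ A.zero_mem)
        have hval : A.valuation t⁻¹ < 1 := by
          rw [map_inv₀]
          have h1 : 1 < A.valuation t := by
            rw [← not_le, A.valuation_le_one_iff]
            exact htA
          exact inv_lt_one_of_one_lt₀ h1
        -- `z = u - t⁻¹ x ∈ N ∩ V`
        obtain ⟨z, hz⟩ : ∃ z : F, z = -(t⁻¹ • v') := ⟨_, rfl⟩
        have hzV : z ∈ V := hz ▸ V.neg_mem (V.smul_mem _ hv'V)
        have hzeq : u - z = t⁻¹ • (v + s • y) := by
          rw [hz, hdecomp, smul_add, smul_smul, inv_mul_cancel₀ ht0, one_smul]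
          abel
        have hzN : z ∈ N := by
          have : z = u - t⁻¹ • (v + s • y) := by rw [← hzeq]; abel
          rw [this]
          exact N.sub_mem hu (smul_mem_of_mem htiA hxN)
        exact hmin z hzN hzV ⟨t⁻¹, hval, v + s • y, hxN, hzeq⟩
    · apply sup_le
      · exact inf_le_inf_left _ (fun x hx => Submodule.mem_sup_left hx)
      · rw [Submodule.span_singleton_le_iff_mem]
        exact ⟨hu, huW⟩
  rw [key]
  exact hfg.sup (Submodule.fg_span_singleton u)

theorem LatApprox.locallyFG {N : Submodule A F} (hN : LatApprox A N) : LocallyFG A N := by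
  classical
  intro W hW
  obtain ⟨S, rfl⟩ : W.FG := (Module.Finite.iff_fg).1 hW
  clear hW
  induction S using Finset.induction_on with
  | empty =>
    simp only [Finset.coe_empty, Submodule.span_empty, Submodule.restrictScalars_bot, inf_bot_eq]
    exact Submodule.fg_bot
  | insert y S _ ih =>
    rw [Finset.coe_insert, Submodule.span_insert, sup_comm]
    exact fg_inf_sup_span hN _ (Module.Finite.span_finset K S) ih y

/-- A finitely generated `A`-submodule of `K` is generated by one of its elements (finitely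
generated fractional ideals of a valuation ring are principal). -/
theorem exists_generator_of_fg {I : Submodule A K} (hI : I.FG) :
    ∃ t₀ ∈ I, ∀ t ∈ I, ∃ a : K, a ∈ A ∧ t = a * t₀ := by
  classical
  obtain ⟨S, rfl⟩ := hI
  rcases S.eq_empty_or_nonempty with rfl | hne
  · refine ⟨0, zero_mem _, fun t ht => ?_⟩
    have ht0 : t = 0 := by simpa using ht
    exact ⟨0, A.zero_mem, by simp [ht0]⟩
  · obtain ⟨g₀, hg₀, hmax⟩ := Finset.exists_max_image S (fun g => A.valuation g) hne
    refine ⟨g₀, Submodule.subset_span hg₀, fun t ht => ?_⟩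
    have hle : Submodule.span A (S : Set K) ≤ A ∙ g₀ := by
      rw [Submodule.span_le]
      intro g hg
      rcases eq_or_ne g₀ 0 with h0 | h0
      · have hg0 : g = 0 := by
          have := hmax g hg
          rw [h0, map_zero, le_zero_iff] at this
          exact (A.valuation.zero_iff).1 this
        rw [hg0]
        exact zero_mem _
      · have hmem : g * g₀⁻¹ ∈ A := by
          rw [← A.valuation_le_one_iff, map_mul, map_inv₀]
          have hv0 : A.valuation g₀ ≠ 0 := (A.valuation.ne_zero_iff).2 h0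
          rw [mul_inv_le_iff₀ (zero_lt_iff.2 hv0), one_mul]
          exact hmax g hg
        have : g = (⟨g * g₀⁻¹, hmem⟩ : A) • g₀ := by
          show g = g * g₀⁻¹ * g₀
          rw [mul_assoc, inv_mul_cancel₀ h0, mul_one]
        rw [SetLike.mem_coe, this]
        exact Submodule.smul_mem _ _ (Submodule.mem_span_singleton_self g₀)
    obtain ⟨a, rfl⟩ := Submodule.mem_span_singleton.1 (hle ht)
    exact ⟨a, a.2, rfl⟩

/-- **Lemma A, converse direction.** An absorbing lattice with finitely generated traces has the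
best-approximation property. -/
theorem latApprox_of_absorbing_of_locallyFG {N : Submodule A F} (habs : Absorbing A N)
    (hfg : LocallyFG A N) : LatApprox A N := by
  intro V hV y hy
  obtain ⟨φ, hφy, hφV⟩ := Submodule.exists_le_ker_of_notMem hy
  have hφV' : ∀ x ∈ V, φ x = 0 := fun x hx => hφV hx
  have hWfin : Module.Finite K ↥(V ⊔ K ∙ y) := inferInstance
  have hL := hfg (V ⊔ K ∙ y) hWfin
  have hI : ((N ⊓ (V ⊔ K ∙ y).restrictScalars A).map (φ.restrictScalars A)).FG := hL.map _
  obtain ⟨t₀, ht₀I, hgen⟩ := exists_generator_of_fg hI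
  have hgen' : ∀ n ∈ N, n ∈ V ⊔ K ∙ y → ∃ a : K, a ∈ A ∧ φ n = a * t₀ := fun n hn hnW =>
    hgen (φ n) ⟨n, ⟨hn, hnW⟩, rfl⟩
  obtain ⟨c₀, hc₀, hc₀y⟩ := habs y
  have hyW : y ∈ V ⊔ K ∙ y := Submodule.mem_sup_right (Submodule.mem_span_singleton_self y)
  have ht₀ : t₀ ≠ 0 := by
    intro h0
    obtain ⟨a, -, ha⟩ := hgen' (c₀ • y) hc₀y (Submodule.smul_mem _ _ hyW)
    rw [h0, mul_zero, map_smul, smul_eq_mul] at ha
    exact hφy ((mul_eq_zero.1 ha).resolve_left hc₀)
  obtain ⟨u, ⟨huN, huW⟩, hφu⟩ := ht₀I
  have hφu' : φ u = t₀ := hφu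
  have huW' : u ∈ V ⊔ K ∙ y := huW
  obtain ⟨v, hv, z, hz, hvz⟩ := Submodule.mem_sup.1 huW'
  obtain ⟨s, rfl⟩ := Submodule.mem_span_singleton.1 hz
  have hs : t₀ = s * φ y := by
    rw [← hφu', ← hvz, map_add, hφV' v hv, zero_add, map_smul, smul_eq_mul]
  have hs0 : s ≠ 0 := by
    rintro rfl
    exact ht₀ (by rw [hs, zero_mul])
  have hu_eq : s • (y - -(s⁻¹ • v)) = u := by
    rw [← hvz, sub_neg_eq_add, smul_add, smul_smul, mul_inv_cancel₀ hs0, one_smul, add_comm]
  refine ⟨-(s⁻¹ • v), V.neg_mem (V.smul_mem _ hv), s, hs0, ?_, ?_⟩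
  · rw [hu_eq]
    exact huN
  · rintro z hzN hzV ⟨a, ha, n, hn, heq⟩
    rw [hu_eq] at heq
    have ha0 : a ≠ 0 := by
      rintro rfl
      rw [zero_smul, sub_eq_zero] at heq
      apply ht₀
      rw [← hφu', heq]
      exact hφV' z hzV
    have hn_eq : n = a⁻¹ • (u - z) := by
      rw [heq, smul_smul, inv_mul_cancel₀ ha0, one_smul]
    have hnW : n ∈ V ⊔ K ∙ y := by
      rw [hn_eq]
      exact Submodule.smul_mem _ _ (Submodule.sub_mem _ huW' (Submodule.mem_sup_left hzV))
    obtain ⟨b, hb, hbeq⟩ := hgen' n hn hnW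
    have hφn : φ n = a⁻¹ * t₀ := by
      rw [hn_eq, map_smul, map_sub, hφV' z hzV, sub_zero, hφu', smul_eq_mul]
    have hab : a⁻¹ = b := mul_right_cancel₀ ht₀ (hφn.symm.trans hbeq)
    have h1 : A.valuation a⁻¹ ≤ 1 := by
      rw [A.valuation_le_one_iff, hab]
      exact hb
    rw [map_inv₀] at h1
    have hva : A.valuation a ≠ 0 := (A.valuation.ne_zero_iff).2 ha0
    have h2 : 1 ≤ A.valuation a := by
      have := (inv_le_one₀ (zero_lt_iff.2 hva)).1 h1
      exact this
    exact absurd ha (not_lt.2 h2)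


theorem Absorbing.inf {N₁ N₂ : Submodule A F} (h₁ : Absorbing A N₁) (h₂ : Absorbing A N₂) :
    Absorbing A (N₁ ⊓ N₂) := by
  intro y
  obtain ⟨c₁, hc₁, hm₁⟩ := h₁ y
  obtain ⟨c₂, hc₂, hm₂⟩ := h₂ y
  rcases le_total (A.valuation c₁) (A.valuation c₂) with hle | hle
  · refine ⟨c₁, hc₁, hm₁, ?_⟩
    have hmem : c₁ * c₂⁻¹ ∈ A := by
      rw [← A.valuation_le_one_iff, map_mul, map_inv₀]
      have hv0 : A.valuation c₂ ≠ 0 := (A.valuation.ne_zero_iff).2 hc₂
      rw [mul_inv_le_iff₀ (zero_lt_iff.2 hv0), one_mul]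
      exact hle
    have : c₁ • y = (c₁ * c₂⁻¹) • (c₂ • y) := by
      rw [smul_smul, mul_assoc, inv_mul_cancel₀ hc₂, mul_one]
    rw [this]
    exact smul_mem_of_mem hmem hm₂
  · refine ⟨c₂, hc₂, ?_, hm₂⟩
    have hmem : c₂ * c₁⁻¹ ∈ A := by
      rw [← A.valuation_le_one_iff, map_mul, map_inv₀]
      have hv0 : A.valuation c₁ ≠ 0 := (A.valuation.ne_zero_iff).2 hc₁
      rw [mul_inv_le_iff₀ (zero_lt_iff.2 hv0), one_mul]
      exact hle
    have : c₂ • y = (c₂ * c₁⁻¹) • (c₁ • y) := by
      rw [smul_smul, mul_assoc, inv_mul_cancel₀ hc₁, mul_one]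
    rw [this]
    exact smul_mem_of_mem hmem hm₁

theorem LocallyFG.inf {N₁ N₂ : Submodule A F} (h₁ : LocallyFG A N₁) (h₂ : LocallyFG A N₂) :
    LocallyFG A (N₁ ⊓ N₂) := by
  intro W hW
  rw [inf_inf_distrib_right]
  exact fg_inf_of_fg (h₁ W hW) (h₂ W hW)

/-- **The best-approximation property passes to the intersection of two lattices** (i.e. to the
maximum of the two norms). -/
theorem LatApprox.inf {N₁ N₂ : Submodule A F} (h₁ : LatApprox A N₁) (h₂ : LatApprox A N₂) :
    LatApprox A (N₁ ⊓ N₂) :=
  latApprox_of_absorbing_of_locallyFG (h₁.absorbing.inf h₂.absorbing)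
    (h₁.locallyFG.inf h₂.locallyFG)

/-- The best-approximation property passes to finite nonempty intersections. -/
theorem latApprox_finset_inf {ι : Type*} (s : Finset ι) (hs : s.Nonempty)
    (N : ι → Submodule A F) (h : ∀ v ∈ s, LatApprox A (N v)) : LatApprox A (s.inf N) := by
  classical
  induction hs using Finset.Nonempty.cons_induction with
  | singleton a =>
    rw [Finset.inf_singleton]
    exact h a (Finset.mem_singleton_self a)
  | cons a s ha hs ih =>
    rw [Finset.inf_cons]
    exact (h a (Finset.mem_cons_self a s)).inf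
      (ih fun v hv => h v (Finset.mem_cons.2 (Or.inr hv)))

theorem latApprox_iInf {ι : Type*} [Finite ι] [Nonempty ι] (N : ι → Submodule A F)
    (h : ∀ v, LatApprox A (N v)) : LatApprox A (⨅ v, N v) := by
  classical
  have := Fintype.ofFinite ι
  rw [← Finset.inf_univ_eq_iInf]
  exact latApprox_finset_inf Finset.univ Finset.univ_nonempty N fun v _ => h v


end Lattice

section Setup

open Fermat.Agent.BR.SS

variable {K F k : Type*} [Field K] [Field F] [Algebra K F] [Field k]
  {A : ValuationSubring K} {π : A →+* k} {ι : Type*} {Ft : ι → Type*}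
  [∀ v, Field (Ft v)] [∀ v, Algebra k (Ft v)] {ν : Type*}
  (S : SemistableSetup (F := F) A π ι Ft ν)

/-- The unit ball of the component `v`, as an `A`-lattice in `F`. -/
def lat (v : ι) : Submodule A F where
  carrier := S.O v
  add_mem' := fun ha hb => (S.O v).add_mem _ _ ha hb
  zero_mem' := (S.O v).zero_mem
  smul_mem' := fun a _ hx => S.smul_mem_O v a.2 hx

theorem mem_lat {v : ι} {x : F} : x ∈ lat S v ↔ x ∈ S.O v := Iff.rfl

theorem mem_iInf_lat {x : F} : x ∈ ⨅ v, lat S v ↔ x ∈ S.Oall := by
  rw [Submodule.mem_iInf, S.mem_Oall]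
  exact forall_congr' fun v => mem_lat S

/-- The per-component axiom `approx` in lattice form. -/
theorem latApprox_lat (v : ι) : LatApprox A (lat S v) := by
  intro V hV y hy
  obtain ⟨w, hw, c, hc, hmem, hne⟩ := S.approx v V hV y hy
  refine ⟨w, hw, c, hc, hmem, ?_⟩
  rintro z hzN hzV ⟨a, ha, n, hn, heq⟩
  have hzO : z ∈ S.O v := hzN
  have hnO : n ∈ S.O v := hn
  apply hne ⟨z, hzO⟩ hzV
  have haA : a ∈ A := (A.valuation_le_one_iff a).1 ha.le
  have hpi : π ⟨a, haA⟩ = 0 := by
    rw [S.pi_eq_zero_iff v, ValuationSubring.mem_nonunits_iff]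
    exact ha
  have h0 : S.resF v (c • (y - w) - z) = 0 := by
    rw [heq, S.resF_smul v haA hnO, hpi, zero_smul]
  rw [S.resF_sub hmem hzO, sub_eq_zero] at h0
  rw [← S.resF_of_mem hzO, ← S.resF_of_mem hmem]
  exact h0.symm

end Setup

end Fermat.Agent.BR.SS.MultiApprox

namespace Fermat.Agent.BR.SS

open MultiApprox

variable {K F k : Type*} [Field K] [Field F] [Algebra K F] [Field k]
  {A : ValuationSubring K} {π : A →+* k} {ι : Type*} {Ft : ι → Type*}
  [∀ v, Field (Ft v)] [∀ v, Algebra k (Ft v)] {ν : Type*}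

/-- The joint best-approximation property: the `approx` field of `Red.RedSetup` for the ball
`S.Oall` with the residue map `S.resAll` (maximum of the component norms). -/
def SemistableSetup.ApproxAll (S : SemistableSetup (F := F) A π ι Ft ν) : Prop :=
  ∀ V : Submodule K F, Module.Finite K V → ∀ y : F, y ∉ V →
    ∃ w ∈ V, ∃ c : K, c ≠ 0 ∧ ∃ _h : c • (y - w) ∈ S.Oall,
      ∀ z : S.Oall, (z : F) ∈ V → S.resAll z ≠ S.resAll (c • (y - w))

/-- **Joint best approximation** (node B3.MA): the per-component axioms `approx` of a semistable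
setup imply best approximation for the maximum of the component norms. -/
theorem SemistableSetup.approxAll [Finite ι] [Nonempty ι]
    (S : SemistableSetup (F := F) A π ι Ft ν) : S.ApproxAll := by
  intro V hV y hy
  have hA : LatApprox A (⨅ v, lat S v) := latApprox_iInf (lat S) (latApprox_lat S)
  obtain ⟨w, hw, c, hc, hmem, hmin⟩ := hA V hV y hy
  have hmem' : c • (y - w) ∈ S.Oall := (mem_iInf_lat S).1 hmem
  refine ⟨w, hw, c, hc, hmem', ?_⟩
  intro z hzV heq
  have hz : (z : F) ∈ S.Oall := z.2
  apply hmin (z : F) ((mem_iInf_lat S).2 hz) hzV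
  have hx : c • (y - w) - (z : F) ∈ S.Oall := S.Oall.sub_mem hmem' hz
  have hres : S.resAll (c • (y - w) - (z : F)) = 0 := by
    rw [S.resAll_sub hmem' hz, heq, sub_self]
  rcases eq_or_ne (c • (y - w) - (z : F)) 0 with h0 | h0
  · exact ⟨0, by simp, 0, zero_mem _, by rw [h0, smul_zero]⟩
  · obtain ⟨a, haA, ha0, hai, n, hn, -, hxeq⟩ := S.exists_smul_of_resAll_eq_zero hx h0 hres
    refine ⟨a, ?_, n, (mem_iInf_lat S).2 hn, hxeq⟩
    by_contra hlt
    apply hai
    have h1 : 1 ≤ A.valuation a := not_lt.1 hlt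
    rw [← A.valuation_le_one_iff, map_inv₀]
    exact inv_le_one_of_one_le₀ h1

end Fermat.Agent.BR.SS
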