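import Mathlib
import Fermat.Agent.BR.SS.Const
import Fermat.Agent.BR.SS.MainKernel
import Fermat.Agent.BR.SS.MultiApprox

/-!
# Program B (BADRED), block B3, node B3.5 (adapter): input (6) of `SS/MainKernel.lean`

`S.constLemmaProp : S.ConstLemmaProp` — the constants lemma for two charts with disjoint
reductions, in the hypothesis form consumed by `S.normalFormKernel_of_inputs`, from
`S.const_lemma_chartOf` (`SS/Const.lean`), the joint best approximation `S.approxAll`
(`SS/MultiApprox.lean`) and `S.pi_surjective` (`SS/NormalForm.lean`).  Also input (1),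
`S.approxProp : ApproxProp A S.Oall`.
-/

set_option autoImplicit false

namespace Fermat.Agent.BR.SS

open AlgebraicCurve Fermat.Agent.Red

variable {K F k : Type*} [Field K] [Field F] [Algebra K F] [Field k]
  {A : ValuationSubring K} {π : A →+* k} {ι : Type*} {Ft : ι → Type*}
  [∀ v, Field (Ft v)] [∀ v, Algebra k (Ft v)] {ν : Type*}

namespace SemistableSetup

variable (S : SemistableSetup (F := F) A π ι Ft ν)

/-- **Input (1) of `SS/MainKernel`**: joint best approximation for `S.Oall`, residue-free form. -/
theorem approxProp [Finite ι] [Nonempty ι] : ApproxProp A S.Oall :=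
  S.approxProp_of_approxAll S.approxAll

/-- Pointwise disjointness of the reductions, in `Set.image` form. -/
theorem disjoint_image_of_forall_ne {Z₁ Z₂ : Set (Place K F)}
    (h : ∀ P₁ ∈ Z₁, ∀ P₂ ∈ Z₂, S.r P₁ ≠ S.r P₂) : Disjoint (S.r '' Z₁) (S.r '' Z₂) := by
  rw [Set.disjoint_left]
  rintro x ⟨P₁, h1, rfl⟩ ⟨P₂, h2, h12⟩
  exact h P₁ h1 P₂ h2 h12.symm

/-- **Input (6) of `SS/MainKernel`**: the constants lemma for two charts with disjoint
reductions. (The smoothness of the charts and the hypothesis that they meet every component are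
not needed.) -/
theorem constLemmaProp [Finite ι] [Nonempty ι] [Finite ν] (hF : RiemannPkg K F)
    (hFt : ∀ v, RiemannPkg k (Ft v)) : S.ConstLemmaProp := by
  have := hF.principal
  intro Z1 Z2 _ _ _ _ hdisj a ha
  exact S.const_lemma_chartOf S.approxProp (S.pi_surjective hF hFt) hF hFt _ _
    (S.disjoint_image_of_forall_ne hdisj) ha

end SemistableSetup

end Fermat.Agent.BR.SS
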