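import Fermat.Agent.Red.ChartInst

/-!
# Program B (BADRED), block B3, node B3.7 (part 1): the two-chart approximation theorem for the
chart rings of an arbitrary "unit ball"

Setup-free form of `Red/ChartInst.lean`: `F/K` a function field, `A` a rank-one valuation subring
of `K`, `O` a subring of `F` (the unit ball of a norm: one valuation ring in `Red/`, the
intersection `⨅ v, O v` of the valuation rings of the components in a semistable setup) such that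

* `O` contains the constants from `A` (`hconst`),
* `1 ∉ 𝔪_A O` (`hloc`).

The chart rings are `chartOf O Z = O ⊓ regularRing Z`.

* `exists_approx_chartOf` : port of `Red.RedSetup.exists_approx_chart`;
* `r3_output_chartOf` : port of `Red.RedSetup.r3_output`, with the constants lemma as a hypothesis.
-/

set_option autoImplicit false

namespace Fermat.Agent.BR.SS

open AlgebraicCurve Fermat.Agent.Red

variable {K F : Type*} [Field K] [Field F] [Algebra K F] {A : ValuationSubring K}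

/-- The chart ring `O ⊓ regularRing Z` of a unit ball `O`. -/
def chartOf (O : Subring F) (Z : Set (Place K F)) : Subring F := O ⊓ (regularRing Z).toSubring

theorem mem_chartOf {O : Subring F} {Z : Set (Place K F)} {h : F} :
    h ∈ chartOf O Z ↔ h ∈ O ∧ h ∈ regularRing Z := Iff.rfl

theorem chartOf_mono (O : Subring F) {Z Z' : Set (Place K F)} (hZ : Z ⊆ Z') :
    chartOf O Z ≤ chartOf O Z' := by
  intro h hh
  exact ⟨hh.1, fun P hP => hh.2 P fun hPZ => hP (hZ hPZ)⟩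

theorem chartOf_le (O : Subring F) (Z : Set (Place K F)) : chartOf O Z ≤ O := fun _ h => h.1

theorem algebraMap_mem_chartOf {O : Subring F} (hconst : ∀ a ∈ A, algebraMap K F a ∈ O)
    (Z : Set (Place K F)) {a : K} (ha : a ∈ A) : algebraMap K F a ∈ chartOf O Z :=
  ⟨hconst a ha, (regularRing Z).algebraMap_mem a⟩

theorem smul_mem_chartOf {O : Subring F} (hconst : ∀ a ∈ A, algebraMap K F a ∈ O)
    {Z : Set (Place K F)} {a : K} (ha : a ∈ A) {x : F} (hx : x ∈ chartOf O Z) :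
    a • x ∈ chartOf O Z := by
  rw [Algebra.smul_def]
  exact (chartOf O Z).mul_mem (algebraMap_mem_chartOf hconst Z ha) hx

/-- Saturation of the chart rings with respect to nonzero constants. -/
theorem mem_chartOf_of_smul_mem {O : Subring F} {Z : Set (Place K F)} {a : K} (ha : a ≠ 0)
    {x : F} (hx : x ∈ O) (hax : a • x ∈ chartOf O Z) : x ∈ chartOf O Z :=
  ⟨hx, (smul_mem_regularRing_iff ha).mp hax.2⟩

/-- **Node [I], setup-free.**  The two-chart approximation theorem for the chart rings of a unit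
ball `O` over a rank-one valuation ring `A`: triviality modulo one nonzero non-unit `a₀` implies
triviality modulo every nonzero `a ∈ A`, by elements `βᵢ = bᵢ + a₀ yᵢ`. -/
theorem exists_approx_chartOf (hrank : IsRankOne A) (O : Subring F)
    (hconst : ∀ a ∈ A, algebraMap K F a ∈ O)
    (hloc : ∀ l ∈ A, ¬ (l ≠ 0 ∧ l⁻¹ ∈ A) → ∀ a' ∈ A, ¬ (a' ≠ 0 ∧ a'⁻¹ ∈ A) →
      ∀ y₁ ∈ O, ∀ y₂ ∈ O, algebraMap K F l * y₁ + algebraMap K F a' * y₂ ≠ 1)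
    (Z₁ Z₂ : Set (Place K F))
    {a₀ : K} (ha₀ : a₀ ∈ A) (ha₀0 : a₀ ≠ 0) (ha₀u : a₀⁻¹ ∉ A)
    (h0 : ∀ x₁ ∈ chartOf O Z₁, ∀ x₂ ∈ chartOf O Z₂, ∀ w ∈ chartOf O (Z₁ ∪ Z₂),
      x₁ - x₂ = a₀ • w → ∃ l ∈ A, ∃ y ∈ chartOf O Z₁, x₁ = algebraMap K F l + a₀ • y)
    (m : ℕ) (hm0 : (m : K) ≠ 0) (hm : (m : K)⁻¹ ∈ A)
    (u a₁ a₂ : F) (hu : u ∈ chartOf O (Z₁ ∪ Z₂)) (ha₁ : a₁ ∈ chartOf O Z₁)
    (ha₂ : a₂ ∈ chartOf O Z₂)
    (hua₁ : ∃ a₁' ∈ chartOf O Z₁, ∃ w ∈ chartOf O Z₁, a₁ * a₁' = 1 + a₀ • w)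
    (hma : u ^ m * a₂ = a₁)
    (b₁ b₂ : F) (hb₁ : b₁ ∈ chartOf O Z₁) (hb₂ : b₂ ∈ chartOf O Z₂)
    (hub₁ : ∃ b₁' ∈ chartOf O Z₁, ∃ w ∈ chartOf O Z₁, b₁ * b₁' = 1 + a₀ • w)
    (hub₂ : ∃ b₂' ∈ chartOf O Z₂, ∃ w ∈ chartOf O Z₂, b₂ * b₂' = 1 + a₀ • w)
    (hb : ∃ w₀ ∈ chartOf O (Z₁ ∪ Z₂), u * b₂ - b₁ = a₀ • w₀)
    (a : K) (ha : a ∈ A) (ha0 : a ≠ 0) :
    ∃ y₁ ∈ chartOf O Z₁, ∃ y₂ ∈ chartOf O Z₂, ∃ w ∈ chartOf O (Z₁ ∪ Z₂),
      u * (b₂ + a₀ • y₂) - (b₁ + a₀ • y₁) = a • w := by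
  have hnu₀ : ¬ IsUnitIn (constRing F A) (algebraMap K F a₀) := by
    rw [isUnitIn_constRing_iff]
    exact fun h => ha₀u h.2
  have hnu₀' : ¬ (a₀ ≠ 0 ∧ a₀⁻¹ ∈ A) := fun h => ha₀u h.2
  have hURedA : ∀ (Z : Set (Place K F)) (b : F),
      (∃ b' ∈ chartOf O Z, ∃ w ∈ chartOf O Z, b * b' = 1 + a₀ • w) →
        URedA (constRing F A) (chartOf O Z) b := by
    rintro Z b ⟨b', hb', w, hw, e⟩
    exact ⟨b', hb', algebraMap K F a₀, algebraMap_mem_constRing ha₀, hnu₀, w, hw, by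
      rw [e, Algebra.smul_def]⟩
  have hcA : ∀ Z : Set (Place K F), constRing F A ≤ chartOf O Z := by
    intro Z x hx
    obtain ⟨c, hc, rfl⟩ := mem_constRing.mp hx
    exact algebraMap_mem_chartOf hconst Z hc
  obtain ⟨w₀, hw₀, hbw⟩ := hb
  have key := exists_approx_all_sub (F := F) (R' := chartOf O (Z₁ ∪ Z₂)) (A := constRing F A)
    (B₁ := chartOf O Z₁) (B₂ := chartOf O Z₂) (hcA Z₁) (hcA Z₂)
    (chartOf_mono O Set.subset_union_left) (chartOf_mono O Set.subset_union_right)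
    (by
      intro l hl hlu a' ha' hau y₁ hy₁ y₂ hy₂ e
      obtain ⟨l₀, hl₀, rfl⟩ := mem_constRing.mp hl
      obtain ⟨a₀', ha₀', rfl⟩ := mem_constRing.mp ha'
      rw [isUnitIn_constRing_iff] at hlu hau
      exact hloc l₀ hl₀ hlu a₀' ha₀' hau y₁ hy₁.1 y₂ hy₂.1 e)
    (a₀ := algebraMap K F a₀) (algebraMap_mem_constRing ha₀) hnu₀
    (by
      intro x _ hx
      rcases mul_eq_zero.mp hx with h | h
      · exact absurd ((map_eq_zero_iff _ (algebraMap K F).injective).mp h) ha₀0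
      · exact h)
    (by
      intro x hx hax
      rw [← Algebra.smul_def] at hax
      exact mem_chartOf_of_smul_mem ha₀0 hx.1 hax)
    (by
      rintro x₁ hx₁ x₂ hx₂ ⟨w, hw, e⟩
      rw [← Algebra.smul_def] at e
      obtain ⟨l, hl, y, hy, e'⟩ := h0 x₁ hx₁ x₂ hx₂ w hw e
      exact ⟨algebraMap K F l, algebraMap_mem_constRing hl, y, hy, by
        rw [e', Algebra.smul_def]⟩)
    (by
      intro a' ha' ha'0 ha'u
      obtain ⟨a'', ha'', rfl⟩ := mem_constRing.mp ha'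
      rw [isUnitIn_constRing_iff] at ha'u
      have h0' : a'' ≠ 0 := by
        rintro rfl
        exact ha'0 (map_zero _)
      obtain ⟨n, c, hc, e⟩ := hrank.exists_pow_eq ha₀ hnu₀' ha'' h0'
      exact ⟨n, algebraMap K F c, algebraMap_mem_constRing hc, by
        rw [← map_pow, e, map_mul]⟩)
    (by
      intro a' ha' ha'u
      obtain ⟨a'', ha'', rfl⟩ := mem_constRing.mp ha'
      rw [isUnitIn_constRing_iff] at ha'u
      obtain ⟨n, c, hc, e⟩ := hrank.exists_pow_eq ha'' ha'u ha₀ ha₀0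
      exact ⟨n, algebraMap K F c, algebraMap_mem_constRing hc, by
        rw [← map_pow, e, map_mul]⟩)
    m
    (by
      have : ((m : ℕ) : F) = algebraMap K F (m : K) := (map_natCast (algebraMap K F) m).symm
      rw [this, isUnitIn_constRing_iff]
      exact ⟨hm0, hm⟩)
    u a₁ a₂ hu ha₁ ha₂ (hURedA Z₁ a₁ hua₁) hma b₁ b₂ hb₁ hb₂ (hURedA Z₁ b₁ hub₁)
    (hURedA Z₂ b₂ hub₂)
    ⟨w₀, hw₀, by rw [hbw, Algebra.smul_def]⟩
    (algebraMap K F a) (algebraMap_mem_constRing ha)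
    (fun h => ha0 ((map_eq_zero_iff _ (algebraMap K F).injective).mp h))
  obtain ⟨y₁, hy₁, y₂, hy₂, w, hw, e⟩ := key
  refine ⟨y₁, hy₁, y₂, hy₂, w, hw, ?_⟩
  rw [Algebra.smul_def, Algebra.smul_def, Algebra.smul_def]
  exact e

/-- **(R3) for the normal-form data, setup-free.**  `g₂` is the transition function
(`s₁ = g₂ s₂`), `f` is a unit of the chart `Z₁` with `f⁻¹ g₂⁻ᵐ` in the chart `Z₂`, and
`g₂ - 1 = a₀ • w₀` for a modulus `a₀`; the constants lemma modulo `a₀` is the hypothesis `h0`.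
Then for every nonzero `a ∈ A` there are `y₁, y₂` in the two charts with
`g₂ (1 + a₀ y₂) - (1 + a₀ y₁) ∈ a O`. -/
theorem r3_output_chartOf (hA : IsRankOne A) (O : Subring F)
    (hconst : ∀ a ∈ A, algebraMap K F a ∈ O)
    (hloc : ∀ l ∈ A, ¬ (l ≠ 0 ∧ l⁻¹ ∈ A) → ∀ a' ∈ A, ¬ (a' ≠ 0 ∧ a'⁻¹ ∈ A) →
      ∀ y₁ ∈ O, ∀ y₂ ∈ O, algebraMap K F l * y₁ + algebraMap K F a' * y₂ ≠ 1)
    (m : ℕ) (hm0 : (m : K) ≠ 0) (hmi : (m : K)⁻¹ ∈ A) (Z₁ Z₂ : Set (Place K F))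
    (g₂ f : F) (hg₂0 : g₂ ≠ 0) (hf0 : f ≠ 0) (hf : f ∈ chartOf O Z₁)
    (hfi : f⁻¹ ∈ chartOf O Z₁) (ha₂ : f⁻¹ * (g₂ ^ m)⁻¹ ∈ chartOf O Z₂)
    (hg₂ : g₂ ∈ chartOf O (Z₁ ∪ Z₂))
    {a₀ : K} (ha₀ : IsModulus A a₀)
    (h0 : ∀ x₁ ∈ chartOf O Z₁, ∀ x₂ ∈ chartOf O Z₂, ∀ w ∈ chartOf O (Z₁ ∪ Z₂),
      x₁ - x₂ = a₀ • w → ∃ l ∈ A, ∃ y ∈ chartOf O Z₁, x₁ = algebraMap K F l + a₀ • y)
    {w₀ : F} (hw₀ : w₀ ∈ chartOf O (Z₁ ∪ Z₂)) (hgw : g₂ - 1 = a₀ • w₀) :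
    ∀ a : K, a ∈ A → a ≠ 0 → ∃ y₁ ∈ chartOf O Z₁, ∃ y₂ ∈ chartOf O Z₂, ∃ w ∈ O,
      1 + a₀ • y₁ ∈ chartOf O Z₁ ∧ 1 + a₀ • y₂ ∈ chartOf O Z₂ ∧
        g₂ * (1 + a₀ • y₂) - (1 + a₀ • y₁) = a • w := by
  intro a ha ha0
  have hone : ∀ Z : Set (Place K F),
      ∃ b' ∈ chartOf O Z, ∃ w ∈ chartOf O Z, (1 : F) * b' = 1 + a₀ • w :=
    fun Z => ⟨1, (chartOf O Z).one_mem, 0, (chartOf O Z).zero_mem, by simp⟩
  obtain ⟨y₁, hy₁, y₂, hy₂, w, hw, e⟩ := exists_approx_chartOf hA O hconst hloc Z₁ Z₂ ha₀.mem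
    ha₀.ne_zero ha₀.inv_not_mem h0
    m hm0 hmi g₂ f⁻¹ (f⁻¹ * (g₂ ^ m)⁻¹) hg₂ hfi ha₂
    ⟨f, hf, 0, (chartOf O Z₁).zero_mem, by rw [inv_mul_cancel₀ hf0]; simp⟩
    (by
      rw [mul_comm f⁻¹, ← mul_assoc, mul_inv_cancel₀ (pow_ne_zero m hg₂0), one_mul])
    1 1 (chartOf O Z₁).one_mem (chartOf O Z₂).one_mem (hone Z₁) (hone Z₂)
    ⟨w₀, hw₀, by rw [mul_one, hgw]⟩ a ha ha0
  have hβ₁ : 1 + a₀ • y₁ ∈ chartOf O Z₁ :=
    (chartOf O Z₁).add_mem (chartOf O Z₁).one_mem (smul_mem_chartOf hconst ha₀.mem hy₁)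
  have hβ₂ : 1 + a₀ • y₂ ∈ chartOf O Z₂ :=
    (chartOf O Z₂).add_mem (chartOf O Z₂).one_mem (smul_mem_chartOf hconst ha₀.mem hy₂)
  exact ⟨y₁, hy₁, y₂, hy₂, w, hw.1, hβ₁, hβ₂, e⟩

end Fermat.Agent.BR.SS
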