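import Mathlib
import Fermat.Agent.BR.SS.NormalForm
import Fermat.Agent.BR.SS.ChartGen

/-!
# Program B (BADRED), block B3, node B3.6 part 3: the two-chart data of a divisor in normal form

For `D` in normal form (`D` smooth, `push D v = 0` for all `v`, `m D = div f`, `f ∈ Oall` with all
residues `1`) and under `LiftLarge S`, `exists_normalFormData` produces
* auxiliary smooth places `P₀ v`, `P₁ v` on every component `v`,
* two finite sets of smooth places `Z1 ⊇ supp D ∪ {P₁ v}`, `Z2 ∋ P₀ v` (`Z2` inside the fibres of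
  the `r (P₀ v)`, which are disjoint from `r(Z1)`),
* the transition function `g2` (a unit of `Oall` with all residues `1`, `div g2 = -D` outside
  `Z2`),
together with the chart memberships used by `S.r3_output` (`SS/ChartInst`) and
`S.mem_principal_of_forall_approx` (`SS/Ending`).
-/

set_option autoImplicit false

namespace Fermat.Agent.BR.SS

open AlgebraicCurve Fermat.Agent.Red Fermat.Agent.X0 Fermat.Agent.Red.NormalForm

variable {K F k : Type*} [Field K] [Field F] [Algebra K F] [Field k]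
  {A : ValuationSubring K} {π : A →+* k} {ι : Type*} {Ft : ι → Type*}
  [∀ v, Field (Ft v)] [∀ v, Algebra k (Ft v)] {ν : Type*}

namespace SemistableSetup

variable (S : SemistableSetup (F := F) A π ι Ft ν)

theorem mem_regularRing_of_ord' {Z : Set (Place K F)} {x : F}
    (h : ∀ P : Place K F, P ∉ Z → 0 ≤ P.ord x) : x ∈ regularRing Z :=
  mem_regularRing_iff_ord.mpr fun P hP => Or.inr (h P hP)

/-- **Choice of the second chart.** If `D` is smooth with `push D v = 0`, there are smooth places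
`P₀ v` on every component whose reductions avoid `r(supp D)` and a given finite set, and
`g ∈ L(D + Σ n_v P₀ v) ∩ Oall` with all residues `1`; conservation and `node_unit` force
`div g = -D` at all places not reducing to some `r (P₀ v)`. -/
theorem exists_chart_function [Fintype ι] [Finite ν] (hF : RiemannPkg K F)
    (hFt : ∀ v, RiemannPkg k (Ft v)) (hlift : LiftLarge S) (D : Divisor K F)
    (hD : ∀ P ∈ D.support, S.IsSmoothPlace P) (hpush : ∀ v, S.push D v = 0)
    (Y : Set (Σ v, Place k (Ft v))) (hY : Y.Finite) :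
    ∃ (P₀ : ι → Place K F) (g : F), (∀ v, (S.r (P₀ v)).1 = v) ∧
      (∀ v, S.IsSmoothPlace (P₀ v)) ∧ (∀ v, S.r (P₀ v) ∉ Y) ∧
      (∀ P ∈ D.support, ∀ v, S.r P ≠ S.r (P₀ v)) ∧ g ∈ S.Oall ∧ (∀ v, S.resF v g = 1) ∧
      (∀ P : Place K F, (∀ v, S.r P ≠ S.r (P₀ v)) → P.ord g = - D P) := by
  classical
  haveI := hF.principal
  obtain ⟨c, hc⟩ := hlift
  have hY' : (Y ∪ S.r '' (D.support : Set (Place K F))).Finite :=
    hY.union ((Finset.finite_toSet _).image _)
  obtain ⟨P₀, E₀, hP₀v, hP₀s, hP₀Y, -, hE₀supp, hE₀pos, hE₀deg⟩ :=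
    S.exists_effective_smooth hFt (fun v => (c v).toNat) _ hY'
  set E : Divisor K F := D + E₀ with hE
  have hEs : ∀ P ∈ E.support, S.IsSmoothPlace P := by
    intro P hP
    have : D P ≠ 0 ∨ E₀ P ≠ 0 := by
      by_contra hcon
      push Not at hcon
      apply Finsupp.mem_support_iff.mp hP
      rw [hE, Finsupp.add_apply, hcon.1, hcon.2, add_zero]
    rcases this with h1 | h1
    · exact hD P (Finsupp.mem_support_iff.mpr h1)
    · obtain ⟨v, rfl⟩ := hE₀supp P (Finsupp.mem_support_iff.mpr h1)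
      exact hP₀s v
  have hEdeg : ∀ v, c v ≤ Divisor.degree (S.push E v) := by
    intro v
    rw [hE, S.push_add, hpush v, zero_add, hE₀deg v]
    exact Int.self_le_toNat (c v)
  have hE₀push : ∀ v (Q : Place k (Ft v)), 0 ≤ S.push E₀ v Q := by
    intro v Q
    rw [S.push_apply]
    exact mapDomain_apply_nonneg S.r E₀ _ fun P _ => hE₀pos P
  have h1mem : ∀ v, (1 : ∀ v, Ft v) v ∈ riemannRochSpace (S.push E v) := by
    intro v
    rw [mem_riemannRochSpace_iff]
    intro Q
    right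
    rw [Pi.one_apply, Place.ord_one, hE, S.push_add, hpush v, zero_add]
    have := hE₀push v Q
    omega
  have h1match : S.MatchAt (1 : ∀ v, Ft v) := fun e => ⟨1, isValueAt_one _, isValueAt_one _⟩
  obtain ⟨g, hgE, hgO, hgres⟩ := hc E hEs hEdeg 1 h1mem h1match
  have hgresv : ∀ v, S.resF v g = 1 := fun v => congrFun hgres v
  have hgunit : ∀ v, S.resF v g ≠ 0 := fun v => by rw [hgresv v]; exact one_ne_zero
  have hg0 : g ≠ 0 := by
    obtain ⟨P⟩ := hF.infinite_places.nonempty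
    exact S.ne_zero_of_resF_ne_zero (hgunit (S.r P).1)
  have hgpole : ∀ P, ¬ S.IsSmoothPlace P → 0 ≤ P.ord g := by
    intro P hP
    have h1 := (mem_riemannRochSpace_iff.mp hgE P).resolve_left hg0
    have : E P = 0 := by
      by_contra hne
      exact hP (hEs P (Finsupp.mem_support_iff.mpr hne))
    omega
  refine ⟨P₀, g, hP₀v, hP₀s, fun v h => hP₀Y v (Or.inl h), ?_, hgO, hgresv, ?_⟩
  · intro P hP v hr
    exact hP₀Y v (Or.inr ⟨P, hP, hr⟩)
  · intro P hP
    by_cases hPs : S.IsSmoothPlace P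
    · -- conservation on the component of `r P`
      have hQ : ¬ S.IsBranch ⟨(S.r P).1, (S.r P).2⟩ := hPs
      have h0 : Finsupp.mapDomain S.r (divOf K g + D) (S.r P) = 0 := by
        have h1 := S.push_divOf (hgunit (S.r P).1) hQ
        rw [hgresv, Place.ord_one, S.push_apply] at h1
        have h2 : S.push D (S.r P).1 (S.r P).2 = 0 := by rw [hpush]; rfl
        rw [S.push_apply] at h2
        rw [Finsupp.mapDomain_add, Finsupp.add_apply]
        change Finsupp.mapDomain S.r (divOf K g) ⟨(S.r P).1, (S.r P).2⟩ +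
          Finsupp.mapDomain S.r D ⟨(S.r P).1, (S.r P).2⟩ = 0
        rw [h1, h2, add_zero]
      have hpos : ∀ P' : Place K F, S.r P' = S.r P → 0 ≤ (divOf K g + D) P' := by
        intro P' hP'
        have hne : E₀ P' = 0 := by
          by_contra hne
          obtain ⟨v, rfl⟩ := hE₀supp P' (Finsupp.mem_support_iff.mpr hne)
          exact hP v hP'.symm
        have := (mem_riemannRochSpace_iff.mp hgE P').resolve_left hg0
        rw [hE, Finsupp.add_apply, hne, add_zero] at this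
        rw [Finsupp.add_apply, divOf_apply]
        omega
      have := eq_zero_of_mapDomain_apply_eq_zero S.r (divOf K g + D) (S.r P) h0 hpos P rfl
      rw [Finsupp.add_apply, divOf_apply] at this
      omega
    · -- annular places: `node_unit`
      have hDP : D P = 0 := by
        by_contra hne
        exact hPs (hD P (Finsupp.mem_support_iff.mpr hne))
      obtain ⟨e, he⟩ := (S.not_isSmoothPlace_iff P).mp hPs
      have h₁ := S.mem_O_of_mem_Oall hgO (S.src e)
      have h₂ := S.mem_O_of_mem_Oall hgO (S.tgt e)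
      have := S.node_unit e g h₁ h₂ (fun P' hP' => hgpole P' ?_) ⟨1, one_ne_zero, ?_⟩ P he
      · rw [this, hDP, neg_zero]
      · rw [S.not_isSmoothPlace_iff]
        exact ⟨e, hP'⟩
      · rw [← S.resF_of_mem h₁, hgresv]
        exact isValueAt_one _

/-- **The normal-form data.** -/
theorem exists_normalFormData [Fintype ι] [Finite ν] (hF : RiemannPkg K F)
    (hFt : ∀ v, RiemannPkg k (Ft v)) (hlift : LiftLarge S) (m : ℕ) (D : Divisor K F)
    (hD : ∀ P ∈ D.support, S.IsSmoothPlace P) (hpush : ∀ v, S.push D v = 0)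
    (f : F) (hfO : f ∈ S.Oall) (hf1 : ∀ v, S.resF v f = 1)
    (hfD : ∀ P : Place K F, (m • D) P = P.ord f) :
    ∃ (Z1 Z2 : Finset (Place K F)) (P₀ P₁ : ι → Place K F) (g2 : F),
      (∀ v, (S.r (P₀ v)).1 = v) ∧ (∀ v, (S.r (P₁ v)).1 = v) ∧
      (∀ v, P₀ v ∈ Z2) ∧ (∀ v, P₁ v ∈ Z1) ∧
      (∀ P ∈ Z1, S.IsSmoothPlace P) ∧ (∀ P ∈ Z2, S.IsSmoothPlace P) ∧
      D.support ⊆ Z1 ∧
      (∀ P ∈ Z2, ∃ v, S.r P = S.r (P₀ v)) ∧ (∀ P ∈ Z1, ∀ v, S.r P ≠ S.r (P₀ v)) ∧
      (∀ P ∈ Z1, ∀ P' ∈ Z2, S.r P ≠ S.r P') ∧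
      g2 ∈ S.Oall ∧ g2⁻¹ ∈ S.Oall ∧ S.resAll g2 = 1 ∧
      (∀ P : Place K F, P ∉ Z2 → P.ord g2 = - D P) ∧
      f ∈ chartOf S.Oall (Z1 : Set (Place K F)) ∧ f⁻¹ ∈ chartOf S.Oall (Z1 : Set (Place K F)) ∧
      f⁻¹ * (g2 ^ m)⁻¹ ∈ chartOf S.Oall (Z2 : Set (Place K F)) ∧
      f * g2 ^ m ∈ chartOf S.Oall (Z2 : Set (Place K F)) ∧
      g2 ∈ chartOf S.Oall ((Z1 : Set (Place K F)) ∪ Z2) ∧
      g2⁻¹ ∈ chartOf S.Oall ((Z1 : Set (Place K F)) ∪ Z2) := by
  classical
  haveI := hF.principal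
  -- the places `P₁ v`
  obtain ⟨P₁, -, hP₁v, hP₁s, -, -, -, -, -⟩ :=
    S.exists_effective_smooth hFt (fun _ => 0) ∅ Set.finite_empty
  have hY : (Set.range fun v => S.r (P₁ v)).Finite := Set.finite_range _
  obtain ⟨P₀, g, hP₀v, hP₀s, hP₀Y, hsupp, hgO, hgres, hgD⟩ :=
    S.exists_chart_function hF hFt hlift D hD hpush _ hY
  have hgunit : ∀ v, S.resF v g ≠ 0 := fun v => by rw [hgres v]; exact one_ne_zero
  have hfunit : ∀ v, S.resF v f ≠ 0 := fun v => by rw [hf1 v]; exact one_ne_zero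
  have hg0 : g ≠ 0 := by
    obtain ⟨P⟩ := hF.infinite_places.nonempty
    exact S.ne_zero_of_resF_ne_zero (hgunit (S.r P).1)
  have hf0 : f ≠ 0 := by
    obtain ⟨P⟩ := hF.infinite_places.nonempty
    exact S.ne_zero_of_resF_ne_zero (hfunit (S.r P).1)
  have hginv : g⁻¹ ∈ S.Oall := S.inv_mem_Oall hgunit
  have hfinv : f⁻¹ ∈ S.Oall := S.inv_mem_Oall hfunit
  set Z1 : Finset (Place K F) := Finset.univ.image P₁ ∪ D.support with hZ1
  set Z2 : Finset (Place K F) := Finset.univ.image P₀ ∪ (divOf K g + D).support with hZ2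
  have hZ2r : ∀ P ∈ Z2, ∃ v, S.r P = S.r (P₀ v) := by
    intro P hP
    rcases Finset.mem_union.mp hP with hP | hP
    · obtain ⟨v, -, rfl⟩ := Finset.mem_image.mp hP
      exact ⟨v, rfl⟩
    · by_contra hne
      push Not at hne
      have := hgD P hne
      rw [Finsupp.mem_support_iff, Finsupp.add_apply, divOf_apply, this] at hP
      exact hP (by ring)
  have hZ1r : ∀ P ∈ Z1, ∀ v, S.r P ≠ S.r (P₀ v) := by
    intro P hP v
    rcases Finset.mem_union.mp hP with hP | hP
    · obtain ⟨w, -, rfl⟩ := Finset.mem_image.mp hP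
      intro h
      exact hP₀Y v ⟨w, h⟩
    · exact hsupp P hP v
  have hZ1s : ∀ P ∈ Z1, S.IsSmoothPlace P := by
    intro P hP
    rcases Finset.mem_union.mp hP with hP | hP
    · obtain ⟨w, -, rfl⟩ := Finset.mem_image.mp hP
      exact hP₁s w
    · exact hD P hP
  have hZ2s : ∀ P ∈ Z2, S.IsSmoothPlace P := by
    intro P hP
    obtain ⟨v, hv⟩ := hZ2r P hP
    unfold IsSmoothPlace
    rw [hv]
    exact hP₀s v
  have hord : ∀ P : Place K F, P ∉ Z2 → P.ord g = - D P := by
    intro P hP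
    have : P ∉ (divOf K g + D).support := fun h => hP (Finset.mem_union_right _ h)
    rw [Finsupp.notMem_support_iff, Finsupp.add_apply, divOf_apply] at this
    omega
  have hD0 : ∀ P : Place K F, P ∉ Z1 → D P = 0 := by
    intro P hP
    have : P ∉ D.support := fun h => hP (Finset.mem_union_right _ h)
    exact Finsupp.notMem_support_iff.mp this
  have hordf : ∀ P : Place K F, P.ord f = m * D P := by
    intro P
    rw [← hfD, Finsupp.smul_apply, nsmul_eq_mul]
  have hdisj : ∀ P ∈ Z1, ∀ P' ∈ Z2, S.r P ≠ S.r P' := by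
    intro P hP P' hP' h
    obtain ⟨v, hv⟩ := hZ2r P' hP'
    exact hZ1r P hP v (h.trans hv)
  have hdisj' : ∀ P : Place K F, P ∈ Z1 → P ∉ Z2 := fun P h1 h2 => hdisj P h1 P h2 rfl
  refine ⟨Z1, Z2, P₀, P₁, g, hP₀v, hP₁v, ?_, ?_, hZ1s, hZ2s, Finset.subset_union_right, hZ2r,
    hZ1r, hdisj, hgO, hginv, ?_, hord, ?_, ?_, ?_, ?_, ?_, ?_⟩
  · exact fun v => Finset.mem_union_left _ (Finset.mem_image_of_mem _ (Finset.mem_univ v))
  · exact fun v => Finset.mem_union_left _ (Finset.mem_image_of_mem _ (Finset.mem_univ v))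
  · funext v
    exact hgres v
  · -- `f ∈ B_{Z1}`
    refine ⟨hfO, mem_regularRing_of_ord' fun P hP => ?_⟩
    rw [hordf, hD0 P (by simpa using hP), mul_zero]
  · refine ⟨hfinv, mem_regularRing_of_ord' fun P hP => ?_⟩
    rw [P.ord_inv, hordf, hD0 P (by simpa using hP), mul_zero, neg_zero]
  · refine ⟨S.Oall.mul_mem hfinv (by rw [← inv_pow]; exact pow_mem hginv m),
      mem_regularRing_of_ord' fun P hP => ?_⟩
    rw [P.ord_mul (inv_ne_zero hf0) (inv_ne_zero (pow_ne_zero m hg0)), P.ord_inv, P.ord_inv,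
      Place.ord_pow, hordf, hord P (by simpa using hP)]
    ring_nf
    exact le_rfl
  · refine ⟨S.Oall.mul_mem hfO (pow_mem hgO m), mem_regularRing_of_ord' fun P hP => ?_⟩
    rw [P.ord_mul hf0 (pow_ne_zero m hg0), Place.ord_pow, hordf, hord P (by simpa using hP)]
    ring_nf
    exact le_rfl
  · refine ⟨hgO, mem_regularRing_of_ord' fun P hP => ?_⟩
    have h1 : P ∉ Z1 := fun h => hP (Or.inl h)
    have h2 : P ∉ Z2 := fun h => hP (Or.inr h)
    rw [hord P h2, hD0 P h1, neg_zero]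
  · refine ⟨hginv, mem_regularRing_of_ord' fun P hP => ?_⟩
    have h1 : P ∉ Z1 := fun h => hP (Or.inl h)
    have h2 : P ∉ Z2 := fun h => hP (Or.inr h)
    rw [P.ord_inv, hord P h2, hD0 P h1, neg_zero, neg_zero]

end SemistableSetup

end Fermat.Agent.BR.SS
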