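import Mathlib
import Fermat.Agent.BR.SS.MainKernel
import Fermat.Agent.BR.SS.NormalFormData

/-!
# Program B (BADRED), block B3: input (5) of `SS/MainKernel.lean`

`S.normalFormDataProp_of_liftLarge` : `S.NormalFormDataProp` from `S.exists_normalFormData`
(`SS/NormalFormData`), under `LiftLarge S`.

(This file replaces `BR/SS/InputsNF.lean`, whose names `approxProp`, `constLemmaProp` collide with
`BR/SS/ConstProp.lean`; `InputsNF.lean` is never imported.)
-/

set_option autoImplicit false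

namespace Fermat.Agent.BR.SS

open AlgebraicCurve Fermat.Agent.Red

variable {K F k : Type*} [Field K] [Field F] [Algebra K F] [Field k]
  {A : ValuationSubring K} {π : A →+* k} {ι : Type*} {Ft : ι → Type*}
  [∀ v, Field (Ft v)] [∀ v, Algebra k (Ft v)] {ν : Type*}

namespace SemistableSetup

variable (S : SemistableSetup (F := F) A π ι Ft ν)

/-- Input (5) of `SS/MainKernel`. -/
theorem normalFormDataProp_of_liftLarge [Fintype ι] [Finite ν] (hF : RiemannPkg K F)
    (hFt : ∀ v, RiemannPkg k (Ft v)) (hlift : LiftLarge S) : S.NormalFormDataProp := by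
  intro m _ D hD hpush f hfO hf1 hfD
  obtain ⟨Z1, Z2, P₀, P₁, g2, hP₀v, hP₁v, hP₀Z, hP₁Z, hZ1s, hZ2s, hsupp, -, -, hdisj, hg2O, -,
    hg2res, hord, hf1c, hf1c', hf2c, -, hg2c, -⟩ :=
    S.exists_normalFormData hF hFt hlift m D hD hpush f hfO hf1 hfD
  exact ⟨Z1, Z2, g2, hZ1s, hZ2s, fun v => ⟨P₁ v, hP₁Z v, hP₁v v⟩,
    fun v => ⟨P₀ v, hP₀Z v, hP₀v v⟩, hsupp, hdisj, hg2O, hg2res, hord, hf1c, hf1c', hf2c, hg2c⟩

end SemistableSetup

end Fermat.Agent.BR.SS
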