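import Mathlib
import Fermat.Agent.BR.SS.Basic
import Fermat.Agent.BR.SS.MultiApprox
import Fermat.Agent.BR.BallLattice

/-!
# Program B (BADRED), block B3, node B3.2: lattice reduction for a semistable setup

* `S.ballAt v : ResBall A π` : the unit ball of the component `v` (`O v`, `res v`);
  `S.ball : ResBall A π` : the unit ball of the maximum norm (`S.Oall`, `S.resAll`), so that the
  whole of `BR/BallLattice.lean` (port of `Red/LatticeReduction`, `Red/TwoLattice`, lattice part
  of `Red/Ending`, (U1)) applies.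
* `S.ball_approx : S.ball.Approx` : best approximation for the maximum norm in the language of
  `BR/BallLattice.lean` (from `SemistableSetup.approxAll`, node B3.MA); `S.ball_saturated`.
* `S.exists_latticeBasis_all` : every finite-dimensional `W ≤ F` has a `K`-basis `z` in `Oall`
  with `W ∩ Oall = A-span z` (no hypothesis on `π`).
* The lattice theorems in the language of `S.Oall`, `S.resAll`: `mem_of_sum_smul_mem_all`,
  `linearIndependent_of_resAll`, `resSpaceAll`, `finrank_resSpaceAll`, `exists_reducedBasis_all`,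
  `exists_coeff_of_mem_all`, `exists_common_denominator_sup_all`, `exists_ne_zero_mem_inf_all`,
  `exists_bound_linearMap_all`, `inf_ne_bot_of_forall_approx_all`, `twoLattice_resAll` (the exact
  hypothesis of `SemistableSetup.twoLatticeProp_of_resAll` in `SS/Ending.lean`).
-/

set_option autoImplicit false

namespace Fermat.Agent.BR.SS

open AlgebraicCurve Fermat.Agent.Red Fermat.Agent.BR Module

variable {K F k : Type*} [Field K] [Field F] [Algebra K F] [Field k]
  {A : ValuationSubring K} {π : A →+* k} {ι : Type*} {Ft : ι → Type*}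
  [∀ v, Field (Ft v)] [∀ v, Algebra k (Ft v)] {ν : Type*}

namespace SemistableSetup

variable (S : SemistableSetup (F := F) A π ι Ft ν)

/-! ### The unit balls -/

/-- The unit ball of the component `v`. -/
noncomputable def ballAt (v : ι) : ResBall (F := F) (R := Ft v) A π where
  O := (S.O v).toSubring
  res := S.res v
  algebraMap_mem := fun a ha => (S.algebraMap_mem_iff v a).mpr ha
  res_algebraMap := fun a ha => S.res_algebraMap v a ha _
  pi_eq_zero := fun _ ha hai => S.pi_eq_zero_of_inv_not_mem v ha hai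

theorem mem_ballAt {v : ι} {x : F} : x ∈ (S.ballAt v).O ↔ x ∈ S.O v := Iff.rfl

theorem ballAt_resF (v : ι) (x : F) : (S.ballAt v).resF x = S.resF v x := by
  by_cases hx : x ∈ S.O v
  · rw [(S.ballAt v).resF_of_mem (S.mem_ballAt.mpr hx), S.resF_of_mem hx]
    rfl
  · rw [(S.ballAt v).resF_of_not_mem (fun h => hx (S.mem_ballAt.mp h)), S.resF_of_not_mem hx]

theorem ballAt_approx (v : ι) : (S.ballAt v).Approx := S.approx v

/-- The unit ball of the maximum norm. -/
noncomputable def ball [Nonempty ι] : ResBall (F := F) (R := ∀ v, Ft v) A π where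
  O := S.Oall
  res :=
    { toFun := fun x => S.resAll x
      map_one' := S.resAll_one
      map_mul' := fun x y => S.resAll_mul x.2 y.2
      map_zero' := S.resAll_zero
      map_add' := fun x y => S.resAll_add x.2 y.2 }
  algebraMap_mem := fun _ ha => S.algebraMap_mem ha
  res_algebraMap := fun a ha => by
    change S.resAll (algebraMap K F a) = _
    rw [S.resAll_algebraMap ha, Algebra.algebraMap_eq_smul_one]
  pi_eq_zero := fun _ ha hai => S.pi_eq_zero_of_inv_not_mem (Classical.arbitrary ι) ha hai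

variable [Nonempty ι]

theorem mem_ball {x : F} : x ∈ S.ball.O ↔ x ∈ S.Oall := Iff.rfl

theorem ball_resF {x : F} (hx : x ∈ S.Oall) : S.ball.resF x = S.resAll x := by
  rw [S.ball.resF_of_mem (S.mem_ball.mpr hx)]
  rfl

/-- Saturation of the unit ball of the maximum norm. -/
theorem ball_saturated [Finite ι] : S.ball.Saturated := by
  intro x hx hx0 hres
  rw [S.ball_resF hx] at hres
  obtain ⟨a, haA, -, hainv, w, hw, -, hxw⟩ := S.exists_smul_of_resAll_eq_zero hx hx0 hres
  exact ⟨a, haA, hainv, w, hw, hxw⟩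

/-! ### Best approximation and lattice bases for the maximum norm -/

section LatticeBases

variable [Finite ι]

/-- **Best approximation for the maximum norm**, in the language of `BR/BallLattice.lean`. -/
theorem ball_approx : S.ball.Approx := by
  intro V hV y hy
  obtain ⟨w, hw, c, hc, hmem, hne⟩ := S.approxAll V hV y hy
  exact ⟨w, hw, c, hc, hmem, fun z hz => hne z hz⟩

/-- **Lattice bases for the maximum norm**: every finite-dimensional subspace `W` has a
`K`-basis `z` in `Oall` such that `W ∩ Oall` is the `A`-span of `z`. -/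
theorem exists_latticeBasis_all (W : Submodule K F) [FiniteDimensional K W] :
    ∃ z : Fin (finrank K W) → F, LinearIndependent K z ∧ (∀ i, z i ∈ S.Oall) ∧
      Submodule.span K (Set.range z) = W ∧
      ∀ x ∈ W, x ∈ S.Oall ↔ ∃ a : Fin (finrank K W) → K, (∀ i, a i ∈ A) ∧ x = ∑ i, a i • z i :=
  ResBall.exists_latticeBasis S.ball_approx W

end LatticeBases

/-! ### The lattice theorems for `S.Oall`, `S.resAll` -/

section All

theorem ball_resF_comp {σ : Type*} (x : σ → F) (hx : ∀ i, x i ∈ S.Oall) :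
    (fun i => S.ball.resF (x i)) = fun i => S.resAll (x i) :=
  funext fun i => S.ball_resF (hx i)

/-- **(R0a)** Elements of `Oall` with `k`-independent residue tuples are norm-independent. -/
theorem mem_of_sum_smul_mem_all {σ : Type*} [Fintype σ] (x : σ → F) (hx : ∀ i, x i ∈ S.Oall)
    (hind : LinearIndependent k fun i => S.resAll (x i)) (a : σ → K)
    (h : ∑ i, a i • x i ∈ S.Oall) : ∀ i, a i ∈ A :=
  S.ball.mem_of_sum_smul_mem x hx (by rw [S.ball_resF_comp x hx]; exact hind) a h

/-- **(R0a')** Elements of `Oall` with `k`-independent residue tuples are `K`-independent. -/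
theorem linearIndependent_of_resAll {σ : Type*} [Fintype σ] (x : σ → F)
    (hx : ∀ i, x i ∈ S.Oall) (hind : LinearIndependent k fun i => S.resAll (x i)) :
    LinearIndependent K x :=
  S.ball.linearIndependent_of_resF x hx (by rw [S.ball_resF_comp x hx]; exact hind)

variable (hπ : Function.Surjective π)

/-- The `k`-space of residue tuples of the elements of `V ∩ Oall`. -/
noncomputable def resSpaceAll (V : Submodule K F) : Submodule k (∀ v, Ft v) :=
  S.ball.resSpace hπ V

theorem mem_resSpaceAll {V : Submodule K F} {t : ∀ v, Ft v} :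
    t ∈ S.resSpaceAll hπ V ↔ ∃ z ∈ V, z ∈ S.Oall ∧ S.resAll z = t := by
  unfold resSpaceAll
  rw [ResBall.mem_resSpace]
  constructor
  · rintro ⟨z, hzV, hzO, rfl⟩
    exact ⟨z, hzV, hzO, (S.ball_resF hzO).symm⟩
  · rintro ⟨z, hzV, hzO, rfl⟩
    exact ⟨z, hzV, hzO, S.ball_resF hzO⟩

theorem resAll_mem_resSpaceAll {V : Submodule K F} {z : F} (hz : z ∈ V) (hzO : z ∈ S.Oall) :
    S.resAll z ∈ S.resSpaceAll hπ V :=
  (S.mem_resSpaceAll hπ).mpr ⟨z, hz, hzO, rfl⟩

theorem resSpaceAll_mono {V W : Submodule K F} (h : V ≤ W) :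
    S.resSpaceAll hπ V ≤ S.resSpaceAll hπ W :=
  S.ball.resSpace_mono hπ h

instance finite_resSpaceAll (V : Submodule K F) [FiniteDimensional K V] :
    Module.Finite k (S.resSpaceAll hπ V) :=
  S.ball.finite_resSpace hπ V

theorem finrank_resSpaceAll_le (V : Submodule K F) [FiniteDimensional K V] :
    finrank k (S.resSpaceAll hπ V) ≤ finrank K V :=
  S.ball.finrank_resSpace_le hπ V

theorem exists_coeff_of_mem_all {n : ℕ} (z : Fin n → F) (hzO : ∀ i, z i ∈ S.Oall)
    (hzind : LinearIndependent k fun i => S.resAll (z i)) {y : F}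
    (hy : y ∈ Submodule.span K (Set.range z)) (hyO : y ∈ S.Oall) :
    ∃ a : Fin n → K, (∀ i, a i ∈ A) ∧ y = ∑ i, a i • z i :=
  S.ball.exists_coeff_of_mem z hzO (by rw [S.ball_resF_comp z hzO]; exact hzind) hy hyO

variable [Finite ι]

include hπ in
/-- **Reduced bases for the maximum norm.** -/
theorem exists_reducedBasis_all (V : Submodule K F) [FiniteDimensional K V] :
    ∃ z : Fin (finrank K V) → F, (∀ i, z i ∈ V) ∧ (∀ i, z i ∈ S.Oall) ∧
      (LinearIndependent k fun i => S.resAll (z i)) ∧ LinearIndependent K z ∧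
      Submodule.span K (Set.range z) = V := by
  obtain ⟨z, hzV, hzO, hzind, hzK, hzspan⟩ := S.ball.exists_reducedBasis hπ S.ball_approx V
  refine ⟨z, hzV, hzO, ?_, hzK, hzspan⟩
  rw [← S.ball_resF_comp z hzO]
  exact hzind

/-- **(R0b)** `dim_k resAll (V ∩ Oall) = dim_K V`. -/
theorem finrank_resSpaceAll (V : Submodule K F) [FiniteDimensional K V] :
    finrank k (S.resSpaceAll hπ V) = finrank K V :=
  S.ball.finrank_resSpace hπ S.ball_approx V

omit hπ in
/-- Every element of `F` is scaled into `Oall` by a nonzero element of `A`. -/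
theorem exists_mem_smul_mem_Oall (x : F) : ∃ c : K, c ∈ A ∧ c ≠ 0 ∧ c • x ∈ S.Oall :=
  ResBall.exists_smul_mem_O S.ball_approx x

end All

/-! ### The two-lattice lemma (no hypothesis on `π`) -/

section TwoLattice

variable [Finite ι]

/-- Common denominator for the sum of two lattices. -/
theorem exists_common_denominator_sup_all (W0 W1 : Submodule K F)
    [FiniteDimensional K W0] [FiniteDimensional K W1] :
    ∃ e : K, e ∈ A ∧ e ≠ 0 ∧ ∀ μ ∈ W0 ⊔ W1, μ ∈ S.Oall →
      ∃ y0 ∈ W0, ∃ y1 ∈ W1, y0 ∈ S.Oall ∧ y1 ∈ S.Oall ∧ e • μ = y0 + y1 :=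
  ResBall.exists_common_denominator_sup S.ball_approx W0 W1

/-- **The two-lattice lemma** (form of `Red/TwoLattice.lean`). -/
theorem exists_ne_zero_mem_inf_all (W0 W1 : Submodule K F)
    [FiniteDimensional K W0] [FiniteDimensional K W1] {t : K} (ht : IsModulus A t)
    (h : ∀ a : K, a ∈ A → a ≠ 0 → ∃ h0 ∈ W0, ∃ h1 ∈ W1, ∃ μ ∈ S.Oall,
      h0 ∈ S.Oall ∧ S.resAll h0 ≠ 0 ∧ h0 - h1 = a • μ) :
    ∃ s, s ∈ W0 ∧ s ∈ W1 ∧ s ≠ 0 := by
  refine ResBall.exists_ne_zero_mem_inf (B := S.ball) S.ball_approx W0 W1 ht ?_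
  intro a haA ha0
  obtain ⟨h0, hh0, h1, hh1, μ, hμ, hh0O, hres, hrel⟩ := h a haA ha0
  exact ⟨h0, hh0, h1, hh1, μ, hμ, hh0O, by rw [S.ball_resF hh0O]; exact hres, hrel⟩

/-- **Boundedness** of a linear map on a finite-dimensional subspace. -/
theorem exists_bound_linearMap_all (V : Submodule K F) [FiniteDimensional K V]
    (ψ : F →ₗ[K] F) :
    ∃ δ : K, δ ∈ A ∧ δ ≠ 0 ∧ ∀ y ∈ V, y ∈ S.Oall → δ • ψ y ∈ S.Oall :=
  ResBall.exists_bound_linearMap S.ball_approx V ψ

/-- **The two-lattice lemma** (form of `Red/Ending.lean`). -/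
theorem inf_ne_bot_of_forall_approx_all (W₀ W₁ : Submodule K F)
    [FiniteDimensional K W₀] [FiniteDimensional K W₁]
    {t : K} (ht : t ∈ A) (ht0 : t ≠ 0) (htu : t⁻¹ ∉ A)
    (h : ∀ a : K, a ∈ A → a ≠ 0 → a⁻¹ ∉ A → ∃ h₀ ∈ W₀, ∃ h₁ ∈ W₁, ∃ μ ∈ S.Oall,
      h₁ ∈ S.Oall ∧ S.resAll h₁ ≠ 0 ∧ h₀ - h₁ = a • μ) :
    W₀ ⊓ W₁ ≠ ⊥ := by
  refine ResBall.inf_ne_bot_of_forall_approx (B := S.ball) S.ball_approx W₀ W₁ ht ht0 htu ?_
  intro a haA ha0 hau
  obtain ⟨h₀, hh₀, h₁, hh₁, μ, hμ, hh₁O, hres, hrel⟩ := h a haA ha0 hau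
  exact ⟨h₀, hh₀, h₁, hh₁, μ, hμ, hh₁O, by rw [S.ball_resF hh₁O]; exact hres, hrel⟩

/-- **The two-lattice lemma**, in the exact shape of the hypothesis of
`SemistableSetup.twoLatticeProp_of_resAll` (`SS/Ending.lean`); a modulus `t` of `A` is needed
(the statement is false for the trivial valuation). -/
theorem twoLattice_resAll {t : K} (ht : IsModulus A t) :
    ∀ W₀ W₁ : Submodule K F, Module.Finite K W₀ → Module.Finite K W₁ →
      (∀ a : K, IsModulus A a → ∃ h₀ ∈ W₀, ∃ h₁ ∈ W₁, ∃ μ ∈ S.Oall,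
        h₁ ∈ S.Oall ∧ S.resAll h₁ ≠ 0 ∧ h₀ - h₁ = a • μ) → W₀ ⊓ W₁ ≠ ⊥ := by
  intro W₀ W₁ hW₀ hW₁ h
  have : FiniteDimensional K W₀ := hW₀
  have : FiniteDimensional K W₁ := hW₁
  exact S.inf_ne_bot_of_forall_approx_all W₀ W₁ ht.mem ht.ne_zero ht.inv_not_mem
    fun a haA ha0 hau => h a ⟨haA, ha0, hau⟩

end TwoLattice

end SemistableSetup

end Fermat.Agent.BR.SS
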