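import Fermat.Agent.BR.SS.ChartInst
import Fermat.Agent.BR.SS.Push

/-!
# Program B (BADRED), block B3, node B3.7 (part 4): the ending in a `SemistableSetup`

Instantiation of `SS/EndingGen.lean` at the unit ball `S.Oall`, in residue language.

* `S.approxProp_of_approxAll` : the joint best approximation (`approxAll`, node B3.MA) in the
  residue-free form `ApproxProp A S.Oall`;
* `S.twoLatticeProp_of_resAll` : the two-lattice lemma in residue form (B3.2) gives
  `TwoLatticeProp A S.Oall`;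
* `S.liftProp_of_liftLarge` : the lifting property `LiftProp` from the two inputs of B3.4:
  (upper half) residues of functions of `Oall` regular outside `Zᵢ` up to `E` are regular outside
  the reduction of `Zᵢ` up to `push E` and match at the nodes; (lower half, `LiftLarge`) every
  matching family in `L(push (D + E))` lifts to `L(D + E) ∩ Oall`;
* `S.exists_lift_mod`, `S.mem_principal_of_forall_approx` : ports of `Red.Ending.exists_lift_mod`
  and `Red.Ending.mem_principal_of_forall_approx`.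
-/

set_option autoImplicit false

namespace Fermat.Agent.BR.SS

open AlgebraicCurve Fermat.Agent.Red

variable {K F k : Type*} [Field K] [Field F] [Algebra K F] [Field k]
  {A : ValuationSubring K} {π : A →+* k} {ι : Type*} {Ft : ι → Type*}
  [∀ v, Field (Ft v)] [∀ v, Algebra k (Ft v)] {ν : Type*}

namespace SemistableSetup

variable (S : SemistableSetup (F := F) A π ι Ft ν)

/-- The joint best approximation in residue form (exact shape of `SemistableSetup.approxAll`,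
node B3.MA) gives the residue-free form. -/
theorem approxProp_of_approxAll [Finite ι] [Nonempty ι]
    (h : ∀ V : Submodule K F, Module.Finite K V → ∀ y : F, y ∉ V → ∃ w ∈ V, ∃ c : K, c ≠ 0 ∧
      ∃ _ : c • (y - w) ∈ S.Oall, ∀ z : S.Oall, (z : F) ∈ V →
        S.resAll z ≠ S.resAll (c • (y - w))) :
    ApproxProp A S.Oall := by
  intro V hV y hy
  obtain ⟨w, hw, c, hc, hmem, hne⟩ := h V hV y hy
  exact ⟨w, hw, c, hc, hmem, fun z hz hzV hsmall =>
    hne ⟨z, hz⟩ hzV ((S.isSmall_sub_iff hz hmem).mp hsmall)⟩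

/-- The two-lattice lemma in residue form gives the residue-free form. -/
theorem twoLatticeProp_of_resAll [Finite ι] [Nonempty ι]
    (h : ∀ W₀ W₁ : Submodule K F, Module.Finite K W₀ → Module.Finite K W₁ →
      (∀ a : K, IsModulus A a → ∃ h₀ ∈ W₀, ∃ h₁ ∈ W₁, ∃ μ ∈ S.Oall,
        h₁ ∈ S.Oall ∧ S.resAll h₁ ≠ 0 ∧ h₀ - h₁ = a • μ) → W₀ ⊓ W₁ ≠ ⊥) :
    TwoLatticeProp A S.Oall := by
  intro W₀ W₁ hW₀ hW₁ hyp
  refine h W₀ W₁ hW₀ hW₁ fun a ha => ?_
  obtain ⟨h₀, hh₀, h₁, hh₁, μ, hμ, h₁O, hns, e⟩ := hyp a ha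
  exact ⟨h₀, hh₀, h₁, hh₁, μ, hμ, h₁O, fun h0 => hns ((S.isSmall_iff h₁O).mpr h0), e⟩

/-- The reduction on the component `v` of a set of places. -/
def redSet (Z : Set (Place K F)) (v : ι) : Set (Place k (Ft v)) :=
  {Q | ∃ P ∈ Z, S.r P = ⟨v, Q⟩}

/-- **The lifting property from the two halves of B3.4.** -/
theorem liftProp_of_liftLarge [Finite ι] [Nonempty ι] (Z₁ Z₂ : Set (Place K F))
    (D E : Divisor K F) (hdisj : ∀ P₁ ∈ Z₁, ∀ P₂ ∈ Z₂, S.r P₁ ≠ S.r P₂)
    (hpushD : ∀ v, S.push D v = 0)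
    (hupper₁ : ∀ y ∈ S.Oall, y ∈ regularOutside Z₁ E →
      (∀ v, S.resF v y ∈ regularOutside (S.redSet Z₁ v) (S.push E v)) ∧ S.MatchAt (S.resAll y))
    (hupper₂ : ∀ y ∈ S.Oall, y ∈ regularOutside Z₂ E →
      (∀ v, S.resF v y ∈ regularOutside (S.redSet Z₂ v) (S.push E v)) ∧ S.MatchAt (S.resAll y))
    (hlift : ∀ t : ∀ v, Ft v, (∀ v, t v ∈ riemannRochSpace (S.push (D + E) v)) → S.MatchAt t →
      ∃ y ∈ riemannRochSpace (D + E), y ∈ S.Oall ∧ S.resAll y = t) :
    LiftProp A S.Oall Z₁ Z₂ D E := by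
  intro x hx hxreg x' hx' hx'reg hsmall
  have heq : S.resAll x = S.resAll x' := (S.isSmall_sub_iff hx hx').mp hsmall
  obtain ⟨h1, hm⟩ := hupper₁ x hx hxreg
  obtain ⟨h2, -⟩ := hupper₂ x' hx' hx'reg
  have hmem : ∀ v, S.resAll x v ∈ riemannRochSpace (S.push (D + E) v) := by
    intro v Q
    rw [S.push_add, hpushD v, zero_add]
    by_cases hQ : Q ∈ S.redSet Z₁ v
    · have hQ2 : Q ∉ S.redSet Z₂ v := by
        rintro ⟨P₂, hP₂, hr₂⟩
        obtain ⟨P₁, hP₁, hr₁⟩ := hQ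
        exact hdisj P₁ hP₁ P₂ hP₂ (hr₁.trans hr₂.symm)
      have := h2 v Q hQ2
      rwa [← resAll_apply, ← heq, resAll_apply] at this
    · exact h1 v Q hQ
  obtain ⟨y, hyL, hyO, hy⟩ := hlift (S.resAll x) hmem hm
  exact ⟨y, hyL, hyO, (S.isSmall_sub_iff hyO hx).mpr hy⟩

/-- **Lift lemma** in a semistable setup (port of `Red.Ending.exists_lift_mod`). -/
theorem exists_lift_mod [Finite ι] [Nonempty ι] (hF : RiemannPkg K F)
    (happrox : ApproxProp A S.Oall)
    (Z1 Z2 : Set (Place K F)) (D E : Divisor K F) (hE : 0 ≤ E)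
    (hD0 : ∀ P : Place K F, P ∉ Z1 → D P = 0)
    (g2 : F) (hg2 : g2 ∈ S.Oall) (hg2r : S.resAll g2 = 1)
    (hord : ∀ P : Place K F, P ∉ Z2 → P.ord g2 = - D P)
    (hlift : LiftProp A S.Oall Z1 Z2 D E)
    (β1 β2 : F) (hβ1 : β1 ∈ chartOf S.Oall Z1) (hβ2 : β2 ∈ chartOf S.Oall Z2)
    (a : K) (ha0 : a ≠ 0) (w' : F) (hw' : w' ∈ S.Oall)
    (hrel : g2 * β2 - β1 = a • w') :
    ∃ h ∈ riemannRochSpace (D + E), ∃ μ ∈ S.Oall, β1 - h = a • μ := by
  have hg2i : g2⁻¹ ∈ S.Oall := S.inv_mem_Oall fun v => by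
    have : S.resF v g2 = 1 := congrFun hg2r v
    rw [this]
    exact one_ne_zero
  have hg2s : IsSmall A S.Oall (g2 - 1) :=
    (S.isSmall_sub_iff hg2 S.Oall.one_mem).mpr (by rw [hg2r, S.resAll_one])
  exact exists_lift_mod_gen hF S.Oall (fun _ ha => S.algebraMap_mem ha) happrox Z1 Z2 D E hE hD0
    g2 hg2i hg2s hord hlift β1 β2 hβ1 hβ2 a ha0 w' hw' hrel

/-- **The ending** in a semistable setup (port of `Red.Ending.mem_principal_of_forall_approx`).
`D` of degree zero, chart data `Z1 ⊇ supp D`, `Z2`, `g₂` (all residues `1`, `div g₂ = -D` outside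
`Z2`), two effective divisors `E₀`, `E₁` with disjoint supports having the lifting property: if
`g₂` admits approximate sections modulo every modulus (output of `S.r3_output`), then `D` is
principal. -/
theorem mem_principal_of_forall_approx [Finite ι] [Nonempty ι] (hF : RiemannPkg K F)
    (happrox : ApproxProp A S.Oall) (htwo : TwoLatticeProp A S.Oall)
    (D : Divisor K F) (hdeg : Divisor.degree D = 0)
    (Z1 Z2 : Set (Place K F)) (hD0 : ∀ P : Place K F, P ∉ Z1 → D P = 0)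
    (g2 : F) (hg2 : g2 ∈ S.Oall) (hg2r : S.resAll g2 = 1)
    (hord : ∀ P : Place K F, P ∉ Z2 → P.ord g2 = - D P)
    (E₀ E₁ : Divisor K F) (hE₀ : 0 ≤ E₀) (hE₁ : 0 ≤ E₁) (hE : ∀ P, E₀ P = 0 ∨ E₁ P = 0)
    (hlift₀ : LiftProp A S.Oall Z1 Z2 D E₀) (hlift₁ : LiftProp A S.Oall Z1 Z2 D E₁)
    (hR3 : ∀ a : K, IsModulus A a → ∃ β1 ∈ chartOf S.Oall Z1, ∃ β2 ∈ chartOf S.Oall Z2,
      ∃ w ∈ S.Oall, S.resAll β1 = 1 ∧ g2 * β2 - β1 = a • w) :
    D ∈ Divisor.principal (K := K) (F := F) := by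
  have hg2i : g2⁻¹ ∈ S.Oall := S.inv_mem_Oall fun v => by
    have : S.resF v g2 = 1 := congrFun hg2r v
    rw [this]
    exact one_ne_zero
  have hg2s : IsSmall A S.Oall (g2 - 1) :=
    (S.isSmall_sub_iff hg2 S.Oall.one_mem).mpr (by rw [hg2r, S.resAll_one])
  refine mem_principal_of_forall_approx_gen hF S.Oall (fun _ ha => S.algebraMap_mem ha) happrox
    htwo D hdeg Z1 Z2 hD0 g2 hg2i hg2s hord E₀ E₁ hE₀ hE₁ hE hlift₀ hlift₁ fun a ha => ?_
  obtain ⟨β1, hβ1, β2, hβ2, w, hw, hres, hrel⟩ := hR3 a ha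
  refine ⟨β1, hβ1, β2, hβ2, w, hw, fun hsmall => ?_, hrel⟩
  have h0 := S.resAll_eq_zero_of_isSmall hsmall
  rw [hres] at h0
  obtain ⟨v⟩ := ‹Nonempty ι›
  exact one_ne_zero (congrFun h0 v)

end SemistableSetup

end Fermat.Agent.BR.SS
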