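/-
Program B (bad reduction), block B3, node B3.4 (lower half, assembly; helper19): the lifting
lemma `LiftLarge S` from the lattice layer.

* `ResRank S` : **(R0b) in residue language** — for every finite-dimensional `K`-subspace `V` of
  `F` the residue tuples of `V ∩ Oall` form a `k`-subspace of `∀ v, Ft v` of dimension `dim_K V`
  (the output of the lattice layer for the ball `Oall` with residues `resAll`, from `S.approxAll`).
* `finite_gluedRR` : the glued Riemann–Roch space is finite-dimensional.
* `liftLarge_of_resRank` : `ResRank S` + genus hypothesis of `MainStatement` ⟹ `LiftLarge S`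
  (upper half `S.resAll_mem_gluedRR` of `BR/SS/ChartRed`, nodal Riemann count
  `S.finrank_gluedRR_of_genus` of `BR/SS/GlueOfSetup`, Riemann's theorem on the generic fibre).
-/
import Mathlib
import Fermat.Agent.BR.SS.NormalForm
import Fermat.Agent.BR.SS.ChartRed

set_option autoImplicit false

namespace Fermat.Agent.BR.GlueG

open AlgebraicCurve Fermat.Agent.Red

variable {k : Type*} [Field k] {V : Type*} {Ft : V → Type*} [∀ v, Field (Ft v)]
  [∀ v, Algebra k (Ft v)] {E : Type*}

/-- The glued Riemann–Roch space is finite-dimensional. -/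
theorem finite_gluedRR [Finite V] (hFt : ∀ v, RiemannPkg k (Ft v)) (n : GraphNodes k Ft E)
    (D : ∀ v, Divisor k (Ft v))
    (hD : ∀ e, D (n.b e).1 (n.b e).2 = 0 ∧ D (n.b' e).1 (n.b' e).2 = 0) :
    Module.Finite k (gluedRR n D) := by
  have hfin : ∀ v, Module.Finite k ↥(riemannRochSpace (D v)) := fun v => (hFt v).finite_L (D v)
  have : Module.Finite k ↥(LinearMap.ker (deltaRR n D hD)) := inferInstance
  exact Module.Finite.equiv (gluedRREquivKer n D hD).symm

end Fermat.Agent.BR.GlueG

namespace Fermat.Agent.BR.SS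

open AlgebraicCurve Fermat.Agent.Red Fermat.Agent.BR.GlueG

variable {K F k : Type*} [Field K] [Field F] [Algebra K F] [Field k]
  {A : ValuationSubring K} {π : A →+* k} {ι : Type*} {Ft : ι → Type*}
  [∀ v, Field (Ft v)] [∀ v, Algebra k (Ft v)] {ν : Type*}

/-- **(R0b) in residue language**: the residue tuples of `V ∩ Oall` form a `k`-subspace of
dimension `dim_K V`, for every finite-dimensional subspace `V` of `F`. -/
def ResRank (S : SemistableSetup (F := F) A π ι Ft ν) : Prop :=
  ∀ V : Submodule K F, Module.Finite K V → ∃ W : Submodule k (∀ v, Ft v),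
    (∀ t, t ∈ W ↔ ∃ y ∈ V, y ∈ S.Oall ∧ S.resAll y = t) ∧
      Module.finrank k W = Module.finrank K V

namespace SemistableSetup

variable (S : SemistableSetup (F := F) A π ι Ft ν)

/-- **The lifting lemma (L).** Under the genus hypothesis of `MainStatement`, in large
multidegree every matching family of `L((r_* E)_v)` is the residue tuple of an element of
`L(E) ∩ Oall` (`E` supported on smooth places). -/
theorem liftLarge_of_resRank [Fintype ι] [Nonempty ι] [Fintype ν] (hF : RiemannPkg K F)
    (hFt : ∀ v, RiemannPkg k (Ft v))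
    (hg : (genusFF K F : ℤ) =
      ∑ v, (genusFF k (Ft v) : ℤ) + Fintype.card ν - Fintype.card ι + 1)
    (hR : ResRank S) : LiftLarge S := by
  classical
  have hdeg : ∀ v (Q : Place k (Ft v)), Q.deg = 1 := fun v Q => (hFt v).deg_one Q
  obtain ⟨c₁, hc₁⟩ := S.finrank_gluedRR_of_genus hFt hg
  obtain ⟨cF, hcF⟩ := hF.riemann_eq
  refine ⟨fun v => max (c₁ v) |cF|, fun E hE hc t htL htM => ?_⟩
  -- the push-forward avoids the branches
  have hoff : ∀ e, S.push E (S.src e) (S.s₁ e) = 0 ∧ S.push E (S.tgt e) (S.s₂ e) = 0 :=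
    fun e => ⟨S.push_apply_src hE e, S.push_apply_tgt hE e⟩
  -- the degree of `E` is large
  have hsum : ∑ v, Divisor.degree (S.push E v) = Divisor.degree E := S.sum_degree_push hF hFt E
  have hEdeg : cF ≤ Divisor.degree E := by
    rw [← hsum]
    obtain ⟨v₀⟩ := ‹Nonempty ι›
    have h1 : ∀ v ∈ (Finset.univ : Finset ι), (0 : ℤ) ≤ Divisor.degree (S.push E v) :=
      fun v _ => (abs_nonneg cF).trans ((le_max_right _ _).trans (hc v))
    have h2 : Divisor.degree (S.push E v₀) ≤ ∑ v, Divisor.degree (S.push E v) :=
      Finset.single_le_sum h1 (Finset.mem_univ v₀)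
    exact (le_abs_self cF).trans (((le_max_right _ _).trans (hc v₀)).trans h2)
  -- the two dimensions
  have hdimK : (Module.finrank K (riemannRochSpace E) : ℤ) =
      Divisor.degree E + 1 - (genusFF K F : ℤ) := hcF E hEdeg
  have hdimk : (Module.finrank k
      (gluedRR (S.graphNodes fun v Q => (hFt v).deg_one Q) (S.push E)) : ℤ) =
      (∑ v, Divisor.degree (S.push E v)) + 1 - (genusFF K F : ℤ) :=
    hc₁ (S.push E) hoff fun v => (le_max_left _ _).trans (hc v)
  -- the residue space
  obtain ⟨W, hW, hWrank⟩ := hR (riemannRochSpace E) (hF.finite_L E)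
  have hle : W ≤ gluedRR (S.graphNodes fun v Q => (hFt v).deg_one Q) (S.push E) := by
    intro s hs
    obtain ⟨y, hy, hyO, rfl⟩ := (hW s).mp hs
    exact S.resAll_mem_gluedRR hF hdeg hyO hy hE
  have hfin : Module.Finite k (gluedRR (S.graphNodes fun v Q => (hFt v).deg_one Q) (S.push E)) :=
    finite_gluedRR hFt _ _ hoff
  have hrank : Module.finrank k W =
      Module.finrank k (gluedRR (S.graphNodes fun v Q => (hFt v).deg_one Q) (S.push E)) := by
    have : (Module.finrank k W : ℤ) = (Module.finrank k
        (gluedRR (S.graphNodes fun v Q => (hFt v).deg_one Q) (S.push E)) : ℤ) := by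
      rw [hWrank, hdimK, hdimk, hsum]
    exact_mod_cast this
  have heq : W = gluedRR (S.graphNodes fun v Q => (hFt v).deg_one Q) (S.push E) :=
    Submodule.eq_of_le_of_finrank_eq hle hrank
  have ht : t ∈ W := by
    rw [heq]
    exact S.mem_gluedRR_of_forall_isValueAt hdeg htL htM
  exact (hW t).mp ht

end SemistableSetup

end Fermat.Agent.BR.SS
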