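import Mathlib
import Fermat.Agent.BR.SS.MainKernel
import Fermat.Agent.BR.SS.ConstProp
import Fermat.Agent.BR.SS.DataProp
import Fermat.Agent.BR.SS.LiftLarge
import Fermat.Agent.BR.SS.Lattice

/-!
# Program B (BADRED), block B3: THE MAIN THEOREM OF B3

`mainStatement S : MainStatement S` for every semistable setup `S` (`SS/Setup.lean`), with no
remaining hypothesis: if `K`, `k` are algebraically closed, `A` has rank one, `F/K` and all
`Ft v / k` satisfy Riemann's theorem and `g(F) = Σ_v g(Ft v) + |ν| - |ι| + 1`, then a divisor `D`
with smooth reduction such that `m D` is principal (`m` prime to the residue characteristic) and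
whose reduction is principal on the nodal special fibre is principal (`NoTorsionInKernel S`).

Assembly of
* `noTorsionInKernel_of_normalForm` (`SS/NormalForm`), `normalFormKernel_of_inputs`
  (`SS/MainKernel`);
* input (1) `S.approxProp` and input (6) `S.constLemmaProp` (`SS/ConstProp`, from `S.approxAll`,
  `SS/MultiApprox`, and `SS/Const`);
* input (2) `S.twoLattice_resAll` and the rank statement `S.finrank_resSpaceAll` (`SS/Lattice`);
* input (3) `S.liftLarge_of_resRank` (`SS/LiftLarge`);
* input (4) `S.upper_of_smooth` (`SS/ChartRed`);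
* input (5) `S.normalFormDataProp_of_liftLarge` (`SS/DataProp`).

The two-lattice lemma needs a modulus of `A` (a nonzero non-unit); when `A` has none (trivial
valuation) the normal-form statement is trivial: saturation forces `f = 1`, hence `m D = 0`.
-/

set_option autoImplicit false

namespace Fermat.Agent.BR.SS

open AlgebraicCurve Fermat.Agent.Red

variable {K F k : Type*} [Field K] [Field F] [Algebra K F] [Field k]
  {A : ValuationSubring K} {π : A →+* k} {ι : Type*} {Ft : ι → Type*}
  [∀ v, Field (Ft v)] [∀ v, Algebra k (Ft v)] {ν : Type*}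

/-- The normal-form statement when `A` has no modulus (trivial valuation): then `resAll` is
injective on `Oall`, so `f = 1` and `m D = 0`. -/
theorem normalFormKernel_of_not_exists_isModulus [Finite ι] [Nonempty ι]
    (S : SemistableSetup (F := F) A π ι Ft ν) (hmod : ¬ ∃ t : K, IsModulus A t) :
    NormalFormKernel S := by
  intro m hm D _ _ hf
  obtain ⟨f, hfO, hfres, hfD⟩ := hf
  have hf1 : f = 1 := by
    by_contra hne
    have hx0 : f - 1 ≠ 0 := sub_ne_zero.mpr hne
    have hxO : f - 1 ∈ S.Oall := S.Oall.sub_mem hfO S.Oall.one_mem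
    have hres : S.resAll (f - 1) = 0 := by
      rw [S.resAll_sub hfO S.Oall.one_mem, S.resAll_one, sub_eq_zero]
      funext v
      exact hfres v
    obtain ⟨a, haA, ha0, hau, -⟩ := S.exists_smul_of_resAll_eq_zero hxO hx0 hres
    exact hmod ⟨a, haA, ha0, hau⟩
  have hm0 : m ≠ 0 := by
    rintro rfl
    exact hm (by simp)
  have hD0 : D = 0 := by
    ext P
    have h := hfD P
    rw [hf1, Place.ord_one, Finsupp.smul_apply, nsmul_eq_mul] at h
    rw [Finsupp.zero_apply]
    rcases mul_eq_zero.mp h with h | h
    · exact absurd (by exact_mod_cast h) hm0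
    · exact h
  rw [hD0]
  exact zero_mem _

/-- **The main theorem of B3.** -/
theorem mainStatement [Fintype ι] [Fintype ν] (S : SemistableSetup (F := F) A π ι Ft ν) :
    MainStatement S := by
  intro _ _ hA hF hFt hg
  obtain ⟨P⟩ := hF.infinite_places.nonempty
  have : Nonempty ι := ⟨(S.r P).1⟩
  have := hF.principal
  have hπ : Function.Surjective π := S.pi_surjective hF hFt
  have hR : ResRank S := fun V hV => by
    have : FiniteDimensional K V := hV
    exact ⟨S.resSpaceAll hπ V, fun t => S.mem_resSpaceAll hπ, S.finrank_resSpaceAll hπ V⟩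
  have hlift : LiftLarge S := S.liftLarge_of_resRank hF hFt hg hR
  refine noTorsionInKernel_of_normalForm S hF hFt hlift ?_
  by_cases hmod : ∃ t : K, IsModulus A t
  · obtain ⟨t, ht⟩ := hmod
    exact S.normalFormKernel_of_inputs hA hF hFt S.approxProp
      (S.twoLatticeProp_of_resAll (S.twoLattice_resAll ht)) hlift
      (fun _ _ hZ hE => S.upper_of_smooth hF hZ hE)
      (S.normalFormDataProp_of_liftLarge hF hFt hlift) (S.constLemmaProp hF hFt)
  · exact normalFormKernel_of_not_exists_isModulus S hmod

end Fermat.Agent.BR.SS
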