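/-
Program B (bad reduction), block B3 (helper19): semicontinuity of the genus for a semistable
setup, **without** genus hypothesis:

  `p_a = Σ_v g(Ft v) + |ν| - |ι| + 1 ≤ g(F)`,

i.e. `|ν| ≤ g(F) - Σ_v g(Ft v) + |ι| - 1` (upper bound for the number of nodes).

Ingredients: the lattice input `ResRank S` (`BR/SS/LiftLarge`), the upper half
`S.resAll_mem_gluedRR` (`BR/SS/ChartRed`), the nodal Riemann count `GlueG.finrank_gluedRR`
(`BR/GluedRR`), Riemann's theorem on the generic fibre and a smooth effective divisor of large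
multidegree (`S.exists_effective_smooth`, `BR/SS/NormalForm`).
-/
import Mathlib
import Fermat.Agent.BR.SS.LiftLarge

set_option autoImplicit false

namespace Fermat.Agent.BR.SS

open AlgebraicCurve Fermat.Agent.Red Fermat.Agent.BR.GlueG

variable {K F k : Type*} [Field K] [Field F] [Algebra K F] [Field k]
  {A : ValuationSubring K} {π : A →+* k} {ι : Type*} {Ft : ι → Type*}
  [∀ v, Field (Ft v)] [∀ v, Algebra k (Ft v)] {ν : Type*}

namespace SemistableSetup

variable (S : SemistableSetup (F := F) A π ι Ft ν)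

/-- **Semicontinuity of the genus**: the arithmetic genus of the special fibre is at most the
genus of the generic fibre. -/
theorem arithGenus_le [Fintype ι] [Nonempty ι] [Fintype ν] (hF : RiemannPkg K F)
    (hFt : ∀ v, RiemannPkg k (Ft v)) (hR : ResRank S) :
    ∑ v, (genusFF k (Ft v) : ℤ) + Fintype.card ν - Fintype.card ι + 1 ≤ (genusFF K F : ℤ) := by
  classical
  have := hF.principal
  have hdeg : ∀ v (Q : Place k (Ft v)), Q.deg = 1 := fun v Q => (hFt v).deg_one Q
  obtain ⟨c₁, hc₁⟩ := finrank_gluedRR hFt (S.graphNodes hdeg)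
  obtain ⟨cF, hcF⟩ := hF.riemann_eq
  -- a uniform bound
  obtain ⟨m, hm⟩ : ∃ m : ℕ, ∀ v, (c₁ v).toNat ≤ m :=
    ⟨Finset.univ.sup' Finset.univ_nonempty fun v => (c₁ v).toNat,
      fun v => Finset.le_sup' (fun v => (c₁ v).toNat) (Finset.mem_univ v)⟩
  obtain ⟨N, hN, hNF⟩ : ∃ N : ℕ, (∀ v, c₁ v ≤ (N : ℤ)) ∧ cF ≤ (N : ℤ) := by
    refine ⟨m + cF.toNat, fun v => ?_, ?_⟩
    · have h1 := hm v
      have h2 := Int.self_le_toNat (c₁ v)
      rw [Nat.cast_add]
      omega
    · have h2 := Int.self_le_toNat cF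
      rw [Nat.cast_add]
      omega
  obtain ⟨P₀, E, -, hP₀sm, -, -, hEsupp, -, hEdeg⟩ :=
    S.exists_effective_smooth hFt (fun _ => N) ∅ Set.finite_empty
  have hE : ∀ P ∈ E.support, S.IsSmoothPlace P := by
    intro P hP
    obtain ⟨v, rfl⟩ := hEsupp P hP
    exact hP₀sm v
  have hoff : ∀ e, S.push E (S.src e) (S.s₁ e) = 0 ∧ S.push E (S.tgt e) (S.s₂ e) = 0 :=
    fun e => ⟨S.push_apply_src hE e, S.push_apply_tgt hE e⟩
  have hsum : ∑ v, Divisor.degree (S.push E v) = Divisor.degree E := S.sum_degree_push hF hFt E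
  have hEdegF : cF ≤ Divisor.degree E := by
    rw [← hsum]
    obtain ⟨v₀⟩ := ‹Nonempty ι›
    have h1 : ∀ v ∈ (Finset.univ : Finset ι), (0 : ℤ) ≤ Divisor.degree (S.push E v) := by
      intro v _
      rw [hEdeg v]
      exact Int.natCast_nonneg N
    have h2 : Divisor.degree (S.push E v₀) ≤ ∑ v, Divisor.degree (S.push E v) :=
      Finset.single_le_sum h1 (Finset.mem_univ v₀)
    rw [hEdeg v₀] at h2
    exact hNF.trans h2
  have hdimK : (Module.finrank K (riemannRochSpace E) : ℤ) =
      Divisor.degree E + 1 - (genusFF K F : ℤ) := hcF E hEdegF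
  have hdimk : (Module.finrank k (gluedRR (S.graphNodes hdeg) (S.push E)) : ℤ) =
      (∑ v, Divisor.degree (S.push E v)) + Fintype.card ι - (∑ v, (genusFF k (Ft v) : ℤ)) -
        Fintype.card ν :=
    hc₁ (S.push E) hoff fun v => by rw [hEdeg v]; exact hN v
  obtain ⟨W, hW, hWrank⟩ := hR (riemannRochSpace E) (hF.finite_L E)
  have hle : W ≤ gluedRR (S.graphNodes hdeg) (S.push E) := by
    intro s hs
    obtain ⟨y, hy, hyO, rfl⟩ := (hW s).mp hs
    exact S.resAll_mem_gluedRR hF hdeg hyO hy hE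
  have hfin : Module.Finite k (gluedRR (S.graphNodes hdeg) (S.push E)) :=
    finite_gluedRR hFt _ _ hoff
  have hmono := Submodule.finrank_mono hle
  have hmono' : (Module.finrank k W : ℤ) ≤
      (Module.finrank k (gluedRR (S.graphNodes hdeg) (S.push E)) : ℤ) := by exact_mod_cast hmono
  rw [hWrank, hdimK, hdimk, hsum] at hmono'
  linarith

/-- Upper bound for the number of nodes. -/
theorem card_nodes_le [Fintype ι] [Nonempty ι] [Fintype ν] (hF : RiemannPkg K F)
    (hFt : ∀ v, RiemannPkg k (Ft v)) (hR : ResRank S) :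
    (Fintype.card ν : ℤ) ≤
      (genusFF K F : ℤ) - ∑ v, (genusFF k (Ft v) : ℤ) + Fintype.card ι - 1 := by
  have := S.arithGenus_le hF hFt hR
  linarith

end SemistableSetup

end Fermat.Agent.BR.SS
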