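import Fermat.Agent.BR.SS.Lattice
import Fermat.Agent.BR.SS.LiftLarge
import Fermat.Agent.BR.SS.MainKernel

/-!
# Program B (BADRED), block B3: the lattice inputs of `SS/MainKernel` and `SS/LiftLarge`

Adapters from the lattice layer (`SS/Lattice.lean`) to the hypothesis forms consumed by the
assembly of B3:

* `S.resRank hπ : ResRank S` ((R0b) in residue language, input of `liftLarge_of_resRank`,
  `card_nodes_le`, `arithGenus_le`);
* `S.twoLatticeProp ht : TwoLatticeProp A S.Oall` for a modulus `t` of `A` (input (2) of
  `normalFormKernel_of_inputs`).  `TwoLatticeProp` is false for the trivial valuation, hence: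
* `S.normalFormKernel_of_no_modulus` : if `A` has no modulus then `NormalFormKernel S` holds
  trivially (saturation makes `resAll` injective on `Oall`, so `f = 1` and `D = 0`);
* `S.normalFormKernel_of_inputs'` : `normalFormKernel_of_inputs` with the two lattice inputs
  discharged (both cases).
-/

set_option autoImplicit false

namespace Fermat.Agent.BR.SS

open AlgebraicCurve Fermat.Agent.Red

variable {K F k : Type*} [Field K] [Field F] [Algebra K F] [Field k]
  {A : ValuationSubring K} {π : A →+* k} {ι : Type*} {Ft : ι → Type*}
  [∀ v, Field (Ft v)] [∀ v, Algebra k (Ft v)] {ν : Type*}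

namespace SemistableSetup

variable (S : SemistableSetup (F := F) A π ι Ft ν) [Finite ι] [Nonempty ι]

/-- **(R0b) in residue language.** -/
theorem resRank (hπ : Function.Surjective π) : ResRank S := by
  intro V hV
  have : FiniteDimensional K V := hV
  exact ⟨S.resSpaceAll hπ V, fun _ => S.mem_resSpaceAll hπ, S.finrank_resSpaceAll hπ V⟩

/-- **The two-lattice lemma** in the residue-free form of `SS/EndingGen`, for a valuation ring
`A` with a modulus. -/
theorem twoLatticeProp {t : K} (ht : IsModulus A t) : TwoLatticeProp A S.Oall :=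
  S.twoLatticeProp_of_resAll (S.twoLattice_resAll ht)

/-- If `A` has no modulus (trivial valuation) the normal-form kernel statement is trivial:
`resAll` is injective on `Oall`, so `f = 1` and `D = 0`. -/
theorem normalFormKernel_of_no_modulus (h : ¬ ∃ t : K, IsModulus A t) : NormalFormKernel S := by
  intro m hm D _ _ hf
  obtain ⟨f, hfO, hfres, hfD⟩ := hf
  have hf1 : f = 1 := by
    by_contra hne
    have hx : f - 1 ∈ S.Oall := S.Oall.sub_mem hfO S.Oall.one_mem
    have hx0 : f - 1 ≠ 0 := sub_ne_zero.mpr hne
    have hres : S.resAll (f - 1) = 0 := by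
      rw [S.resAll_sub hfO S.Oall.one_mem, S.resAll_one, sub_eq_zero]
      funext v
      exact hfres v
    obtain ⟨a, haA, ha0, hau, -⟩ := S.exists_smul_of_resAll_eq_zero hx hx0 hres
    exact h ⟨a, haA, ha0, hau⟩
  have hm0 : (m : ℤ) ≠ 0 := by
    intro h0
    apply hm
    have : m = 0 := by exact_mod_cast h0
    rw [this, Nat.cast_zero]
  have hD : D = 0 := by
    ext P
    have h1 := hfD P
    rw [hf1, Place.ord_one, Finsupp.smul_apply, nsmul_eq_mul] at h1
    rw [Finsupp.zero_apply]
    rcases mul_eq_zero.mp h1 with h2 | h2
    · exact absurd h2 hm0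
    · exact h2
  rw [hD]
  exact zero_mem _

end SemistableSetup

/-- `normalFormKernel_of_inputs` with the two lattice inputs discharged. -/
theorem SemistableSetup.normalFormKernel_of_inputs' [Fintype ι] [Finite ν] [Nonempty ι]
    (S : SemistableSetup (F := F) A π ι Ft ν) (hA : IsRankOne A)
    (hF : RiemannPkg K F) (hFt : ∀ v, RiemannPkg k (Ft v)) (hlift : LiftLarge S)
    (hupper : S.UpperProp) (hdata : S.NormalFormDataProp) (hconst : S.ConstLemmaProp) :
    NormalFormKernel S := by
  by_cases h : ∃ t : K, IsModulus A t
  · obtain ⟨t, ht⟩ := h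
    exact S.normalFormKernel_of_inputs hA hF hFt (S.approxProp_of_approxAll S.approxAll)
      (S.twoLatticeProp ht) hlift hupper hdata hconst
  · exact S.normalFormKernel_of_no_modulus h

end Fermat.Agent.BR.SS
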