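/-
Program B (bad reduction), block B3, node B3.4a (helper19): charts and values for a semistable
setup (port of `Red/Charts.lean`, `Red/RRReduction.lean` (first half) and the `RedSetup` part of
`Red/Values.lean` to `BR/SS/Setup`).

* `S.redSet Z v` : the part of `r '' Z` on the component `v` (the part `S.push E v` of `r_* E`
  is in `BR/SS/Push`).
* `S.mapDomain_div_apply` : conservation in `resF` form (smooth points of one component).
* `S.node_isValueAt` : matching at the nodes for functions regular on the annuli.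
* `S.resF_mem_regularOutside`, `S.resAll_mem_gluedRR`, `S.resAll_mem_gluedRegularG` :
  reduction maps `Oall ∩ regularOutside Z E` into the glued space of the push-forward.
* the chart rings are `chartOf S.Oall Z = Oall ⊓ regularRing Z` of `BR/SS/ChartGen`.
* values at smooth places: `S.adicValuation_resF_lt_one`, `S.mem_of_isValueAt`,
  `S.isValueAt_resF`, `S.evalAt_resF`, `S.evalAt_mem`.
-/
import Mathlib
import Fermat.Agent.BR.SS.Push
import Fermat.Agent.BR.SS.GlueOfSetup
import Fermat.Agent.BR.SS.ChartGen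

set_option autoImplicit false

namespace Fermat.Agent.BR.SS

open AlgebraicCurve Fermat.Agent.Red Fermat.Agent.BR.GlueG

variable {K F k : Type*} [Field K] [Field F] [Algebra K F] [Field k]
  {A : ValuationSubring K} {π : A →+* k} {ι : Type*} {Ft : ι → Type*}
  [∀ v, Field (Ft v)] [∀ v, Algebra k (Ft v)] {ν : Type*}

namespace SemistableSetup

variable (S : SemistableSetup (F := F) A π ι Ft ν)

/-! ### Branch points, push-forward on a component -/

theorem not_isBranch_iff {x : Σ v, Place k (Ft v)} :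
    ¬ S.IsBranch x ↔ (∀ e, x ≠ ⟨S.src e, S.s₁ e⟩) ∧ (∀ e, x ≠ ⟨S.tgt e, S.s₂ e⟩) := by
  unfold IsBranch
  push Not
  exact ⟨fun h => ⟨fun e => (h e).1, fun e => (h e).2⟩, fun h e => ⟨h.1 e, h.2 e⟩⟩

theorem isBranch_src (e : ν) : S.IsBranch ⟨S.src e, S.s₁ e⟩ := ⟨e, Or.inl rfl⟩

theorem isBranch_tgt (e : ν) : S.IsBranch ⟨S.tgt e, S.s₂ e⟩ := ⟨e, Or.inr rfl⟩

/-- a place in the annulus of a node is not smooth -/
theorem not_isSmoothPlace_of_r_eq {P : Place K F} {e : ν} (h : S.r P = ⟨S.src e, S.s₁ e⟩) :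
    ¬ S.IsSmoothPlace P := fun hs => hs (h ▸ S.isBranch_src e)

/-- The part of `r '' Z` lying on the component `v`. -/
def redSet (Z : Set (Place K F)) (v : ι) : Set (Place k (Ft v)) :=
  {Q | (⟨v, Q⟩ : Σ v, Place k (Ft v)) ∈ S.r '' Z}

theorem mem_redSet {Z : Set (Place K F)} {v : ι} {Q : Place k (Ft v)} :
    Q ∈ S.redSet Z v ↔ ∃ P ∈ Z, S.r P = ⟨v, Q⟩ := Iff.rfl

theorem snd_r_mem_redSet {Z : Set (Place K F)} {P : Place K F} (hP : P ∈ Z) :
    (S.r P).2 ∈ S.redSet Z (S.r P).1 := ⟨P, hP, rfl⟩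

theorem snd_r_mem_redSet_iff {Z : Set (Place K F)} {P : Place K F} :
    (S.r P).2 ∈ S.redSet Z (S.r P).1 ↔ S.r P ∈ S.r '' Z := Iff.rfl

@[simp] theorem redSet_empty (v : ι) : S.redSet ∅ v = ∅ := by
  ext Q
  simp [redSet]

theorem redSet_mono {Z Z' : Set (Place K F)} (h : Z ⊆ Z') (v : ι) :
    S.redSet Z v ⊆ S.redSet Z' v := fun _ ⟨P, hP, hPQ⟩ => ⟨P, h hP, hPQ⟩

/-- smooth sets of places do not reduce to branch points -/
theorem not_isBranch_of_mem_redSet {Z : Set (Place K F)} (hZ : ∀ P ∈ Z, S.IsSmoothPlace P)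
    {v : ι} {Q : Place k (Ft v)} (hQ : Q ∈ S.redSet Z v) : ¬ S.IsBranch ⟨v, Q⟩ := by
  obtain ⟨P, hP, hPQ⟩ := hQ
  rw [← hPQ]
  exact hZ P hP

/-! ### Conservation and matching -/

/-- Conservation, in `resF` form: if `y` has nonzero residue on `v` and `D = div y` then
`r_* D = div (res_v y)` at the smooth points of `v`. -/
theorem mapDomain_div_apply {v : ι} {y : F} (hy : S.resF v y ≠ 0) (D : Divisor K F)
    (hD : ∀ P, D P = P.ord y) (Q : Place k (Ft v)) (hQ : ¬ S.IsBranch ⟨v, Q⟩) :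
    Finsupp.mapDomain S.r D ⟨v, Q⟩ = Q.ord (S.resF v y) := by
  have hyO := S.mem_of_resF_ne_zero hy
  have hQ' := S.not_isBranch_iff.mp hQ
  have h := S.conservation v ⟨y, hyO⟩ (by rwa [← S.resF_of_mem hyO]) D hD Q hQ'.1 hQ'.2
  rwa [← S.resF_of_mem hyO] at h

/-- **(C1), smooth points.** If `y ∈ regularOutside Z E` has nonzero residue on `v` then
`ord_Q (res_v y) ≥ -(r_* E)(Q)` at the smooth points `Q ∉ r(Z)` of `v`. -/
theorem neg_push_le_ord_resF (hF : RiemannPkg K F) {Z : Set (Place K F)} {E : Divisor K F}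
    {y : F} (hy : y ∈ regularOutside Z E) {v : ι} (h0 : S.resF v y ≠ 0) {Q : Place k (Ft v)}
    (hQ : ¬ S.IsBranch ⟨v, Q⟩) (hQZ : Q ∉ S.redSet Z v) :
    -(S.push E v Q) ≤ Q.ord (S.resF v y) := by
  have hy0 : y ≠ 0 := S.ne_zero_of_resF_ne_zero h0
  obtain ⟨D, hD, -⟩ := hF.principal.exists_divisor y hy0
  have hcons := S.mapDomain_div_apply h0 D hD Q hQ
  have h1 : 0 ≤ Finsupp.mapDomain S.r (D + E) ⟨v, Q⟩ := by
    apply mapDomain_apply_nonneg
    intro P hPQ
    have hPZ : P ∉ Z := fun hP => hQZ ⟨P, hP, hPQ⟩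
    rw [Finsupp.add_apply, hD P]
    have := ((mem_regularOutside_iff.mp hy) P hPZ).resolve_left hy0
    linarith
  rw [Finsupp.mapDomain_add, Finsupp.add_apply, hcons] at h1
  rw [push_apply]
  linarith

/-- **Matching at the nodes.** A function integral on all components, regular outside a set of
smooth places with poles bounded by a divisor supported on smooth places, reduces to a family
with equal values at the two branches of every node. -/
theorem node_isValueAt {Z : Set (Place K F)} {E : Divisor K F} {y : F} (hyO : y ∈ S.Oall)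
    (hy : y ∈ regularOutside Z E) (hZ : ∀ P ∈ Z, S.IsSmoothPlace P)
    (hE : ∀ P ∈ E.support, S.IsSmoothPlace P) (e : ν) :
    ∃ c : k, IsValueAt (S.s₁ e) (S.resF (S.src e) y) c ∧
      IsValueAt (S.s₂ e) (S.resF (S.tgt e) y) c := by
  have h₁ := S.mem_O_of_mem_Oall hyO (S.src e)
  have h₂ := S.mem_O_of_mem_Oall hyO (S.tgt e)
  rw [S.resF_of_mem h₁, S.resF_of_mem h₂]
  apply S.node_match e y h₁ h₂
  intro P hP
  have hns := S.not_isSmoothPlace_of_r_eq hP
  have hPZ : P ∉ Z := fun h => hns (hZ P h)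
  have hEP : E P = 0 := by
    by_contra h
    exact hns (hE P (Finsupp.mem_support_iff.mpr h))
  rcases (mem_regularOutside_iff.mp hy) P hPZ with rfl | h
  · rw [Place.ord_zero]
  · rw [hEP, neg_zero] at h
    exact h

/-- `node_isValueAt` in `MatchAt` form. -/
theorem matchAt_resAll_of_mem_regularOutside {Z : Set (Place K F)} {E : Divisor K F} {y : F}
    (hyO : y ∈ S.Oall) (hy : y ∈ regularOutside Z E) (hZ : ∀ P ∈ Z, S.IsSmoothPlace P)
    (hE : ∀ P ∈ E.support, S.IsSmoothPlace P) : S.MatchAt (S.resAll y) :=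
  fun e => S.node_isValueAt hyO hy hZ hE e

/-- **(C1)** Reduction maps `Oall ∩ regularOutside Z E` (`Z`, `E` smooth) into
`regularOutside (r(Z) ∩ v) ((r_* E)_v)` on every component `v`. -/
theorem resF_mem_regularOutside (hF : RiemannPkg K F) {Z : Set (Place K F)} {E : Divisor K F}
    {y : F} (hyO : y ∈ S.Oall) (hy : y ∈ regularOutside Z E)
    (hZ : ∀ P ∈ Z, S.IsSmoothPlace P) (hE : ∀ P ∈ E.support, S.IsSmoothPlace P) (v : ι) :
    S.resF v y ∈ regularOutside (S.redSet Z v) (S.push E v) := by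
  rw [mem_regularOutside_iff]
  intro Q hQ
  by_cases h0 : S.resF v y = 0
  · exact Or.inl h0
  right
  by_cases hb : S.IsBranch ⟨v, Q⟩
  · -- a branch point: regular by matching
    rw [S.push_apply_of_isBranch hE hb, neg_zero]
    have hle : Q.adicValuation (S.resF v y) ≤ 1 := by
      obtain ⟨e, he | he⟩ := hb
      · obtain ⟨c, hc, -⟩ := S.node_isValueAt hyO hy hZ hE e
        have hv : v = S.src e := congrArg Sigma.fst he
        subst hv
        have hQe : Q = S.s₁ e := eq_of_heq (Sigma.mk.inj he).2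
        rw [hQe]
        exact hc.adicValuation_le_one
      · obtain ⟨c, -, hc⟩ := S.node_isValueAt hyO hy hZ hE e
        have hv : v = S.tgt e := congrArg Sigma.fst he
        subst hv
        have hQe : Q = S.s₂ e := eq_of_heq (Sigma.mk.inj he).2
        rw [hQe]
        exact hc.adicValuation_le_one
    exact ((Q.adicValuation_le_one_iff).mp hle).resolve_left h0
  · exact S.neg_push_le_ord_resF hF hy h0 hb hQ

/-- `res (L(E) ∩ Oall) ⊆` the glued Riemann–Roch space of `r_* E` (`E` smooth). -/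
theorem resAll_mem_gluedRR (hF : RiemannPkg K F) (hdeg : ∀ v (Q : Place k (Ft v)), Q.deg = 1)
    {E : Divisor K F} {y : F} (hyO : y ∈ S.Oall) (hy : y ∈ riemannRochSpace E)
    (hE : ∀ P ∈ E.support, S.IsSmoothPlace P) :
    S.resAll y ∈ gluedRR (S.graphNodes hdeg) (S.push E) := by
  have hy' : y ∈ regularOutside (∅ : Set (Place K F)) E := by rwa [regularOutside_empty]
  have hZ : ∀ P ∈ (∅ : Set (Place K F)), S.IsSmoothPlace P := fun P hP => absurd hP (by simp)
  refine S.mem_gluedRR_of_forall_isValueAt hdeg (fun v => ?_)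
    (fun e => S.node_isValueAt hyO hy' hZ hE e)
  have := S.resF_mem_regularOutside hF hyO hy' hZ hE v
  rwa [redSet_empty, regularOutside_empty] at this

/-! ### Charts -/

theorem resF_mem_regularRing (hF : RiemannPkg K F) {Z : Set (Place K F)} {h : F}
    (hh : h ∈ chartOf S.Oall Z) (hZ : ∀ P ∈ Z, S.IsSmoothPlace P) (v : ι) :
    S.resF v h ∈ regularRing (S.redSet Z v) := by
  have h1 : h ∈ regularOutside Z (0 : Divisor K F) := mem_regularRing_iff_mem_regularOutside.mp hh.2
  have := S.resF_mem_regularOutside hF hh.1 h1 hZ (by simp) v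
  rw [mem_regularRing_iff_mem_regularOutside]
  rwa [push_zero] at this

/-- Reduction maps the chart ring `B_Z` (`Z` smooth) into the ring of functions on the open part
"complement of `r(Z)`" of the glued fibre. -/
theorem resAll_mem_gluedRegularG (hF : RiemannPkg K F)
    (hdeg : ∀ v (Q : Place k (Ft v)), Q.deg = 1) {Z : Set (Place K F)} {h : F}
    (hh : h ∈ chartOf S.Oall Z) (hZ : ∀ P ∈ Z, S.IsSmoothPlace P) :
    S.resAll h ∈ gluedRegularG (S.graphNodes hdeg) (S.redSet Z) := by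
  refine ⟨fun v => S.resF_mem_regularRing hF hh hZ v, fun e _ => ?_⟩
  have h1 : h ∈ regularOutside Z (0 : Divisor K F) := mem_regularRing_iff_mem_regularOutside.mp hh.2
  obtain ⟨c, hc1, hc2⟩ := S.node_isValueAt hh.1 h1 hZ (by simp) e
  show evalAt (S.s₁ e) (S.resF (S.src e) h) = evalAt (S.s₂ e) (S.resF (S.tgt e) h)
  rw [evalAt_eq_of_isValueAt hc1, evalAt_eq_of_isValueAt hc2]

/-! ### Values at smooth places -/

/-- **Key lemma** (conservation): if `y ∈ regularRing Z` vanishes at a smooth place `P`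
reducing to the component `v`, with `r P ∉ r(Z)`, then the reduction of `y` on `v` vanishes at
`r P` (no integrality hypothesis: `resF v y = 0` if `y ∉ O v`). -/
theorem adicValuation_resF_lt_one (hF : RiemannPkg K F) {Z : Set (Place K F)} {y : F}
    {P : Place K F} (hy : y ∈ regularRing Z)
    (hPs : S.IsSmoothPlace P) (hP : S.r P ∉ S.r '' Z) (hlt : P.adicValuation y < 1) :
    (S.r P).2.adicValuation (S.resF (S.r P).1 y) < 1 := by
  classical
  rw [adicValuation_lt_one_iff]
  by_cases h0 : S.resF (S.r P).1 y = 0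
  · exact Or.inl h0
  right
  have hy0 : y ≠ 0 := S.ne_zero_of_resF_ne_zero h0
  have hordP : 0 < P.ord y := ((adicValuation_lt_one_iff P).1 hlt).resolve_left hy0
  obtain ⟨D, hD, -⟩ := hF.principal.exists_divisor y hy0
  rw [← S.mapDomain_div_apply h0 D hD (S.r P).2 hPs, mapDomain_apply_eq_sum]
  have hPsupp : P ∈ D.support := by
    rw [Finsupp.mem_support_iff, hD P]
    omega
  refine lt_of_lt_of_le hordP (le_trans ?_ (Finset.single_le_sum (fun a _ => ?_) hPsupp))
  · rw [if_pos rfl, hD P]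
  · split_ifs with ha
    · have haZ : a ∉ Z := fun haZ => hP ⟨a, haZ, ha⟩
      rw [hD a]
      exact ((mem_regularRing_iff_ord.1 hy) a haZ).resolve_left hy0
    · exact le_rfl

/-- **(i) Integrality of values.** -/
theorem mem_of_isValueAt (hF : RiemannPkg K F) {Z : Set (Place K F)} {h : F} {P : Place K F}
    (hhO : h ∈ S.O (S.r P).1) (hh : h ∈ regularRing Z) (hPs : S.IsSmoothPlace P)
    (hP : S.r P ∉ S.r '' Z) {c : K} (hc : IsValueAt P h c) : c ∈ A := by
  by_contra hcA
  have hc0 : c ≠ 0 := fun h0 => hcA (h0 ▸ A.zero_mem)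
  obtain ⟨hmem, hres⟩ := S.resF_smul_eq_zero_of_not_mem (S.r P).1 hcA hhO
  have hyO : c⁻¹ • h - 1 ∈ S.O (S.r P).1 := sub_mem hmem (S.O _).one_mem
  have hyR : c⁻¹ • h - 1 ∈ regularRing Z :=
    sub_mem ((regularRing Z).smul_mem hh _) (one_mem _)
  have hyres : S.resF (S.r P).1 (c⁻¹ • h - 1) = -1 := by
    rw [S.resF_sub hmem (S.O _).one_mem, hres, S.resF_one, zero_sub]
  have hyval : P.adicValuation (c⁻¹ • h - 1) < 1 := by
    have h1 : c⁻¹ • h - 1 = algebraMap K F c⁻¹ * (h - algebraMap K F c) := by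
      rw [Algebra.smul_def, mul_sub, ← map_mul, inv_mul_cancel₀ hc0, map_one]
    rw [h1, map_mul, adicValuation_algebraMap_of_ne_zero P (inv_ne_zero hc0), one_mul]
    exact hc
  have := S.adicValuation_resF_lt_one hF hyR hPs hP hyval
  rw [hyres, Valuation.map_neg, map_one] at this
  exact lt_irrefl _ this

/-- **(ii) Compatibility of values with reduction.** -/
theorem isValueAt_resF (hF : RiemannPkg K F) {Z : Set (Place K F)} {h : F} {P : Place K F}
    (hhO : h ∈ S.O (S.r P).1) (hh : h ∈ regularRing Z) (hPs : S.IsSmoothPlace P)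
    (hP : S.r P ∉ S.r '' Z) {c : K} (hc : IsValueAt P h c) (hcA : c ∈ A) :
    IsValueAt (S.r P).2 (S.resF (S.r P).1 h) (π ⟨c, hcA⟩) := by
  have hcO : algebraMap K F c ∈ S.O (S.r P).1 := (S.algebraMap_mem_iff _ c).mpr hcA
  have hyO : h - algebraMap K F c ∈ S.O (S.r P).1 := sub_mem hhO hcO
  have hyR : h - algebraMap K F c ∈ regularRing Z := sub_mem hh ((regularRing Z).algebraMap_mem c)
  have := S.adicValuation_resF_lt_one hF hyR hPs hP hc
  rwa [S.resF_sub hhO hcO, S.resF_algebraMap _ hcA] at this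

/-- (ii), `evalAt` form. -/
theorem evalAt_resF (hF : RiemannPkg K F) {Z : Set (Place K F)} {h : F} {P : Place K F}
    (hhO : h ∈ S.O (S.r P).1) (hh : h ∈ regularRing Z) (hPs : S.IsSmoothPlace P)
    (hP : S.r P ∉ S.r '' Z) :
    ∃ hcA : evalAt P h ∈ A,
      evalAt (S.r P).2 (S.resF (S.r P).1 h) = π ⟨evalAt P h, hcA⟩ := by
  have hPZ : P ∉ Z := fun hPZ => hP ⟨P, hPZ, rfl⟩
  have hc := isValueAt_evalAt P (hF.deg_one P) (mem_toValuationSubring_of_mem_regularRing hh hPZ)
  have hcA := S.mem_of_isValueAt hF hhO hh hPs hP hc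
  exact ⟨hcA, evalAt_eq_of_isValueAt (S.isValueAt_resF hF hhO hh hPs hP hc hcA)⟩

/-- (i), `evalAt` form. -/
theorem evalAt_mem (hF : RiemannPkg K F) {Z : Set (Place K F)} {h : F} {P : Place K F}
    (hhO : h ∈ S.O (S.r P).1) (hh : h ∈ regularRing Z) (hPs : S.IsSmoothPlace P)
    (hP : S.r P ∉ S.r '' Z) : evalAt P h ∈ A :=
  (S.evalAt_resF hF hhO hh hPs hP).1

/-- values of elements of a chart ring, `evalAt` form -/
theorem evalAt_resF_of_mem_chart (hF : RiemannPkg K F) {Z : Set (Place K F)} {h : F}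
    (hh : h ∈ chartOf S.Oall Z) {P : Place K F} (hPs : S.IsSmoothPlace P) (hP : S.r P ∉ S.r '' Z) :
    ∃ hcA : evalAt P h ∈ A,
      evalAt (S.r P).2 (S.resAll h (S.r P).1) = π ⟨evalAt P h, hcA⟩ :=
  S.evalAt_resF hF (S.mem_O_of_mem_Oall hh.1 _) hh.2 hPs hP

end SemistableSetup

end Fermat.Agent.BR.SS
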