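import Mathlib
import Fermat.Agent.BR.SS.LiftLarge

/-!
# Program B (BADRED), block B3: semicontinuity of the arithmetic genus

For a semistable setup, WITHOUT the genus hypothesis of `MainStatement`:
`|ν| ≤ g(F) - Σ_v g(Ft v) + |ι| - 1`, i.e. `p_a(special fibre) ≤ g(generic fibre)`
(`SemistableSetup.card_nodes_le`).  Equivalently the genus hypothesis of `MainStatement` holds as
soon as the opposite inequality is known (`SemistableSetup.genus_eq_of_le`).

Proof: for an effective divisor `E` with smooth support and large multidegree,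
`deg E + 1 - g(F) = dim L(E) = dim res(L(E) ∩ Oall) ≤ dim gluedRR (push E)
  = deg E + |ι| - Σ g_v - |ν|`
(lattice input `ResRank S`, upper half `S.resAll_mem_gluedRR`, nodal Riemann count
`GlueG.finrank_gluedRR`).
-/

set_option autoImplicit false

namespace Fermat.Agent.BR.SS

open AlgebraicCurve Fermat.Agent.Red Fermat.Agent.BR.GlueG Module

variable {K F k : Type*} [Field K] [Field F] [Algebra K F] [Field k]
  {A : ValuationSubring K} {π : A →+* k} {ι : Type*} {Ft : ι → Type*}
  [∀ v, Field (Ft v)] [∀ v, Algebra k (Ft v)] {ν : Type*}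

namespace SemistableSetup

variable (S : SemistableSetup (F := F) A π ι Ft ν)

/-- **Semicontinuity of the arithmetic genus** (no genus hypothesis): the number of nodes is at
most `g(F) - Σ g_v + |ι| - 1`. -/
theorem card_nodes_le [Fintype ι] [Fintype ν] [Nonempty ι] (hR : ResRank S)
    (hF : RiemannPkg K F) (hFt : ∀ v, RiemannPkg k (Ft v)) :
    (Fintype.card ν : ℤ) ≤
      (genusFF K F : ℤ) - ∑ v, (genusFF k (Ft v) : ℤ) + Fintype.card ι - 1 := by
  classical
  have := hF.principal
  have hdeg : ∀ v (Q : Place k (Ft v)), Q.deg = 1 := fun v Q => (hFt v).deg_one Q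
  obtain ⟨c₀, hc₀⟩ := hF.riemann_eq
  obtain ⟨c, hc⟩ := finrank_gluedRR hFt (S.graphNodes hdeg)
  obtain ⟨P₀, E, -, hP₀s, -, -, hEsupp, -, hEdeg⟩ :=
    S.exists_effective_smooth hFt (fun v => (max (c v) (max c₀ 0)).toNat) ∅ Set.finite_empty
  have hE : ∀ P ∈ E.support, S.IsSmoothPlace P := by
    intro P hP
    obtain ⟨v, rfl⟩ := hEsupp P hP
    exact hP₀s v
  have hdegE : ∀ v, max (c v) (max c₀ 0) ≤ Divisor.degree (S.push E v) := fun v => by
    rw [hEdeg v]
    exact Int.self_le_toNat _
  have hD : ∀ e, S.push E (S.src e) (S.s₁ e) = 0 ∧ S.push E (S.tgt e) (S.s₂ e) = 0 :=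
    fun e => ⟨S.push_apply_src hE e, S.push_apply_tgt hE e⟩
  have hdeg1 : ∀ v, c v ≤ Divisor.degree (S.push E v) :=
    fun v => le_trans (le_max_left _ _) (hdegE v)
  have hdegE' : c₀ ≤ Divisor.degree E := by
    rw [← S.sum_degree_push hF hFt E]
    obtain ⟨v₀⟩ := ‹Nonempty ι›
    have hnonneg : ∀ v, 0 ≤ Divisor.degree (S.push E v) := fun v =>
      le_trans (le_trans (le_max_right _ _) (le_max_right _ _)) (hdegE v)
    calc c₀ ≤ Divisor.degree (S.push E v₀) :=
          le_trans (le_trans (le_max_left _ _) (le_max_right _ _)) (hdegE v₀)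
      _ ≤ ∑ v, Divisor.degree (S.push E v) :=
          Finset.single_le_sum (fun v _ => hnonneg v) (Finset.mem_univ v₀)
  have h1 := hc₀ E hdegE'
  have h2 := hc (S.push E) hD hdeg1
  rw [S.sum_degree_push hF hFt E] at h2
  have hfin : Module.Finite k (gluedRR (S.graphNodes hdeg) (S.push E)) :=
    finite_gluedRR hFt (S.graphNodes hdeg) (S.push E) hD
  obtain ⟨W, hW, hWdim⟩ := hR (riemannRochSpace E) (hF.finite_L E)
  have hWle : W ≤ gluedRR (S.graphNodes hdeg) (S.push E) := by
    intro t ht
    obtain ⟨y, hy, hyO, rfl⟩ := (hW t).1 ht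
    exact S.resAll_mem_gluedRR hF hdeg hyO hy hE
  have hle : finrank k W ≤ finrank k (gluedRR (S.graphNodes hdeg) (S.push E)) :=
    Submodule.finrank_mono hWle
  rw [hWdim] at hle
  have hle' : (finrank K (riemannRochSpace E) : ℤ) ≤
      (finrank k (gluedRR (S.graphNodes hdeg) (S.push E)) : ℤ) := by exact_mod_cast hle
  rw [h1, h2] at hle'
  linarith

/-- The genus hypothesis of `MainStatement` follows from the inequality `g(F) ≤ p_a`. -/
theorem genus_eq_of_le [Fintype ι] [Fintype ν] [Nonempty ι] (hR : ResRank S)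
    (hF : RiemannPkg K F) (hFt : ∀ v, RiemannPkg k (Ft v))
    (hle : (genusFF K F : ℤ) ≤
      ∑ v, (genusFF k (Ft v) : ℤ) + Fintype.card ν - Fintype.card ι + 1) :
    (genusFF K F : ℤ) = ∑ v, (genusFF k (Ft v) : ℤ) + Fintype.card ν - Fintype.card ι + 1 := by
  have := S.card_nodes_le hR hF hFt
  linarith

end SemistableSetup

end Fermat.Agent.BR.SS
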