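import Mathlib
import Fermat.Agent.BR.SS.MainKernel
import Fermat.Agent.BR.SS.NormalFormData
import Fermat.Agent.BR.SS.Const
import Fermat.Agent.BR.SS.MultiApprox

/-!
# Program B (BADRED), block B3: the inputs (1), (5), (6) of `SS/MainKernel.lean`

* `S.approxProp` : input (1), from `S.approxAll` (`SS/MultiApprox`);
* `S.normalFormDataProp` : input (5), from `S.exists_normalFormData` (`SS/NormalFormData`), under
  `LiftLarge S`;
* `S.constLemmaProp` : input (6), from `S.const_lemma_chartOf` (`SS/Const`).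
-/

set_option autoImplicit false

namespace Fermat.Agent.BR.SS

open AlgebraicCurve Fermat.Agent.Red

variable {K F k : Type*} [Field K] [Field F] [Algebra K F] [Field k]
  {A : ValuationSubring K} {π : A →+* k} {ι : Type*} {Ft : ι → Type*}
  [∀ v, Field (Ft v)] [∀ v, Algebra k (Ft v)] {ν : Type*}

namespace SemistableSetup

variable (S : SemistableSetup (F := F) A π ι Ft ν)

/-- Input (1) of `SS/MainKernel`. -/
theorem approxProp [Finite ι] [Nonempty ι] : ApproxProp A S.Oall :=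
  S.approxProp_of_approxAll S.approxAll

/-- Input (5) of `SS/MainKernel`. -/
theorem normalFormDataProp [Fintype ι] [Finite ν] (hF : RiemannPkg K F)
    (hFt : ∀ v, RiemannPkg k (Ft v)) (hlift : LiftLarge S) : S.NormalFormDataProp := by
  intro m _ D hD hpush f hfO hf1 hfD
  obtain ⟨Z1, Z2, P₀, P₁, g2, hP₀v, hP₁v, hP₀Z, hP₁Z, hZ1s, hZ2s, hsupp, -, -, hdisj, hg2O, -,
    hg2res, hord, hf1c, hf1c', hf2c, -, hg2c, -⟩ :=
    S.exists_normalFormData hF hFt hlift m D hD hpush f hfO hf1 hfD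
  exact ⟨Z1, Z2, g2, hZ1s, hZ2s, fun v => ⟨P₁ v, hP₁Z v, hP₁v v⟩,
    fun v => ⟨P₀ v, hP₀Z v, hP₀v v⟩, hsupp, hdisj, hg2O, hg2res, hord, hf1c, hf1c', hf2c, hg2c⟩

/-- Input (6) of `SS/MainKernel`. -/
theorem constLemmaProp [Finite ι] [Finite ν] [Nonempty ι] (hF : RiemannPkg K F)
    (hFt : ∀ v, RiemannPkg k (Ft v)) : S.ConstLemmaProp := by
  haveI := hF.principal
  intro Z1 Z2 _ _ _ _ hdisj a ha
  refine S.const_lemma_chartOf S.approxProp (S.pi_surjective hF hFt) hF hFt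
    (Z1 : Set (Place K F)) (Z2 : Set (Place K F)) ?_ ha
  rw [Set.disjoint_left]
  rintro x ⟨P₁, hP₁, rfl⟩ ⟨P₂, hP₂, h⟩
  exact hdisj P₁ hP₁ P₂ hP₂ h.symm

end SemistableSetup

end Fermat.Agent.BR.SS
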