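/-
Program B (bad reduction), block B3 (helper19): input (4) of `BR/SS/MainKernel.lean` as a theorem.

* `S.upperProp hF : S.UpperProp` : the upper half of `SS/RR` in chart form
  (`S.upper_of_smooth` of `BR/SS/ChartRed`).
-/
import Mathlib
import Fermat.Agent.BR.SS.MainKernel
import Fermat.Agent.BR.SS.ChartRed

set_option autoImplicit false

namespace Fermat.Agent.BR.SS

open AlgebraicCurve Fermat.Agent.Red

variable {K F k : Type*} [Field K] [Field F] [Algebra K F] [Field k]
  {A : ValuationSubring K} {π : A →+* k} {ι : Type*} {Ft : ι → Type*}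
  [∀ v, Field (Ft v)] [∀ v, Algebra k (Ft v)] {ν : Type*}

namespace SemistableSetup

variable (S : SemistableSetup (F := F) A π ι Ft ν)

/-- Input (4) of `normalFormKernel_of_inputs`: the upper half of `SS/RR`, chart form. -/
theorem upperProp (hF : RiemannPkg K F) : S.UpperProp :=
  fun _ _ hZ hE => S.upper_of_smooth hF hZ hE

end SemistableSetup

end Fermat.Agent.BR.SS
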