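import Mathlib

/-!
# Program B (BADRED), block B3, node B3.WA (generic part): weak approximation for finitely many
pairwise incomparable valuation subrings of a field

Mathlib only.  Let `O j` (`j : ι`, `ι` finite) be valuation subrings of a field `F`, `v j` their
valuations, `B = ⋂ O j`.

* `exists_inv_geom_sum` : (Matsumura 12.2) for every `x : F` there is `z ≠ 0`
  (`z = (1 + x + ⋯ + x ^ (p - 1))⁻¹` for a suitable prime `p`) with `z ∈ B`, `x z ∈ B`, `z` a unit of
  `O j` when `x ∈ O j` and a non-unit otherwise.  Hence `O j` is the localisation of `B` at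
  `𝔪 j ∩ B`.
* `exists_unit_nonunits` : if the `O j` are pairwise incomparable, for every `i` there is `e ∈ B`,
  a unit of `O i` and a non-unit of every other `O j`.
* `exists_forall_unit_sub_lt` : every `s ∈ B` which is a unit of `O i` is congruent modulo `𝔪 i` to
  an element of `B` which is a unit of every `O j` (so `𝔪 i ∩ B` is a maximal ideal of `B`).
* `exists_mem_sub_lt` : `B → O i / 𝔪 i` is surjective.
* `exists_forall_sub_lt` : **weak approximation / Chinese remainder theorem**
  `B → ∏ O i / 𝔪 i` is surjective.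
-/

set_option autoImplicit false

namespace Fermat.Agent.BR.SS.WeakApprox

open Finset

variable {F : Type*} [Field F]

section One

variable (O : ValuationSubring F)

/-- The geometric sum `1 + x + ⋯ + x ^ (p - 1)` has valuation `v x ^ (p - 1)` when `x ∉ O`. -/
theorem valuation_geom_sum_of_not_mem {x : F} (hx : x ∉ O) {p : ℕ} (hp : 2 ≤ p) :
    O.valuation (∑ i ∈ range p, x ^ i) = O.valuation x ^ (p - 1) := by
  have hv : 1 < O.valuation x := by
    rw [← not_le, O.valuation_le_one_iff]
    exact hx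
  have h1 : O.valuation (x - 1) = O.valuation x := by
    apply Valuation.map_sub_eq_of_lt_left
    rw [map_one]
    exact hv
  have h2 : O.valuation (x ^ p - 1) = O.valuation x ^ p := by
    rw [← map_pow]
    apply Valuation.map_sub_eq_of_lt_left
    rw [map_one, map_pow]
    exact one_lt_pow₀ hv (by omega)
  have h3 := congrArg O.valuation (geom_sum_mul x p)
  rw [map_mul, h1, h2] at h3
  have hx0 : O.valuation x ≠ 0 := (zero_lt_one.trans hv).ne'
  have h4 : O.valuation x ^ p = O.valuation x ^ (p - 1) * O.valuation x := by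
    rw [← pow_succ]
    congr 1
    omega
  rw [h4] at h3
  exact mul_right_cancel₀ hx0 h3

/-- The geometric sum `1 + x + ⋯ + x ^ (p - 1)` is a unit of `O` when `x ∈ O`, `p` is a prime
different from the residue characteristic and from the order of the residue of `x`. -/
theorem valuation_geom_sum_of_mem {x : F} (hx : x ∈ O) {p : ℕ} (hp : p.Prime)
    (hchar : (p : IsLocalRing.ResidueField O) ≠ 0)
    (hord : orderOf (IsLocalRing.residue O ⟨x, hx⟩) ≠ p) :
    O.valuation (∑ i ∈ range p, x ^ i) = 1 := by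
  have hcoe : ((∑ i ∈ range p, (⟨x, hx⟩ : O) ^ i : O) : F) = ∑ i ∈ range p, x ^ i := by
    rw [← ValuationSubring.algebraMap_apply, map_sum]
    simp
  rw [← hcoe, ← O.valuation_eq_one_iff, ← IsLocalRing.residue_ne_zero_iff_isUnit, map_sum]
  simp only [map_pow]
  by_cases h1 : IsLocalRing.residue O ⟨x, hx⟩ = 1
  · rw [h1]
    simpa using hchar
  · intro h0
    have h2 := geom_sum_mul (IsLocalRing.residue O ⟨x, hx⟩) p
    rw [h0, zero_mul] at h2
    have hp1 : IsLocalRing.residue O ⟨x, hx⟩ ^ p = 1 := sub_eq_zero.mp h2.symm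
    rcases (Nat.dvd_prime hp).mp (orderOf_dvd_of_pow_eq_one hp1) with h | h
    · exact h1 (orderOf_eq_one_iff.mp h)
    · exact hord h

end One

section Family

variable {ι : Type*} (O : ι → ValuationSubring F)

/-- **(W1)** For every `x : F` there is `z ≠ 0` in `⋂ O j` with `x z ∈ ⋂ O j`, which is a unit of
`O j` when `x ∈ O j` and a non-unit of `O j` when `x ∉ O j`. -/
theorem exists_inv_geom_sum [Finite ι] (x : F) :
    ∃ z : F, z ≠ 0 ∧ ∀ j, (x ∈ O j → (O j).valuation z = 1) ∧
      (x ∉ O j → (O j).valuation z < 1) ∧ (O j).valuation (x * z) ≤ 1 := by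
  classical
  have := Fintype.ofFinite ι
  rcases isEmpty_or_nonempty ι with hι | ⟨⟨j₀⟩⟩
  · exact ⟨1, one_ne_zero, fun j => isEmptyElim j⟩
  let bad : Finset ℕ := (univ : Finset ι).biUnion fun j =>
    {ringChar (IsLocalRing.ResidueField (O j)),
      if hx : x ∈ O j then orderOf (IsLocalRing.residue (O j) ⟨x, hx⟩) else 0, 0}
  obtain ⟨p, hp, hpbad⟩ := Nat.infinite_setOfPred_prime.exists_notMem_finset bad
  have hp : p.Prime := hp
  have hbad : ∀ j, p ≠ ringChar (IsLocalRing.ResidueField (O j)) ∧
      ∀ hx : x ∈ O j, p ≠ orderOf (IsLocalRing.residue (O j) ⟨x, hx⟩) := by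
    intro j
    refine ⟨fun h => hpbad ?_, fun hx h => hpbad ?_⟩
    · rw [Finset.mem_biUnion]
      exact ⟨j, mem_univ j, by rw [h]; simp⟩
    · rw [Finset.mem_biUnion]
      refine ⟨j, mem_univ j, ?_⟩
      rw [dif_pos hx, h]
      simp
  have key : ∀ j, (x ∈ O j → (O j).valuation (∑ i ∈ range p, x ^ i) = 1) ∧
      (x ∉ O j → (O j).valuation (∑ i ∈ range p, x ^ i) = (O j).valuation x ^ (p - 1)) := by
    intro j
    refine ⟨fun hx => ?_, fun hx => valuation_geom_sum_of_not_mem (O j) hx hp.two_le⟩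
    apply valuation_geom_sum_of_mem (O j) hx hp
    · intro h0
      have hdvd := (ringChar.spec (IsLocalRing.ResidueField (O j)) p).mp h0
      rcases (Nat.dvd_prime hp).mp hdvd with h | h
      · exact CharP.ringChar_ne_one h
      · exact (hbad j).1 h.symm
    · exact fun h => (hbad j).2 hx h.symm
  have hone_lt : ∀ j, x ∉ O j → 1 < (O j).valuation x := fun j hx => by
    rw [← not_le, (O j).valuation_le_one_iff]
    exact hx
  have hu0 : (∑ i ∈ range p, x ^ i) ≠ 0 := by
    intro h0
    by_cases hx : x ∈ O j₀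
    · have := (key j₀).1 hx
      rw [h0, map_zero] at this
      exact zero_ne_one this
    · have := (key j₀).2 hx
      rw [h0, map_zero] at this
      exact (pow_ne_zero _ (zero_lt_one.trans (hone_lt j₀ hx)).ne') this.symm
  refine ⟨(∑ i ∈ range p, x ^ i)⁻¹, inv_ne_zero hu0, fun j => ⟨fun hx => ?_, fun hx => ?_, ?_⟩⟩
  · rw [map_inv₀, (key j).1 hx, inv_one]
  · rw [map_inv₀, (key j).2 hx]
    have h1 : 1 < (O j).valuation x ^ (p - 1) :=
      one_lt_pow₀ (hone_lt j hx) (by have := hp.two_le; omega)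
    exact (inv_lt_one₀ (zero_lt_one.trans h1)).mpr h1
  · by_cases hx : x ∈ O j
    · rw [map_mul, map_inv₀, (key j).1 hx, inv_one, mul_one]
      exact ((O j).valuation_le_one_iff x).mpr hx
    · rw [map_mul, map_inv₀, (key j).2 hx]
      have h1 := hone_lt j hx
      have h2 : 0 < (O j).valuation x ^ (p - 1) := pow_pos (zero_lt_one.trans h1) _
      rw [mul_inv_le_iff₀ h2, one_mul]
      exact le_self_pow₀ h1.le (by have := hp.two_le; omega)

/-- The element `z` of `exists_inv_geom_sum` lies in every `O j`. -/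
theorem exists_inv_geom_sum' [Finite ι] (x : F) :
    ∃ z : F, z ≠ 0 ∧ (∀ j, z ∈ O j) ∧ (∀ j, x * z ∈ O j) ∧
      (∀ j, x ∈ O j → (O j).valuation z = 1) ∧ ∀ j, x ∉ O j → (O j).valuation z < 1 := by
  obtain ⟨z, hz0, hz⟩ := exists_inv_geom_sum O x
  refine ⟨z, hz0, fun j => ?_, fun j => ((O j).valuation_le_one_iff _).mp (hz j).2.2,
    fun j => (hz j).1, fun j => (hz j).2.1⟩
  rw [← (O j).valuation_le_one_iff]
  by_cases hx : x ∈ O j
  · exact ((hz j).1 hx).le
  · exact ((hz j).2.1 hx).le

variable (hO : ∀ i j, i ≠ j → ¬ O i ≤ O j)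

include hO

/-- **(W2)** For `i ≠ j` there is `a ∈ ⋂ O l`, a unit of `O i` and a non-unit of `O j`. -/
theorem exists_unit_nonunit [Finite ι] {i j : ι} (hij : i ≠ j) :
    ∃ a : F, (∀ l, a ∈ O l) ∧ (O i).valuation a = 1 ∧ (O j).valuation a < 1 := by
  obtain ⟨x, hxi, hxj⟩ := SetLike.not_le_iff_exists.mp (hO i j hij)
  obtain ⟨z, -, hz, -, hunit, hnon⟩ := exists_inv_geom_sum' O x
  exact ⟨z, hz, hunit i hxi, hnon j hxj⟩

/-- **(W2')** For every `i` there is `e ∈ ⋂ O l`, a unit of `O i` and a non-unit of `O j` for all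
`j ≠ i`. -/
theorem exists_unit_nonunits [Finite ι] (i : ι) :
    ∃ e : F, (∀ l, e ∈ O l) ∧ (O i).valuation e = 1 ∧ ∀ j, j ≠ i → (O j).valuation e < 1 := by
  classical
  have := Fintype.ofFinite ι
  have hex : ∀ j, ∃ a : F, (∀ l, a ∈ O l) ∧ (O i).valuation a = 1 ∧
      (j ≠ i → (O j).valuation a < 1) := by
    intro j
    by_cases hji : j = i
    · exact ⟨1, fun l => (O l).one_mem, map_one _, fun h => absurd hji h⟩
    · obtain ⟨a, h1, h2, h3⟩ := exists_unit_nonunit O hO (Ne.symm hji)
      exact ⟨a, h1, h2, fun _ => h3⟩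
  choose a ha1 ha2 ha3 using hex
  refine ⟨∏ j, a j, fun l => prod_mem fun j _ => ha1 j l, ?_, fun j hj => ?_⟩
  · rw [map_prod]
    exact Finset.prod_eq_one fun j _ => ha2 j
  · rw [← Finset.mul_prod_erase univ a (mem_univ j), map_mul]
    have h1 : (O j).valuation (∏ l ∈ univ.erase j, a l) ≤ 1 :=
      ((O j).valuation_le_one_iff _).mpr (prod_mem fun l _ => ha1 l j)
    calc (O j).valuation (a j) * (O j).valuation (∏ l ∈ univ.erase j, a l)
        ≤ (O j).valuation (a j) * 1 := by gcongr
      _ = (O j).valuation (a j) := mul_one _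
      _ < 1 := ha3 j hj

/-- **(W3)** An element of `⋂ O l` which is a unit of `O i` is congruent modulo the maximal ideal
of `O i` to an element which is a unit of every `O l`. -/
theorem exists_forall_unit_sub_lt [Finite ι] (i : ι) {s : F} (hs : ∀ l, s ∈ O l)
    (hsi : (O i).valuation s = 1) :
    ∃ t : F, (∀ l, (O l).valuation t = 1) ∧ (O i).valuation (t - s) < 1 := by
  classical
  have := Fintype.ofFinite ι
  choose e he1 he2 he3 using exists_unit_nonunits O hO
  set J : Finset ι := univ.filter fun j => (O j).valuation s < 1 with hJ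
  have hmemJ : ∀ j, j ∈ J ↔ (O j).valuation s < 1 := fun j => by
    rw [hJ, Finset.mem_filter]
    exact ⟨fun h => h.2, fun h => ⟨mem_univ j, h⟩⟩
  have hiJ : i ∉ J := fun h => by
    have := (hmemJ i).mp h
    rw [hsi] at this
    exact lt_irrefl _ this
  -- valuation of the correction term
  have hlt : ∀ l, l ∉ J → (O l).valuation (∑ j ∈ J, e j) < 1 := by
    intro l hl
    apply Valuation.map_sum_lt _ one_ne_zero
    intro j hj
    exact he3 j l (fun h => hl (h ▸ hj))
  have heq : ∀ l, l ∈ J → (O l).valuation (∑ j ∈ J, e j) = 1 := by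
    intro l hl
    rw [Valuation.map_sum_eq_of_lt (j := l) _ hl, he2 l]
    intro j hj
    rw [he2 l]
    rw [Finset.mem_sdiff, Finset.mem_singleton] at hj
    exact he3 j l (Ne.symm hj.2)
  refine ⟨s + ∑ j ∈ J, e j, fun l => ?_, ?_⟩
  · by_cases hl : l ∈ J
    · rw [Valuation.map_add_eq_of_lt_right, heq l hl]
      rw [heq l hl]
      exact (hmemJ l).mp hl
    · have hsl : (O l).valuation s = 1 := by
        refine le_antisymm (((O l).valuation_le_one_iff _).mpr (hs l)) (not_lt.mp fun h => hl ?_)
        exact (hmemJ l).mpr h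
      rw [Valuation.map_add_eq_of_lt_left, hsl]
      rw [hsl]
      exact hlt l hl
  · rw [add_sub_cancel_left]
    exact hlt i hiJ

/-- **(W4)** `⋂ O l → O i / 𝔪 i` is surjective. -/
theorem exists_mem_sub_lt [Finite ι] (i : ι) {y : F} (hy : y ∈ O i) :
    ∃ c : F, (∀ l, c ∈ O l) ∧ (O i).valuation (c - y) < 1 := by
  obtain ⟨z, hz0, hz, hyz, hunit, -⟩ := exists_inv_geom_sum' O y
  obtain ⟨t, ht, hts⟩ := exists_forall_unit_sub_lt O hO i hz (hunit i hy)
  have ht0 : t ≠ 0 := by
    rintro rfl
    have := ht i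
    rw [map_zero] at this
    exact zero_ne_one this
  refine ⟨y * z * t⁻¹, fun l => ?_, ?_⟩
  · rw [← (O l).valuation_le_one_iff, map_mul, map_inv₀, ht l, inv_one, mul_one]
    exact ((O l).valuation_le_one_iff _).mpr (hyz l)
  · have e : y * z * t⁻¹ - y = y * (z - t) * t⁻¹ := by
      field_simp
    rw [e, map_mul, map_mul, map_inv₀, ht i, inv_one, mul_one, Valuation.map_sub_swap]
    calc (O i).valuation y * (O i).valuation (t - z)
        ≤ 1 * (O i).valuation (t - z) := by
          gcongr
          exact ((O i).valuation_le_one_iff _).mpr hy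
      _ = (O i).valuation (t - z) := one_mul _
      _ < 1 := hts

/-- Idempotents modulo the maximal ideals: `e ∈ ⋂ O l` with `e ≡ 1` modulo `𝔪 i` and `e ≡ 0`
modulo `𝔪 j` for `j ≠ i`. -/
theorem exists_one_sub_lt [Finite ι] (i : ι) :
    ∃ e : F, (∀ l, e ∈ O l) ∧ (O i).valuation (e - 1) < 1 ∧
      ∀ j, j ≠ i → (O j).valuation e < 1 := by
  obtain ⟨e, he1, he2, he3⟩ := exists_unit_nonunits O hO i
  have he0 : e ≠ 0 := by
    rintro rfl
    rw [map_zero] at he2
    exact zero_ne_one he2
  have hei : e⁻¹ ∈ O i := by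
    rw [← (O i).valuation_le_one_iff, map_inv₀, he2, inv_one]
  obtain ⟨c, hc1, hc2⟩ := exists_mem_sub_lt O hO i hei
  refine ⟨c * e, fun l => (O l).mul_mem _ _ (hc1 l) (he1 l), ?_, fun j hj => ?_⟩
  · have e1 : c * e - 1 = (c - e⁻¹) * e := by
      rw [sub_mul, inv_mul_cancel₀ he0]
    rw [e1, map_mul, he2, mul_one]
    exact hc2
  · rw [map_mul]
    calc (O j).valuation c * (O j).valuation e
        ≤ 1 * (O j).valuation e := by
          gcongr
          exact ((O j).valuation_le_one_iff _).mpr (hc1 j)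
      _ = (O j).valuation e := one_mul _
      _ < 1 := he3 j hj

/-- **(W5) Weak approximation / Chinese remainder theorem** for finitely many pairwise incomparable
valuation subrings: `⋂ O l → ∏ O i / 𝔪 i` is surjective. -/
theorem exists_forall_sub_lt [Finite ι] (y : ι → F) (hy : ∀ i, y i ∈ O i) :
    ∃ c : F, (∀ l, c ∈ O l) ∧ ∀ i, (O i).valuation (c - y i) < 1 := by
  classical
  have := Fintype.ofFinite ι
  choose e he1 he2 he3 using exists_one_sub_lt O hO
  choose c hc1 hc2 using fun i => exists_mem_sub_lt O hO i (hy i)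
  refine ⟨∑ i, c i * e i, fun l => sum_mem fun i _ => (O l).mul_mem _ _ (hc1 i l) (he1 i l),
    fun l => ?_⟩
  have e1 : ∑ i, c i * e i - y l =
      c l * (e l - 1) + (c l - y l) + ∑ i ∈ univ.erase l, c i * e i := by
    rw [← Finset.add_sum_erase univ _ (mem_univ l)]
    ring
  rw [e1]
  have hcl : ∀ i, (O l).valuation (c i) ≤ 1 := fun i =>
    ((O l).valuation_le_one_iff _).mpr (hc1 i l)
  refine Valuation.map_add_lt _ (Valuation.map_add_lt _ ?_ (hc2 l)) ?_
  · rw [map_mul]
    calc (O l).valuation (c l) * (O l).valuation (e l - 1)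
        ≤ 1 * (O l).valuation (e l - 1) := by
          gcongr
          exact hcl l
      _ = (O l).valuation (e l - 1) := one_mul _
      _ < 1 := he2 l
  · apply Valuation.map_sum_lt _ one_ne_zero
    intro i hi
    rw [map_mul]
    calc (O l).valuation (c i) * (O l).valuation (e i)
        ≤ 1 * (O l).valuation (e i) := by
          gcongr
          exact hcl i
      _ = (O l).valuation (e i) := one_mul _
      _ < 1 := he3 i l (Ne.symm (Finset.ne_of_mem_erase hi))

end Family

end Fermat.Agent.BR.SS.WeakApprox
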