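import Mathlib
import Fermat.Agent.BR.SS.Basic
import Fermat.Agent.BR.SS.WeakApproxGen

/-!
# Program B (BADRED), block B3, node B3.WA: joint surjectivity of the residue maps

For a semistable setup `S` with finitely many components, the valuation rings `S.O v` are pairwise
incomparable (`not_le_of_ne`: from `O_injective`, the value-group property `exists_smul_mem v` and
`O v ∩ K = A`; no rank-one hypothesis), hence by weak approximation (`SS/WeakApproxGen.lean`) the
tuple of residue maps `S.resAll : S.Oall → ∀ v, Ft v` is surjective (`exists_resAll_eq`).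
-/

set_option autoImplicit false

namespace Fermat.Agent.BR.SS

open AlgebraicCurve Fermat.Agent.Red

variable {K F k : Type*} [Field K] [Field F] [Algebra K F] [Field k]
  {A : ValuationSubring K} {π : A →+* k} {ι : Type*} {Ft : ι → Type*}
  [∀ v, Field (Ft v)] [∀ v, Algebra k (Ft v)] {ν : Type*}

namespace SemistableSetup

variable (S : SemistableSetup (F := F) A π ι Ft ν)

/-- If `O v ≤ O w` then `O w ≤ O v`: the value groups of all components are the value group of
`A`. -/
theorem le_of_le {v w : ι} (h : S.O v ≤ S.O w) : S.O w ≤ S.O v := by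
  intro x hxw
  by_contra hxv
  have hx0 : x ≠ 0 := fun h0 => hxv (h0 ▸ (S.O v).zero_mem)
  obtain ⟨c, hc0, hcx, hres⟩ := S.exists_smul_mem v hx0
  -- `c x` is a unit of `O v`, hence of `O w`
  have hinv : (c • x)⁻¹ ∈ S.O w := h (S.inv_mem_of_resF_ne_zero hres)
  have hcinv : algebraMap K F c⁻¹ ∈ S.O w := by
    have e : algebraMap K F c⁻¹ = x * (c • x)⁻¹ := by
      rw [Algebra.smul_def, mul_inv, map_inv₀, mul_comm (algebraMap K F c)⁻¹, ← mul_assoc,
        mul_inv_cancel₀ hx0, one_mul]
    rw [e]
    exact (S.O w).mul_mem _ _ hxw hinv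
  have hcA : c⁻¹ ∈ A := (S.algebraMap_mem_iff w c⁻¹).mp hcinv
  apply hxv
  have e : x = c⁻¹ • (c • x) := by rw [smul_smul, inv_mul_cancel₀ hc0, one_smul]
  rw [e]
  exact S.smul_mem_O v hcA hcx

/-- Distinct components have incomparable valuation rings. -/
theorem not_le_of_ne {v w : ι} (h : v ≠ w) : ¬ S.O v ≤ S.O w := fun hle =>
  h (S.O_injective (le_antisymm hle (S.le_of_le hle)))

/-- **Weak approximation**, elementwise form: prescribed elements `y v ∈ O v` are simultaneously
congruent to one element of `Oall`. -/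
theorem exists_resF_eq_resF [Finite ι] (y : ι → F) (hy : ∀ v, y v ∈ S.O v) :
    ∃ c ∈ S.Oall, ∀ v, S.resF v c = S.resF v (y v) := by
  obtain ⟨c, hc, hcy⟩ := WeakApprox.exists_forall_sub_lt S.O (fun _ _ h => S.not_le_of_ne h) y hy
  refine ⟨c, S.mem_Oall.mpr hc, fun v => ?_⟩
  have h1 : c - y v ∈ (S.O v).nonunits := (S.O v).mem_nonunits_iff.mpr (hcy v)
  have h2 : S.resF v (c - y v) = 0 :=
    (S.resF_eq_zero_iff ((S.O v).sub_mem (hc v) (hy v))).mpr h1
  rw [S.resF_sub (hc v) (hy v), sub_eq_zero] at h2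
  exact h2

/-- **Joint surjectivity of the residue maps** (`resF` form). -/
theorem exists_resF_eq [Finite ι] (t : ∀ v, Ft v) : ∃ y ∈ S.Oall, ∀ v, S.resF v y = t v := by
  choose y hy using fun v => S.res_surjective v (t v)
  obtain ⟨c, hc, hcy⟩ := S.exists_resF_eq_resF (fun v => (y v : F)) fun v => (y v).2
  refine ⟨c, hc, fun v => ?_⟩
  rw [hcy v, S.resF_of_mem (y v).2]
  exact hy v

/-- **Joint surjectivity of the residue maps**: `resAll : Oall → ∀ v, Ft v` is surjective. -/
theorem exists_resAll_eq [Finite ι] (t : ∀ v, Ft v) : ∃ y ∈ S.Oall, S.resAll y = t := by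
  obtain ⟨y, hy, h⟩ := S.exists_resF_eq t
  exact ⟨y, hy, funext h⟩

end SemistableSetup

end Fermat.Agent.BR.SS
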